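import Fermat.Agent.MLT.Two.Flat.Class
import Mathlib.Algebra.Module.ZMod
import Mathlib.LinearAlgebra.Dual.Lemmas

/-!
# Shallow homomorphisms with an equivariance

A shallow homomorphism on `C.H` invariant under `σ₀` vanishes; the shallow homomorphisms to a field
of four elements which `σ₀` rotates and a Frobenius-like element fixes are proportional.
-/

set_option autoImplicit false
set_option linter.unusedSectionVars false

noncomputable section

namespace FermatLib.MLT.Two.FlatTwo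

open FermatLib.Galois.Flat

local notation "Qbar" => AlgebraicClosure ℚ
local notation "Γℚ" => (AlgebraicClosure ℚ ≃ₐ[ℚ] AlgebraicClosure ℚ)

variable {A : ValuationSubring Qbar} {k : Type*} [Field k] [CharP k 2] [Finite k]

/-- All quadratic characters through `s` have shallow Kummer classes. -/
def IsShallowHom (C : InertiaCubic A) (s : Γℚ → k) : Prop :=
  (∀ σ ∈ C.H, ∀ τ ∈ C.H, s (σ * τ) = s σ + s τ) ∧
    ∀ π : k →+ ZMod 2, ∃ q : Qbar, q ≠ 0 ∧ (∀ τ ∈ C.H, τ (q ^ 2) = q ^ 2) ∧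
      IsShallow C (q ^ 2) ∧ ∀ τ ∈ C.H, (τ q = q ↔ π (s τ) = 0)

variable {C : InertiaCubic A} (hA : A.LiesOverPrime 2) {c : Qbar}
  (hc : A.valuation c = ev A 2) (hcfix : ∀ τ ∈ C.H, τ c = c)

include hA hc hcfix

/-- The rotation moves `c` by a nontrivial cube root of unity modulo the maximal ideal. -/
lemma valuation_rot_sub_one :
    A.valuation ((C.σ₀ c / c) ^ 5 - 1) = 1 := by
  have hσD := mem_decomposition_of_mem_inertia C.σ₀_mem
  have hconj : ∀ τ ∈ C.H, ∀ y, (∀ ν ∈ C.H, ν y = y) → τ (C.σ₀ y) = C.σ₀ y := by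
    intro τ hτ y hy
    calc τ (C.σ₀ y) = C.σ₀ ((C.σ₀⁻¹ * τ * C.σ₀) y) := by
          simp only [AlgEquiv.mul_apply, AlgEquiv.aut_inv]; rw [AlgEquiv.apply_symm_apply]
      _ = C.σ₀ y := by rw [hy _ (C.conj_mem τ hτ)]
  have f1 := fun τ hτ => hconj τ hτ c hcfix
  have f2 := fun τ hτ => hconj τ hτ (C.σ₀ c) f1
  have hcube : C.σ₀ (C.σ₀ (C.σ₀ c)) = c := by
    have := hcfix _ C.cube_mem
    rwa [pow_succ, pow_two, AlgEquiv.mul_apply, AlgEquiv.mul_apply] at this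
  have hc0 := c_ne_zero hc
  set ω := C.σ₀ c / c with hω
  have hωv : A.valuation ω = 1 := by
    rw [hω, map_div₀, valuation_apply_eq hσD, hc]; exact div_self (ev_ne_zero _)
  have hωA : ω ∈ A := (A.valuation_le_one_iff _).mp hωv.le
  have hσω : A.valuation (C.σ₀ ω - ω) < 1 := valuation_apply_sub_lt_one C.σ₀_mem hωA
  have hσσω : A.valuation (C.σ₀ (C.σ₀ ω) - ω) < 1 := by
    rw [show C.σ₀ (C.σ₀ ω) - ω = (C.σ₀ (C.σ₀ ω) - C.σ₀ ω) + (C.σ₀ ω - ω) by ring]
    exact A.valuation.map_add_lt (by rw [← map_sub, valuation_apply_eq hσD]; exact hσω) hσω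
  have e1 : C.σ₀ c = ω * c := (div_mul_cancel₀ _ hc0).symm
  have e2 : C.σ₀ (C.σ₀ c) = C.σ₀ ω * ω * c := by rw [e1, map_mul, e1]; ring
  have e3 : C.σ₀ (C.σ₀ ω) * C.σ₀ ω * ω = 1 := by
    have : C.σ₀ (C.σ₀ ω) * C.σ₀ ω * ω * c = c := by
      conv_rhs => rw [← hcube, e2, map_mul, map_mul, e1]
      ring
    exact mul_right_cancel₀ hc0 (this.trans (one_mul c).symm)
  have h3 : A.valuation (ω ^ 3 - 1) < 1 := by
    rw [← e3, show ω ^ 3 - C.σ₀ (C.σ₀ ω) * C.σ₀ ω * ω =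
      -((C.σ₀ (C.σ₀ ω) - ω) * (C.σ₀ ω * ω) + (C.σ₀ ω - ω) * (ω * ω)) by ring, Valuation.map_neg]
    refine A.valuation.map_add_lt ?_ ?_ <;>
      simp only [map_mul, valuation_apply_eq hσD, hωv, mul_one] <;> assumption
  have h1 : A.valuation (ω - 1) = 1 := by
    refine le_antisymm ((A.valuation_le_one_iff _).mpr (sub_mem hωA (one_mem A))) ?_
    by_contra! hlt
    set T := c + C.σ₀ c + C.σ₀ (C.σ₀ c) with hT
    have hTfix : ∀ σ ∈ A.inertiaSubgroupIn ℚ, σ T = T := by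
      intro σ hσ
      obtain ⟨i, τ, hτ, rfl⟩ := C.gen σ hσ
      rw [AlgEquiv.mul_apply, hT, map_add τ, map_add τ, hcfix τ hτ, f1 τ hτ, f2 τ hτ,
        apply_iterate_eq]
      refine Function.iterate_fixed ?_ i
      rw [map_add, map_add, hcube]
      ring
    have hσlt : A.valuation (C.σ₀ ω - 1) < 1 := by
      rw [show C.σ₀ ω - 1 = (C.σ₀ ω - ω) + (ω - 1) by ring]
      exact A.valuation.map_add_lt hσω hlt
    have hTc : A.valuation (T - (3 : ℕ) * c) < ev A 2 := by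
      rw [show T - (3 : ℕ) * c = ((ω - 1) + ((C.σ₀ ω - 1) * ω + (ω - 1))) * c by
        rw [hT, e2, e1]; push_cast; ring, map_mul, hc]
      refine mul_lt_of_lt_one_left (ev_pos _) (A.valuation.map_add_lt hlt
        (A.valuation.map_add_lt ?_ hlt))
      rw [map_mul, hωv, mul_one]
      exact hσlt
    have h3v : A.valuation ((3 : ℕ) * c) = ev A 2 := by
      rw [map_mul, valuation_natCast_odd hA (by norm_num), hc, ev_zero, one_mul]
    have hTv : A.valuation T = ev A 2 := by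
      rw [A.valuation.map_eq_of_sub_lt (by rwa [h3v]), h3v]
    have hT0 : T ≠ 0 := by intro h; rw [h, map_zero] at hTv; exact ev_ne_zero _ hTv.symm
    obtain ⟨n, hn⟩ := inertia_fixed_even hA hT0 hTfix
    rw [hTv, ev_inj hA] at hn
    omega
  have h5 : ω ^ 5 - 1 = ω ^ 2 * (ω ^ 3 - 1) + (ω - 1) * (ω + 1) := by ring
  have h2 : A.valuation ((ω - 1) * (ω + 1)) = 1 := by
    rw [map_mul, h1, one_mul, show ω + 1 = (ω - 1) + 2 by ring,
      A.valuation.map_add_eq_of_lt_left (by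
        rw [h1, ← ev_six, ← ev_zero (A := A)]; exact (ev_lt_ev hA).mpr (by norm_num)), h1]
  rw [h5, A.valuation.map_add_eq_of_lt_right (by
    rw [h2, map_mul, map_pow, hωv, one_pow, one_mul]; exact h3), h2]

variable {s : Γℚ → k} (hs : IsShallowHom C s)

include hs

/-- Equal characters have the same residues. -/
lemma residue_of_same_character {π : k →+ ZMod 2} {q q' t : Qbar} (hq0 : q ≠ 0) (hq'0 : q' ≠ 0)
    (hfix : ∀ τ ∈ C.H, τ (q ^ 2) = q ^ 2) (hfix' : ∀ τ ∈ C.H, τ (q' ^ 2) = q' ^ 2)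
    (h : ∀ τ ∈ C.H, (τ q = q ↔ π (s τ) = 0)) (h' : ∀ τ ∈ C.H, (τ q' = q' ↔ π (s τ) = 0))
    (ht : HasResidue C c (q ^ 2) t) : HasResidue C c (q' ^ 2) t := by
  obtain ⟨ht, w, hw0, hwfix, hw⟩ := ht
  refine ⟨ht, w * (q / q'), mul_ne_zero hw0 (div_ne_zero hq0 hq'0), fun τ hτ => ?_, ?_⟩
  · rw [map_mul, hwfix τ hτ, map_div₀]
    congr 1
    have hsq : ∀ z : Qbar, (∀ ν ∈ C.H, ν (z ^ 2) = z ^ 2) → τ z = z ∨ τ z = -z := fun z hz =>
      eq_or_eq_neg_of_sq_eq_sq _ _ (by rw [← map_pow, hz τ hτ])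
    by_cases hπ : π (s τ) = 0
    · rw [(h τ hτ).mpr hπ, (h' τ hτ).mpr hπ]
    · rw [(hsq q hfix).resolve_left fun e => hπ ((h τ hτ).mp e),
        (hsq q' hfix').resolve_left fun e => hπ ((h' τ hτ).mp e), neg_div_neg_eq]
  · rw [show q' ^ 2 * (w * (q / q')) ^ 2 = q ^ 2 * w ^ 2 by field_simp]
    exact hw

/-- The residue equation coming from an element fixing the character. -/
lemma residue_equation {g : Γℚ} (hg : g ∈ A.decompositionSubgroup ℚ)
    (hgH : ∀ τ ∈ C.H, g⁻¹ * τ * g ∈ C.H) {π : k →+ ZMod 2}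
    (hinv : ∀ τ ∈ C.H, π (s (g⁻¹ * τ * g)) = π (s τ)) {q t : Qbar} (hq0 : q ≠ 0)
    (hfix : ∀ τ ∈ C.H, τ (q ^ 2) = q ^ 2) (h : ∀ τ ∈ C.H, (τ q = q ↔ π (s τ) = 0))
    (ht : HasResidue C c (q ^ 2) t) : A.valuation (g t * (g c / c) ^ 5 - t) < 1 := by
  have hgfix : ∀ τ ∈ C.H, τ ((g q) ^ 2) = (g q) ^ 2 := fun τ hτ => by
    calc τ ((g q) ^ 2) = g ((g⁻¹ * τ * g) (q ^ 2)) := by
          simp only [AlgEquiv.mul_apply, AlgEquiv.aut_inv, AlgEquiv.apply_symm_apply, map_pow]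
      _ = (g q) ^ 2 := by rw [hfix _ (hgH τ hτ), map_pow]
  have hg' : ∀ τ ∈ C.H, (τ (g q) = g q ↔ π (s τ) = 0) := fun τ hτ => by
    rw [← hinv τ hτ, ← h _ (hgH τ hτ)]
    simp only [AlgEquiv.mul_apply, AlgEquiv.aut_inv]
    constructor
    · intro e; rw [e, AlgEquiv.symm_apply_apply]
    · intro e; exact g.symm.injective (e.trans (g.symm_apply_apply q).symm)
  have h1 : HasResidue C c ((g q) ^ 2) (g t * (g c / c) ^ 5) := by
    rw [← map_pow]; exact ht.map hA hc hcfix hg hgH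
  have h2 := residue_of_same_character hA hc hcfix hs ((map_ne_zero g).mpr hq0) hq0 hgfix hfix
    hg' h h1
  exact h2.unique hA hc hcfix (pow_ne_zero _ hq0) ht

/-- **A shallow homomorphism invariant under the rotation vanishes.** -/
theorem IsShallowHom.eq_zero_of_invariant (hinv : ∀ τ ∈ C.H, s (C.σ₀⁻¹ * τ * C.σ₀) = s τ) :
    ∀ τ ∈ C.H, s τ = 0 := by
  intro τ hτ
  let _ : Algebra (ZMod 2) k := ZMod.algebra k 2
  refine (Module.forall_dual_apply_eq_zero_iff (ZMod 2) (s τ)).mp fun φ => ?_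
  obtain ⟨q, hq0, hfix, hsh, h⟩ := hs.2 φ.toAddMonoidHom
  obtain ⟨t, ht⟩ := exists_hasResidue hA hc hcfix hfix hsh
  have he := residue_equation hA hc hcfix hs (mem_decomposition_of_mem_inertia C.σ₀_mem)
    C.conj_mem (fun ν hν => by rw [hinv ν hν]) hq0 hfix h ht
  have hσt := valuation_apply_sub_lt_one C.σ₀_mem ((A.valuation_le_one_iff t).mp ht.1)
  have hω := valuation_rot_sub_one hA hc hcfix
  set ω := C.σ₀ c / c
  have hωv : A.valuation (ω ^ 5) = 1 := by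
    rw [map_pow, map_div₀, valuation_apply_eq (mem_decomposition_of_mem_inertia C.σ₀_mem), hc,
      div_self (ev_ne_zero _), one_pow]
  have hlt : A.valuation (t * (ω ^ 5 - 1)) < 1 := by
    rw [show t * (ω ^ 5 - 1) = (C.σ₀ t * ω ^ 5 - t) - (C.σ₀ t - t) * ω ^ 5 by ring]
    refine (A.valuation.map_sub _ _).trans_lt (max_lt he ?_)
    rw [map_mul, hωv, mul_one]
    exact hσt
  rw [map_mul, hω, mul_one] at hlt
  exact (h τ hτ).mp (ht.apply_sqrt_eq hA hc hcfix hfix hlt τ hτ)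

/-- Residues of the quadratic characters through `s`. -/
lemma exists_residue_hom {φ : Γℚ} (hφ : φ ∈ A.decompositionSubgroup ℚ)
    (hφA : ∀ a ∈ A, A.valuation (φ a - a ^ 4) < 1) (hφH : ∀ τ ∈ C.H, φ⁻¹ * τ * φ ∈ C.H)
    (hinv : ∀ τ ∈ C.H, s (φ⁻¹ * τ * φ) = s τ) (π : k →+ ZMod 2) :
    ∃ q t : Qbar, q ≠ 0 ∧ (∀ τ ∈ C.H, τ (q ^ 2) = q ^ 2) ∧ HasResidue C c (q ^ 2) t ∧
      (∀ τ ∈ C.H, (τ q = q ↔ π (s τ) = 0)) ∧
      A.valuation (t ^ 4 * (φ c / c) ^ 5 - t) < 1 := by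
  obtain ⟨q, hq0, hfix, hsh, h⟩ := hs.2 π
  obtain ⟨t, ht⟩ := exists_hasResidue hA hc hcfix hfix hsh
  refine ⟨q, t, hq0, hfix, ht, h, ?_⟩
  have he := residue_equation hA hc hcfix hs hφ hφH (fun ν hν => by rw [hinv ν hν]) hq0 hfix h ht
  rw [show t ^ 4 * (φ c / c) ^ 5 - t = (φ t * (φ c / c) ^ 5 - t) -
    (φ t - t ^ 4) * (φ c / c) ^ 5 by ring]
  refine (A.valuation.map_sub _ _).trans_lt (max_lt he ?_)
  rw [map_mul, map_pow, map_div₀, valuation_apply_eq hφ, hc, div_self (ev_ne_zero _), one_pow,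
    mul_one]
  exact hφA t ((A.valuation_le_one_iff t).mp ht.1)

/-- **Shallow homomorphisms with the same equivariance are proportional.** -/
theorem IsShallowHom.exists_smul {φ : Γℚ} (hφ : φ ∈ A.decompositionSubgroup ℚ)
    (hφA : ∀ a ∈ A, A.valuation (φ a - a ^ 4) < 1) (hφH : ∀ τ ∈ C.H, φ⁻¹ * τ * φ ∈ C.H)
    (hk : Nat.card k = 4) {r : k} (hr : r ^ 2 + r + 1 = 0)
    (hrot : ∀ τ ∈ C.H, s (C.σ₀⁻¹ * τ * C.σ₀) = r * s τ)
    (hinv : ∀ τ ∈ C.H, s (φ⁻¹ * τ * φ) = s τ)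
    {s' : Γℚ → k} (hs' : IsShallowHom C s')
    (hrot' : ∀ τ ∈ C.H, s' (C.σ₀⁻¹ * τ * C.σ₀) = r * s' τ)
    (hinv' : ∀ τ ∈ C.H, s' (φ⁻¹ * τ * φ) = s' τ)
    (hne : ∃ τ ∈ C.H, s τ ≠ 0) : ∃ μ : k, ∀ τ ∈ C.H, s' τ = μ * s τ := by
  classical
  let _ : Algebra (ZMod 2) k := ZMod.algebra k 2
  have := Fintype.ofFinite k
  obtain ⟨τ₀, hτ₀, hne⟩ := hne
  have hr0 : r ≠ 0 := by rintro rfl; simp at hr
  have hr1 : r ≠ 1 := by
    rintro rfl
    rw [one_pow, CharTwo.add_self_eq_zero, zero_add] at hr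
    exact one_ne_zero hr
  have hr2 : r ^ 2 ≠ 1 ∧ r ^ 2 ≠ r := by
    refine ⟨fun h => hr0 ?_, fun h => hr1 ?_⟩
    · rwa [h, add_comm (1 : k) r, add_assoc, CharTwo.add_self_eq_zero, add_zero] at hr
    · rw [pow_two] at h
      exact mul_left_cancel₀ hr0 (h.trans (mul_one r).symm)
  set y₀ := s τ₀ with hy₀
  have hy : ∀ y : k, y = 0 ∨ y = y₀ ∨ y = r * y₀ ∨ y = r ^ 2 * y₀ := by
    intro y
    by_contra! h
    have hsub : ({0, y₀, r * y₀, r ^ 2 * y₀, y} : Finset k).card ≤ 4 := by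
      rw [← hk, Nat.card_eq_fintype_card]; exact Finset.card_le_univ _
    have h5 : ({0, y₀, r * y₀, r ^ 2 * y₀, y} : Finset k).card = 5 := by
      have a1 : y₀ ≠ r * y₀ := fun e => hr1 (mul_right_cancel₀ hne ((one_mul y₀).trans e)).symm
      have a2 : y₀ ≠ r ^ 2 * y₀ := fun e =>
        hr2.1 (mul_right_cancel₀ hne ((one_mul y₀).trans e)).symm
      have a3 : r * y₀ ≠ r ^ 2 * y₀ := fun e => hr2.2 (mul_right_cancel₀ hne e).symm
      simp [a1, a2, a3, hne.symm, hr0, hne, h.1.symm, h.2.1.symm, h.2.2.1.symm, h.2.2.2.symm]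
    omega
  choose q t hq0 hfix ht hchar heq using
    exists_residue_hom hA hc hcfix hs hφ hφA hφH hinv
  have hνv : A.valuation ((φ c / c) ^ 5) = 1 := by
    rw [map_pow, map_div₀, valuation_apply_eq hφ, hc, div_self (ev_ne_zero _), one_pow]
  let res : A →+* IsLocalRing.ResidueField A := IsLocalRing.residue A
  have htA : ∀ π, t π ∈ A := fun π => (A.valuation_le_one_iff _).mp (ht π).1
  have hres : ∀ (a b : Qbar) (ha : a ∈ A) (hb : b ∈ A),
      res ⟨a, ha⟩ = res ⟨b, hb⟩ ↔ A.valuation (a - b) < 1 := fun a b ha hb =>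
    Ideal.Quotient.eq.trans (A.valuation_lt_one_iff _)
  set ν : IsLocalRing.ResidueField A :=
    res ⟨(φ c / c) ^ 5, (A.valuation_le_one_iff _).mp hνv.le⟩ with hν
  have hν0 : ν ≠ 0 := by
    rw [hν, ← map_zero res, ← Subtype.coe_eta (0 : A) (zero_mem A)]
    exact fun e => hνv.not_lt (by simpa using (hres _ _ _ _).mp e)
  let P : Polynomial (IsLocalRing.ResidueField A) :=
    Polynomial.C ν * Polynomial.X ^ 4 - Polynomial.X
  have hP0 : P ≠ 0 := by
    intro h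
    have := congrArg (fun f => Polynomial.coeff f 4) h
    simp [P, Polynomial.coeff_X, hν0] at this
  have hroots : P.roots.toFinset.card ≤ 4 := by
    refine (Multiset.toFinset_card_le _).trans ((Polynomial.card_roots' P).trans ?_)
    refine (Polynomial.natDegree_sub_le _ _).trans (max_le ?_ (by simp))
    exact Polynomial.natDegree_C_mul_X_pow_le _ _
  have hroot : ∀ (x : Qbar) (hx : x ∈ A), A.valuation (x ^ 4 * (φ c / c) ^ 5 - x) < 1 →
      res ⟨x, hx⟩ ∈ P.roots.toFinset := by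
    intro x hx h
    rw [Multiset.mem_toFinset, Polynomial.mem_roots hP0, Polynomial.IsRoot, Polynomial.eval_sub,
      Polynomial.eval_mul, Polynomial.eval_C, Polynomial.eval_pow, Polynomial.eval_X, hν,
      ← map_pow, ← map_mul, sub_eq_zero]
    refine (hres _ _ (mul_mem ((A.valuation_le_one_iff _).mp hνv.le) (pow_mem hx 4)) hx).mpr ?_
    rwa [mul_comm]
  have hker : ∀ (π π' : k →+ ZMod 2), res ⟨_, htA π⟩ = res ⟨_, htA π'⟩ → π = π' := by
    intro π π' e
    have hlt := (hres _ _ _ _).mp e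
    have hm := (ht π).mul hA hc (ht π')
    rw [← mul_pow] at hm
    have h2 : A.valuation (t π + t π') < 1 := by
      rw [show t π + t π' = (t π - t π') + 2 * t π' by ring]
      refine A.valuation.map_add_lt hlt ?_
      rw [map_mul]
      exact mul_lt_one_of_nonneg_of_lt_one_left zero_le
        (by simpa using valuation_prime_lt_one hA) (ht π').1
    have hfix2 : ∀ ν ∈ C.H, ν ((q π * q π') ^ 2) = (q π * q π') ^ 2 := fun ν hν => by
      rw [mul_pow, map_mul, hfix π ν hν, hfix π' ν hν]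
    have htriv := hm.apply_sqrt_eq hA hc hcfix hfix2 h2
    have hiff : ∀ ν ∈ C.H, π (s ν) = π' (s ν) := by
      intro ν hν
      have h3 := htriv ν hν
      rw [map_mul] at h3
      rcases zmod_two_cases (π (s ν)) with a | a <;> rcases zmod_two_cases (π' (s ν)) with b | b
      · rw [a, b]
      · rw [(hchar π ν hν).mpr a] at h3
        exact absurd ((hchar π' ν hν).mp (mul_left_cancel₀ (hq0 π) h3)) (by rw [b]; decide)
      · rw [(hchar π' ν hν).mpr b] at h3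
        exact absurd ((hchar π ν hν).mp (mul_right_cancel₀ (hq0 π') h3)) (by rw [a]; decide)
      · rw [a, b]
    ext y
    rcases hy y with rfl | rfl | rfl | rfl
    · simp
    · exact hiff τ₀ hτ₀
    · have := hiff _ (C.conj_mem τ₀ hτ₀)
      rwa [hrot τ₀ hτ₀] at this
    · have := hiff _ (C.conj_mem _ (C.conj_mem τ₀ hτ₀))
      rwa [hrot _ (C.conj_mem τ₀ hτ₀), hrot τ₀ hτ₀, ← mul_assoc, ← pow_two] at this
  have : Finite (k →+ ZMod 2) := Finite.of_injective _ DFunLike.coe_injective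
  have := Fintype.ofFinite (k →+ ZMod 2)
  have hcard : Fintype.card (k →+ ZMod 2) = 4 := by
    rw [← Nat.card_eq_fintype_card]
    let e : (k →+ ZMod 2) ≃ Module.Dual (ZMod 2) k :=
      { toFun := fun f => f.toZModLinearMap 2
        invFun := fun f => f.toAddMonoidHom
        left_inv := fun f => by ext; rfl
        right_inv := fun f => by ext; rfl }
    rw [Nat.card_congr e, Module.natCard_eq_pow_finrank (K := ZMod 2),
      Subspace.dual_finrank_eq, ← Module.natCard_eq_pow_finrank, hk]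
  have himg : (Finset.univ.image fun π => res ⟨t π, htA π⟩) = P.roots.toFinset := by
    refine Finset.eq_of_subset_of_card_le (fun z hz => ?_) ?_
    · obtain ⟨π, -, rfl⟩ := Finset.mem_image.mp hz
      exact hroot _ _ (heq π)
    · rw [Finset.card_image_of_injective _ fun π π' e => hker π π' e, Finset.card_univ, hcard]
      exact hroots
  -- `s'` vanishes where `s` does
  have hvan : ∀ τ ∈ C.H, s τ = 0 → s' τ = 0 := by
    intro τ hτ h0
    refine (Module.forall_dual_apply_eq_zero_iff (ZMod 2) (s' τ)).mp fun ψ => ?_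
    obtain ⟨q', t', hq'0, hfix', ht', hchar', heq'⟩ :=
      exists_residue_hom hA hc hcfix hs' hφ hφA hφH hinv' ψ.toAddMonoidHom
    have hmem := hroot t' ((A.valuation_le_one_iff _).mp ht'.1) heq'
    rw [← himg] at hmem
    obtain ⟨π, -, hπ⟩ := Finset.mem_image.mp hmem
    have hlt := (hres _ _ _ _).mp hπ
    have hm := (ht π).mul hA hc ht'
    rw [← mul_pow] at hm
    have h2 : A.valuation (t π + t') < 1 := by
      rw [show t π + t' = (t π - t') + 2 * t' by ring]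
      refine A.valuation.map_add_lt hlt ?_
      rw [map_mul]
      exact mul_lt_one_of_nonneg_of_lt_one_left zero_le
        (by simpa using valuation_prime_lt_one hA) ht'.1
    have h3 := hm.apply_sqrt_eq hA hc hcfix (fun ν hν => by
      rw [mul_pow, map_mul, hfix π ν hν, hfix' ν hν]) h2 τ hτ
    rw [map_mul, (hchar π τ hτ).mpr (by rw [h0, map_zero])] at h3
    exact (hchar' τ hτ).mp (mul_left_cancel₀ (hq0 π) h3)
  refine ⟨s' τ₀ / y₀, fun τ hτ => ?_⟩
  have hdiff : ∀ σ ∈ C.H, s τ = s σ → s' τ = s' σ := by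
    intro σ hσ e
    have h0 := hvan _ (mul_mem hτ hσ) (by rw [hs.1 τ hτ σ hσ, e, CharTwo.add_self_eq_zero])
    rw [hs'.1 τ hτ σ hσ] at h0
    exact CharTwo.add_eq_zero.mp h0
  rcases hy (s τ) with e | e | e | e
  · rw [hvan τ hτ e, e, mul_zero]
  · rw [hdiff τ₀ hτ₀ e, e, div_mul_cancel₀ _ hne]
  · rw [hdiff _ (C.conj_mem τ₀ hτ₀) (e.trans (hrot τ₀ hτ₀).symm), hrot' τ₀ hτ₀, e]
    field_simp
  · have h2 := C.conj_mem _ (C.conj_mem τ₀ hτ₀)
    rw [hdiff _ h2 (by rw [e, hrot _ (C.conj_mem τ₀ hτ₀), hrot τ₀ hτ₀, ← hy₀]; ring),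
      hrot' _ (C.conj_mem τ₀ hτ₀), hrot' τ₀ hτ₀, e]
    field_simp

end FermatLib.MLT.Two.FlatTwo
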