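import Fermat.Agent.MLT.Two.Flat.Residue

/-!
# Square classes over the cubic tame level

Up to squares an element fixed by `C.H` has odd valuation, or valuation `0` and level `1` or `3`
(deep), or level at least `4` (shallow).
-/

set_option autoImplicit false

noncomputable section

namespace FermatLib.MLT.Two.FlatTwo

open FermatLib.Galois.Flat

local notation "Qbar" => AlgebraicClosure ℚ
local notation "Γℚ" => (AlgebraicClosure ℚ ≃ₐ[ℚ] AlgebraicClosure ℚ)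

variable {A : ValuationSubring Qbar} (hA : A.LiesOverPrime 2) (C : InertiaCubic A)

/-- The square class of `u` over the fixed field of `C.H` has level at least `4` of `6`
(upper ramification jump at most `1`). -/
def IsShallow (u : Qbar) : Prop :=
  ∃ w : Qbar, w ≠ 0 ∧ (∀ τ ∈ C.H, τ w = w) ∧ A.valuation (u * w ^ 2 - 1) ≤ ev A 8

/-- The deep square classes. -/
def IsDeep (u : Qbar) : Prop :=
  (∃ k : ℤ, A.valuation u = ev A (2 * (2 * k + 1))) ∨
    (A.valuation u = 1 ∧ (A.valuation (u - 1) = ev A 2 ∨ A.valuation (u - 1) = ev A 6))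

include hA in
lemma valuation_eq_of_sub_lt_one {a b : Qbar} (ha : A.valuation a = 1)
    (h : A.valuation (b - a) < 1) : A.valuation b = 1 := by
  rw [A.valuation.map_eq_of_sub_lt (by rwa [ha]), ha]

include hA in
/-- An element congruent to a square root modulo `m` squares to a congruent element. -/
lemma exists_fixed_sqrt {t : Qbar} (ht : A.valuation t ≤ 1) :
    ∃ s ∈ inertiaFixedRing A, A.valuation (s ^ 2 - t) < 1 := by
  obtain ⟨q, hq⟩ := IsAlgClosed.exists_pow_nat_eq t (n := 2) two_pos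
  have hqA : A.valuation q ≤ 1 := by
    rwa [← pow_le_one_iff two_ne_zero, ← map_pow, hq]
  obtain ⟨s, hs, hlt⟩ := exists_fixed_residue hA ((A.valuation_le_one_iff q).mp hqA)
  refine ⟨s, hs, ?_⟩
  rw [← hq, show s ^ 2 - q ^ 2 = (s - q) * (s + q) by ring, map_mul, Valuation.map_sub_swap]
  exact mul_lt_one_of_nonneg_of_lt_one_left zero_le hlt
    ((A.valuation_le_one_iff _).mpr (add_mem hs.1 ((A.valuation_le_one_iff q).mp hqA)))

include hA in
/-- Every square class is shallow or deep. -/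
theorem exists_shallow_or_deep {c : Qbar} (hc : A.valuation c = ev A 2)
    (hcfix : ∀ τ ∈ C.H, τ c = c) {u : Qbar} (hu : u ≠ 0) (hufix : ∀ τ ∈ C.H, τ u = u) :
    IsShallow C u ∨ ∃ w : Qbar, w ≠ 0 ∧ (∀ τ ∈ C.H, τ w = w) ∧ IsDeep (A := A) (u * w ^ 2) := by
  have hc0 : c ≠ 0 := by intro h; rw [h, map_zero] at hc; exact ev_ne_zero _ hc.symm
  obtain ⟨n, hn⟩ := C.exists_even hA u hu hufix
  rcases Int.even_or_odd n with ⟨m, hm⟩ | ⟨m, hm⟩
  swap
  · exact Or.inr ⟨1, one_ne_zero, fun τ _ => map_one τ, Or.inl ⟨m, by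
      rw [one_pow, mul_one, hn, hm]⟩⟩
  have hRfix : ∀ {s : Qbar}, s ∈ inertiaFixedRing A → ∀ τ ∈ C.H, τ s = s :=
    fun hs τ hτ => hs.2 τ (C.le_inertia hτ)
  -- a unit representative
  set w₀ := c ^ (-m) with hw₀
  have hw₀0 : w₀ ≠ 0 := zpow_ne_zero _ hc0
  have hw₀fix : ∀ τ ∈ C.H, τ w₀ = w₀ := fun τ hτ => by rw [hw₀, map_zpow₀, hcfix τ hτ]
  set u₁ := u * w₀ ^ 2 with hu₁
  have hu₁fix : ∀ τ ∈ C.H, τ u₁ = u₁ := fun τ hτ => by
    rw [hu₁, map_mul, map_pow, hufix τ hτ, hw₀fix τ hτ]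
  have hu₁v : A.valuation u₁ = 1 := by
    have e : A.valuation w₀ = ev A (2 * (-m)) := by
      rw [hw₀, map_zpow₀, hc, ev, ev, ← zpow_mul]
    rw [hu₁, map_mul, map_pow, hn, e, ev_pow, ← ev_add, hm, ← ev_zero (A := A)]
    congr 1
    push_cast
    ring
  obtain ⟨s, hs, hslt⟩ := exists_fixed_sqrt hA hu₁v.le
  have hs2 : A.valuation (s ^ 2) = 1 := valuation_eq_of_sub_lt_one hA hu₁v hslt
  have hs0 : s ≠ 0 := by rintro rfl; simp at hs2
  set u₂ := u₁ / s ^ 2 with hu₂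
  have hu₂fix : ∀ τ ∈ C.H, τ (u₂ - 1) = u₂ - 1 := fun τ hτ => by
    rw [hu₂, map_sub, map_div₀, map_pow, hu₁fix τ hτ, hRfix hs τ hτ, map_one]
  have hu₂lt : A.valuation (u₂ - 1) < ev A (2 * 0) := by
    rw [mul_zero, ev_zero, hu₂, div_sub_one (pow_ne_zero _ hs0), map_div₀, hs2, div_one,
      Valuation.map_sub_swap]
    exact hslt
  have hu₂v : A.valuation u₂ = 1 :=
    valuation_eq_of_sub_lt_one hA (map_one _) (by simpa using hu₂lt)
  have hwfix : ∀ τ ∈ C.H, τ (w₀ / s) = w₀ / s := fun τ hτ => by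
    rw [map_div₀, hw₀fix τ hτ, hRfix hs τ hτ]
  have hu₂e : u * (w₀ / s) ^ 2 = u₂ := by rw [hu₂, hu₁]; ring
  rcases lt_or_eq_of_le (C.le_ev_of_lt hA hu₂fix hu₂lt) with h2 | h2
  swap
  · exact Or.inr ⟨w₀ / s, div_ne_zero hw₀0 hs0, hwfix, by rw [hu₂e]; exact Or.inr ⟨hu₂v, Or.inl h2⟩⟩
  have h4 : A.valuation (u₂ - 1) ≤ ev A 4 :=
    C.le_ev_of_lt hA hu₂fix (n := 1) (by simpa using h2)
  obtain ⟨s', hs', hs'lt⟩ := exists_fixed_sqrt hA (t := (u₂ - 1) / c ^ 2) (by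
    rw [map_div₀, map_pow, hc, ev_pow]
    exact (div_le_one₀ (ev_pos _)).mpr h4)
  set g := 1 + s' * c with hg
  have hsc : A.valuation (s' * c) < 1 := by
    rw [map_mul, hc]
    refine mul_lt_one_of_nonneg_of_lt_one_right ((A.valuation_le_one_iff _).mpr hs'.1) zero_le ?_
    rw [← ev_zero (A := A)]; exact (ev_lt_ev hA).mpr (by norm_num)
  have hgv : A.valuation g = 1 :=
    valuation_eq_of_sub_lt_one hA (map_one _) (by simpa [hg] using hsc)
  have hg0 : g ≠ 0 := by intro h; rw [h, map_zero] at hgv; exact zero_ne_one hgv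
  have hgfix : ∀ τ ∈ C.H, τ g = g := fun τ hτ => by
    rw [hg, map_add, map_one, map_mul, hRfix hs' τ hτ, hcfix τ hτ]
  set u₃ := u₂ / g ^ 2 with hu₃
  have hu₃v : A.valuation u₃ = 1 := by rw [hu₃, map_div₀, map_pow, hu₂v, hgv, one_pow, div_one]
  have hu₃fix : ∀ τ ∈ C.H, τ (u₃ - 1) = u₃ - 1 := fun τ hτ => by
    have h := hu₂fix τ hτ
    rw [map_sub, map_one] at h
    rw [hu₃, map_sub, map_div₀, map_pow, hgfix τ hτ, map_one, sub_left_inj.mp h]
  have hu₃e : u * (w₀ / s / g) ^ 2 = u₃ := by rw [hu₃, ← hu₂e]; ring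
  have hwfix' : ∀ τ ∈ C.H, τ (w₀ / s / g) = w₀ / s / g := fun τ hτ => by
    rw [map_div₀, hwfix τ hτ, hgfix τ hτ]
  have hw0' : w₀ / s / g ≠ 0 := div_ne_zero (div_ne_zero hw₀0 hs0) hg0
  have h6 : A.valuation (u₃ - 1) ≤ ev A 6 := by
    refine C.le_ev_of_lt hA hu₃fix (n := 2) ?_
    rw [hu₃, div_sub_one (pow_ne_zero _ hg0), map_div₀, map_pow, hgv, one_pow, div_one]
    rw [show u₂ - g ^ 2 = -((s' ^ 2 - (u₂ - 1) / c ^ 2) * c ^ 2) - 2 * (s' * c) by
      simp only [hg]; field_simp; ring]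
    refine (A.valuation.map_sub _ _).trans_lt (max_lt ?_ ?_)
    · rw [Valuation.map_neg, map_mul, map_pow, hc, ev_pow]
      exact mul_lt_of_lt_one_left (ev_pos _) hs'lt
    · rw [map_mul, ← ev_six]
      refine lt_of_le_of_lt (mul_le_of_le_one_right' hsc.le) ((ev_lt_ev hA).mpr (by norm_num))
  rcases lt_or_eq_of_le h6 with h | h
  · exact Or.inl ⟨_, hw0', hwfix', by
      rw [hu₃e]; exact C.le_ev_of_lt hA hu₃fix (n := 3) (by simpa using h)⟩
  · exact Or.inr ⟨_, hw0', hwfix', by rw [hu₃e]; exact Or.inr ⟨hu₃v, Or.inr h⟩⟩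

include hA in
/-- For a deep class the translate `r = √u - ε` has odd valuation. -/
lemma deep_root {u q : Qbar} (hq : q ^ 2 = u) (h : IsDeep (A := A) u) :
    ∃ (ε : Qbar) (o s : ℤ), (ε = 0 ∨ ε = 1) ∧ Odd o ∧
      A.valuation (q - ε) = ev A o ∧ A.valuation q = ev A s ∧
      (o = s ∨ (s = 0 ∧ (o = 1 ∨ o = 3))) := by
  have hsq : ∀ {z : Qbar} {k : ℤ}, A.valuation (z ^ 2) = ev A (2 * k) →
      A.valuation z = ev A k := by
    intro z k hz
    refine (pow_left_inj₀ zero_le zero_le two_ne_zero).mp ?_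
    rw [← map_pow, hz, ev_pow]
    congr 1
    push_cast; ring
  rcases h with ⟨k, hk⟩ | ⟨hu1, hlev⟩
  · have := hsq (z := q) (by rw [hq]; exact hk)
    exact ⟨0, 2 * k + 1, 2 * k + 1, Or.inl rfl, odd_two_mul_add_one k, by rwa [sub_zero], this,
      Or.inl rfl⟩
  have hqv : A.valuation q = ev A 0 := hsq (z := q) (by rw [hq, hu1, mul_zero, ev_zero])
  have hr : A.valuation (q - 1) > ev A 6 := by
    by_contra! hle
    have h12 : A.valuation (u - 1) ≤ ev A 12 := by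
      rw [← hq, show q ^ 2 - 1 = (q - 1) * ((q - 1) + 2) by ring]
      exact valuation_mul_le_ev (m := 6) (n := 6) hle (A.valuation.map_add_le hle ev_six.ge)
    rcases hlev with h | h <;> rw [h, ev_le_ev hA] at h12 <;> omega
  have hsum : A.valuation (q - 1 + 2) = A.valuation (q - 1) :=
    A.valuation.map_add_eq_of_lt_left (by rw [← ev_six]; exact hr)
  have hrv : A.valuation ((q - 1) ^ 2) = A.valuation (u - 1) := by
    rw [← hq, show q ^ 2 - 1 = (q - 1) * ((q - 1) + 2) by ring, map_mul, hsum, map_pow, pow_two]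
  rcases hlev with h | h
  · exact ⟨1, 1, 0, Or.inr rfl, odd_one,
      hsq (by rw [hrv, h]; rfl), hqv, Or.inr ⟨rfl, Or.inl rfl⟩⟩
  · exact ⟨1, 3, 0, Or.inr rfl, ⟨1, rfl⟩,
      hsq (by rw [hrv, h]; rfl), hqv, Or.inr ⟨rfl, Or.inr rfl⟩⟩

include hA in
/-- In a deep quadratic extension, conjugation moves integral elements of small valuation very
little. -/
theorem deep_displacement {u q : Qbar} (hq : q ^ 2 = u) (hu : u ≠ 0)
    (hdeep : IsDeep (A := A) u) {τ₁ : Γℚ} (hτ₁ : τ₁ ∈ C.H) (hτ₁q : τ₁ q = -q)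
    (hufix : ∀ τ ∈ C.H, τ u = u) {Y : Qbar} (hY : ∀ τ ∈ C.H, τ q = q → τ Y = Y) :
    (A.valuation Y ≤ ev A 1 → A.valuation (τ₁ Y - Y) ≤ ev A 4) ∧
      (A.valuation Y ≤ ev A 2 → A.valuation (τ₁ Y - Y) ≤ ev A 6) := by
  obtain ⟨ε, o, s, hε, ho, hro, hqs, hcases⟩ := deep_root hA hq hdeep
  have hq0 : q ≠ 0 := by rintro rfl; exact hu (by rw [← hq]; simp)
  have hsign : ∀ τ ∈ C.H, τ q = q ∨ τ q = -q := fun τ hτ => by
    have : τ q ^ 2 = q ^ 2 := by rw [← map_pow, hq, hufix τ hτ]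
    exact eq_or_eq_neg_of_sq_eq_sq _ _ this
  have hεfix : ∀ τ : Γℚ, τ ε = ε := fun τ => by rcases hε with rfl | rfl <;> simp
  have h2q : (2 : Qbar) * q ≠ 0 := mul_ne_zero two_ne_zero hq0
  set b := (τ₁ Y - Y) / (-2 * q) with hb
  set a := Y - b * (q - ε) with ha
  have hsame : ∀ ν ∈ C.H, ν q = q → ν (τ₁ Y) = τ₁ Y := by
    intro ν hν hνq
    have := hY (τ₁⁻¹ * ν * τ₁) (mul_mem (mul_mem (inv_mem hτ₁) hν) hτ₁) (by
      simp only [AlgEquiv.mul_apply, AlgEquiv.aut_inv, hτ₁q, map_neg, hνq]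
      rw [← map_neg, ← hτ₁q, AlgEquiv.symm_apply_apply])
    simp only [AlgEquiv.mul_apply, AlgEquiv.aut_inv] at this
    calc ν (τ₁ Y) = τ₁ (τ₁.symm (ν (τ₁ Y))) := (τ₁.apply_symm_apply _).symm
      _ = τ₁ Y := by rw [this]
  have hopp : ∀ ν ∈ C.H, ν q = -q → ν Y = τ₁ Y ∧ ν (τ₁ Y) = Y := by
    intro ν hν hνq
    have h1 := hY (τ₁⁻¹ * ν) (mul_mem (inv_mem hτ₁) hν) (by
      simp only [AlgEquiv.mul_apply, AlgEquiv.aut_inv, hνq, ← hτ₁q, AlgEquiv.symm_apply_apply])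
    have h2 := hY (ν * τ₁) (mul_mem hν hτ₁) (by
      rw [AlgEquiv.mul_apply, hτ₁q, map_neg, hνq, neg_neg])
    simp only [AlgEquiv.mul_apply, AlgEquiv.aut_inv] at h1 h2
    exact ⟨by rw [← τ₁.apply_symm_apply (ν Y), h1], h2⟩
  have hbfix : ∀ ν ∈ C.H, ν b = b := by
    intro ν hν
    rcases hsign ν hν with hνq | hνq
    · rw [hb, map_div₀, map_sub, map_mul, map_neg, map_ofNat, hY ν hν hνq, hsame ν hν hνq, hνq]
    · obtain ⟨h1, h2⟩ := hopp ν hν hνq
      rw [hb, map_div₀, map_sub, map_mul, map_neg, map_ofNat, h1, h2, hνq]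
      field_simp
      ring
  have hafix : ∀ ν ∈ C.H, ν a = a := by
    intro ν hν
    rcases hsign ν hν with hνq | hνq
    · rw [ha, map_sub, map_mul, map_sub, hY ν hν hνq, hbfix ν hν, hνq, hεfix]
    · rw [ha, map_sub, map_mul, map_sub, (hopp ν hν hνq).1, hbfix ν hν, hνq, hεfix, hb]
      field_simp
      ring
  have hYab : Y = a + b * (q - ε) := by rw [ha]; ring
  have hmove : τ₁ Y - Y = b * (-2 * q) := by rw [hb]; field_simp
  rw [hmove, map_mul, map_mul, Valuation.map_neg, ← ev_six, hqs, ← ev_add]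
  rcases eq_or_ne b 0 with hb0 | hb0
  · simp [hb0]
  obtain ⟨m, hm⟩ := C.exists_even hA b hb0 hbfix
  have hbr : A.valuation (b * (q - ε)) = ev A (2 * m + o) := by rw [map_mul, hm, hro, ← ev_add]
  have hle : A.valuation (b * (q - ε)) ≤ A.valuation Y := by
    rw [hYab, A.valuation.map_add_of_distinct_val ?_]
    · exact le_max_right _ _
    intro h
    rcases eq_or_ne a 0 with ha0 | ha0
    · rw [ha0, map_zero, hbr] at h; exact ev_ne_zero _ h.symm
    obtain ⟨i, hi⟩ := C.exists_even hA a ha0 hafix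
    rw [hi, hbr, ev_inj hA] at h
    obtain ⟨l, rfl⟩ := ho
    omega
  rw [hbr] at hle
  obtain ⟨l, rfl⟩ := ho
  rw [hm, ← ev_add]
  refine ⟨fun hYle => ?_, fun hYle => ?_⟩ <;>
  · have := (ev_le_ev hA).mp (hle.trans hYle)
    rw [ev_le_ev hA]
    omega

end FermatLib.MLT.Two.FlatTwo
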