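import Fermat.Agent.MLT.Two.Flat.Bound
import Fermat.Agent.MLT.Two.Flat.Shallow

/-!
# Flat extensions of the supersingular line have shallow Kummer classes

The quadratic characters of `C.H` trivial on the stabiliser of a point of a flat extension, killed by
`2`, of the cubic line by itself have upper ramification jump at most `1`.
-/

set_option autoImplicit false

noncomputable section

namespace FermatLib.MLT.Two.FlatTwo

open FermatLib.Galois.Flat

local notation "Qbar" => AlgebraicClosure ℚ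
local notation "Γℚ" => (AlgebraicClosure ℚ ≃ₐ[ℚ] AlgebraicClosure ℚ)

variable {A : ValuationSubring Qbar} {M : Type*} [AddCommGroup M] {act : Γℚ → M →+ M}
variable (G : IntegralModel A act)

include G in
/-- The functions of a model separate all points. -/
lemma eq_of_forall_apply_eq {y z : M} (h : ∀ g ∈ G.fns, g y = g z) : y = z := by
  by_contra hne
  obtain ⟨g, hg, hgne⟩ := G.separates (y - z) (sub_ne_zero.mpr hne)
  apply hgne
  obtain ⟨n, a, b, ha, -, hab⟩ := G.comul g hg
  have h0 : g 0 = ∑ i, a i z * b i (-z) := by rw [← hab, add_neg_cancel]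
  rw [h0, sub_eq_add_neg, hab]
  exact Finset.sum_congr rfl fun i _ => by rw [h _ (ha i)]

include G in
lemma act_mul {σ τ : Γℚ} (hσ : σ ∈ A.inertiaSubgroupIn ℚ) (hτ : τ ∈ A.inertiaSubgroupIn ℚ)
    (y : M) : act (σ * τ) y = act σ (act τ y) :=
  eq_of_forall_apply_eq G fun g hg => by
    rw [G.equivariant _ (mul_mem hσ hτ) g hg, G.equivariant σ hσ g hg, G.equivariant τ hτ g hg,
      AlgEquiv.mul_apply]

include G in
lemma act_one (y : M) : act 1 y = y :=
  eq_of_forall_apply_eq G fun g hg => by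
    rw [G.equivariant 1 (one_mem _) g hg]; rfl

variable (hA : A.LiesOverPrime 2) [Finite M]
  {C : InertiaCubic A} {N : AddSubgroup M} {x d : M} (hE : CubicExt C act N x d)

omit [Finite M] in
include G hE in
/-- The displacement `τ x - x`, as a function of `τ ∈ C.H`. -/
lemma displacement_add {σ τ : Γℚ} (hσ : σ ∈ C.H) (hτ : τ ∈ C.H) :
    act (σ * τ) x - x = (act σ x - x) + (act τ x - x) := by
  have hn : act τ x - x ∈ N := hE.lineQ.fixed τ hτ
  have hfix : act σ (act τ x - x) = act τ x - x := by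
    have hd : act σ d = d := by
      have := hE.lineN.fixed σ hσ
      rwa [AddSubgroup.mem_bot, sub_eq_zero] at this
    have h1 : act σ (act C.σ₀ d) = act C.σ₀ d := by
      have hν : C.σ₀⁻¹ * σ * C.σ₀ ∈ C.H := C.conj_mem σ hσ
      have := hE.lineN.fixed _ hν
      rw [AddSubgroup.mem_bot, sub_eq_zero, act_mul G
        (mul_mem (inv_mem C.σ₀_mem) (C.le_inertia hσ)) C.σ₀_mem,
        act_mul G (inv_mem C.σ₀_mem) (C.le_inertia hσ)] at this
      have h2 := congrArg (act C.σ₀) this
      rw [← act_mul G C.σ₀_mem (inv_mem C.σ₀_mem), mul_inv_cancel, act_one G] at h2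
      exact h2
    have h2 : act σ (act C.σ₀ (act C.σ₀ d)) = act C.σ₀ (act C.σ₀ d) := by
      have hs : d + act C.σ₀ d + act C.σ₀ (act C.σ₀ d) = 0 :=
        AddSubgroup.mem_bot.mp hE.lineN.sum_mem
      rw [eq_neg_of_add_eq_zero_right hs, map_neg, map_add, hd, h1]
    rcases hE.mem_N _ hn with h | h | h | h <;> rw [h]
    exacts [map_zero _, hd, h1, h2]
  rw [act_mul G (C.le_inertia hσ) (C.le_inertia hτ)]
  rw [map_sub] at hfix
  calc act σ (act τ x) - x = (act σ (act τ x) - act σ x) + (act σ x - x) := by abel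
    _ = _ := by rw [hfix]; abel

include G hE hA in
/-- **Flat extensions have shallow classes.** -/
theorem isShallow_of_stabilizer_le {u q : Qbar} (hu : u ≠ 0) (hufix : ∀ τ ∈ C.H, τ u = u)
    (hq : q ^ 2 = u) (hstab : ∀ τ ∈ C.H, act τ x = x → τ q = q) : IsShallow C u := by
  classical
  obtain ⟨f, hf⟩ := exists_isUniformizer G hA hE
  have hcfix : ∀ τ ∈ C.H, τ (f d) = f d := fun τ hτ => by
    rw [← G.equivariant τ (C.le_inertia hτ) f hf.mem, sub_eq_zero.mp (AddSubgroup.mem_bot.mp
      (hE.lineN.fixed τ hτ))]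
  rcases exists_shallow_or_deep hA C hf.val hcfix hu hufix with h | ⟨w, hw0, hwfix, hdeep⟩
  · exact h
  -- normalise the square class
  set u' := u * w ^ 2 with hu'
  set q' := q * w with hq'
  have hq'2 : q' ^ 2 = u' := by rw [hq', hu', mul_pow, hq]
  have hu'0 : u' ≠ 0 := mul_ne_zero hu (pow_ne_zero _ hw0)
  have hu'fix : ∀ τ ∈ C.H, τ u' = u' := fun τ hτ => by
    rw [hu', map_mul, map_pow, hufix τ hτ, hwfix τ hτ]
  have hstab' : ∀ τ ∈ C.H, act τ x = x → τ q' = q' := fun τ hτ h => by
    rw [hq', map_mul, hstab τ hτ h, hwfix τ hτ]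
  have hsign : ∀ τ ∈ C.H, τ q' = q' ∨ τ q' = -q' := fun τ hτ => by
    have : τ q' ^ 2 = q' ^ 2 := by rw [← map_pow, hq'2, hu'fix τ hτ]
    exact eq_or_eq_neg_of_sq_eq_sq _ _ this
  by_cases hall : ∀ τ ∈ C.H, τ q = q
  · refine ⟨q⁻¹, inv_ne_zero ?_, fun τ hτ => by rw [map_inv₀, hall τ hτ], ?_⟩
    · rintro rfl; exact hu (by rw [← hq]; simp)
    · rw [inv_pow, hq, mul_inv_cancel₀ hu, sub_self, map_zero]; exact zero_le
  push Not at hall
  obtain ⟨τ₁, hτ₁, hτ₁q⟩ := hall
  have hτ₁q' : τ₁ q' = -q' := (hsign τ₁ hτ₁).resolve_left fun h => hτ₁q (by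
    rw [hq', map_mul, hwfix τ₁ hτ₁] at h
    exact mul_right_cancel₀ hw0 h)
  exfalso
  have hneg : q' ≠ -q' := by
    intro h
    have h0 : q' = 0 := by
      have : (2 : Qbar) * q' = 0 := by linear_combination h
      exact (mul_eq_zero.mp this).resolve_left two_ne_zero
    exact hu'0 (by rw [← hq'2, h0]; simp)
  set n₁ := act τ₁ x - x with hn₁
  have hn₁N : n₁ ∈ N := hE.lineQ.fixed τ₁ hτ₁
  have hn₁0 : n₁ ≠ 0 := fun h => hneg ((hstab' τ₁ hτ₁ (sub_eq_zero.mp h)).symm.trans hτ₁q')
  have heq : ∀ τ ∈ C.H, f (act τ x) = τ (f x) := fun τ hτ =>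
    G.equivariant τ (C.le_inertia hτ) f hf.mem x
  have hyv : A.valuation (f x) ≤ ev A 1 := valuation_uniformizer_le G hA hE hf
  have hσD := mem_decomposition_of_mem_inertia C.σ₀_mem
  have hN2 : ∀ n ∈ N, ∀ g ∈ G.invariants (⊥ : AddSubgroup M),
      A.valuation (g n - g 0) ≤ ev A 2 := by
    intro n hn g hg
    obtain ⟨h1, h2, -⟩ := delta_rot G hE.lineN hg
    have hd := valuation_line_le G hA hE (G.mem_invariants.mp hg).1
    rcases hE.mem_N n hn with rfl | rfl | rfl | rfl
    · simp
    · exact hd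
    · rw [h1, valuation_apply_eq hσD]; exact hd
    · rw [h2, valuation_apply_eq hσD, valuation_apply_eq hσD]; exact hd
  by_cases hA' : ∀ ν ∈ C.H, ν q' = q' → act ν x = x
  · -- the point is defined over the quadratic extension
    have hy : ∀ ν ∈ C.H, ν q' = q' → ν (f x) = f x := fun ν hν h => by
      rw [← heq ν hν, hA' ν hν h]
    have h4 := (deep_displacement hA C hq'2 hu'0 hdeep hτ₁ hτ₁q' hu'fix hy).1 hyv
    rw [← heq τ₁ hτ₁, show act τ₁ x = x + n₁ by rw [hn₁]; abel,
      valuation_translate_eq G hA hE hf hn₁N hn₁0, ev_le_ev hA] at h4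
    omega
  push Not at hA'
  obtain ⟨ν, hν, hνq, hνx⟩ := hA'
  set n₂ := act ν x - x with hn₂
  have hn₂N : n₂ ∈ N := hE.lineQ.fixed ν hν
  have hn₂0 : n₂ ≠ 0 := fun h => hνx (sub_eq_zero.mp h)
  have htwo : ∀ n : M, n + n = 0 := fun n => by rw [← two_nsmul]; exact hE.two n
  have hn12 : n₁ + n₂ ≠ 0 := by
    intro h
    have h1 := displacement_add G hE hτ₁ hν
    rw [← hn₁, ← hn₂, h] at h1
    have h2 := hstab' _ (mul_mem hτ₁ hν) (sub_eq_zero.mp h1)
    rw [AlgEquiv.mul_apply, hνq, hτ₁q'] at h2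
    exact hneg h2.symm
  -- the displacement of an element fixing `q'` is `0` or `n₂`
  have hline : ∀ m ∈ N, m = 0 ∨ m = n₁ ∨ m = n₂ ∨ m = n₁ + n₂ := by
    intro m hm
    have key : ∀ a b e : M, a + b + e = 0 → (∀ z ∈ N, z = 0 ∨ z = a ∨ z = b ∨ z = e) →
        n₁ = a → m = 0 ∨ m = n₁ ∨ m = n₂ ∨ m = n₁ + n₂ := by
      rintro a b e habe hmem rfl
      have hbe : n₁ + b = e := by
        calc n₁ + b = (n₁ + b + e) - e := by abel
          _ = 0 - e + (e + e) := by rw [habe, htwo e, add_zero]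
          _ = e := by abel
      have heb : n₁ + e = b := by
        calc n₁ + e = (n₁ + b + e) - b := by abel
          _ = 0 - b + (b + b) := by rw [habe, htwo b, add_zero]
          _ = b := by abel
      rcases hmem n₂ hn₂N with h | h | h | h
      · exact absurd h hn₂0
      · exact absurd (by rw [h, htwo]) hn12
      · rcases hmem m hm with h' | h' | h' | h'
        exacts [Or.inl h', Or.inr (Or.inl h'), Or.inr (Or.inr (Or.inl (h'.trans h.symm))),
          Or.inr (Or.inr (Or.inr (by rw [h', h, hbe])))]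
      · rcases hmem m hm with h' | h' | h' | h'
        exacts [Or.inl h', Or.inr (Or.inl h'), Or.inr (Or.inr (Or.inr (by rw [h', h, heb]))),
          Or.inr (Or.inr (Or.inl (h'.trans h.symm)))]
    have hs : d + act C.σ₀ d + act C.σ₀ (act C.σ₀ d) = 0 :=
      AddSubgroup.mem_bot.mp hE.lineN.sum_mem
    rcases hE.mem_N n₁ hn₁N with h | h | h | h
    · exact absurd h hn₁0
    · exact key _ _ _ hs hE.mem_N h
    · exact key _ d (act C.σ₀ (act C.σ₀ d)) (by rw [← hs]; abel) (fun z hz => by
        rcases hE.mem_N z hz with h | h | h | h <;> simp [h]) h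
    · exact key _ d (act C.σ₀ d) (by rw [← hs]; abel) (fun z hz => by
        rcases hE.mem_N z hz with h | h | h | h <;> simp [h]) h
  have hdisp : ∀ μ ∈ C.H, μ q' = q' → act μ x = x ∨ act μ x = x + n₂ := by
    intro μ hμ hμq
    rcases hline _ (hE.lineQ.fixed μ hμ) with h | h | h | h
    · exact Or.inl (sub_eq_zero.mp h)
    · exfalso
      have h1 := displacement_add G hE hτ₁ hμ
      rw [← hn₁, h, htwo] at h1
      have h2 := hstab' _ (mul_mem hτ₁ hμ) (sub_eq_zero.mp h1)
      rw [AlgEquiv.mul_apply, hμq, hτ₁q'] at h2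
      exact hneg h2.symm
    · exact Or.inr (by rw [← h]; abel)
    · exfalso
      have h1 := displacement_add G hE (mul_mem hτ₁ hν) hμ
      rw [displacement_add G hE hτ₁ hν, ← hn₁, ← hn₂, h, htwo] at h1
      have h2 := hstab' _ (mul_mem (mul_mem hτ₁ hν) hμ) (sub_eq_zero.mp h1)
      rw [AlgEquiv.mul_apply, AlgEquiv.mul_apply, hμq, hνq, hτ₁q'] at h2
      exact hneg h2.symm
  have hactn : ∀ μ ∈ C.H, ∀ n ∈ N, act μ (x + n) = act μ x + n := by
    intro μ hμ n hn
    rw [map_add]
    congr 1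
    by_cases hn' : n = 0
    · rw [hn', map_zero]
    -- `n` is a displacement
    rcases hline n hn with h | h | h | h
    · exact absurd h hn'
    · have e := displacement_add G hE hμ hτ₁
      rw [act_mul G (C.le_inertia hμ) (C.le_inertia hτ₁)] at e
      rw [h, hn₁, map_sub]
      calc act μ (act τ₁ x) - act μ x = (act μ (act τ₁ x) - x) - (act μ x - x) := by abel
        _ = _ := by rw [e]; abel
    · have e := displacement_add G hE hμ hν
      rw [act_mul G (C.le_inertia hμ) (C.le_inertia hν)] at e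
      rw [h, hn₂, map_sub]
      calc act μ (act ν x) - act μ x = (act μ (act ν x) - x) - (act μ x - x) := by abel
        _ = _ := by rw [e]; abel
    · have e := displacement_add G hE hμ (mul_mem hτ₁ hν)
      rw [act_mul G (C.le_inertia hμ) (C.le_inertia (mul_mem hτ₁ hν))] at e
      rw [h, hn₁, hn₂, ← displacement_add G hE hτ₁ hν, map_sub]
      calc act μ (act (τ₁ * ν) x) - act μ x
          = (act μ (act (τ₁ * ν) x) - x) - (act μ x - x) := by abel
        _ = _ := by rw [e]; abel
  have heqn : ∀ μ ∈ C.H, μ (f (x + n₂)) = f (act μ x + n₂) := fun μ hμ => by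
    rw [← G.equivariant μ (C.le_inertia hμ) f hf.mem, hactn μ hμ n₂ hn₂N]
  set Y := f x * f (x + n₂) with hY
  have hYfix : ∀ μ ∈ C.H, μ q' = q' → μ Y = Y := by
    intro μ hμ hμq
    rw [hY, map_mul, ← heq μ hμ, heqn μ hμ]
    rcases hdisp μ hμ hμq with h | h <;> rw [h]
    rw [add_assoc, htwo, add_zero, mul_comm]
  have ht := valuation_translate_eq G hA hE hf hn₂N hn₂0
  have hxn : A.valuation (f (x + n₂)) ≤ ev A 1 := by
    rw [show f (x + n₂) = (f (x + n₂) - f x) + f x by ring]
    exact A.valuation.map_add_le (le_ev_mono hA (by norm_num) ht.le) hyv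
  have h6 := (deep_displacement hA C hq'2 hu'0 hdeep hτ₁ hτ₁q' hu'fix hYfix).2
    (valuation_mul_le_ev hyv hxn)
  -- the displacement of `Y` is exactly `2/3`
  have hz := valuation_translate_eq G hA hE hf hn₁N hn₁0
  have hr := valuation_translate_eq G hA hE hf (N.add_mem hn₁N hn₂N) hn12
  have he : A.valuation (f (x + n₁ + n₂) - f (x + n₁) - f (x + n₂) + f x) ≤ ev A 4 := by
    refine (valuation_secondDiff_le G hA hE.lineN.stable (hN2 n₁ hn₁N) (hN2 n₂ hn₂N)
      (mem_invariants_bot G hE hf.mem) x).trans_eq ?_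
    rw [← ev_add]; rfl
  rw [← add_assoc] at hr
  set y := f x
  set z := f (x + n₁) - y with hzdef
  set t := f (x + n₂) - y with htdef
  set e := f (x + n₁ + n₂) - f (x + n₁) - f (x + n₂) + y with hedef
  have hτY : τ₁ Y - Y = z * (z + t) + (2 * (y * z) + e * (y + z)) := by
    rw [hY, map_mul, ← heq τ₁ hτ₁, heqn τ₁ hτ₁, show act τ₁ x = x + n₁ by rw [hn₁]; abel,
      hzdef, htdef, hedef]
    ring
  have hzt : A.valuation (z + t) = ev A 2 := by
    have : A.valuation ((f (x + n₁ + n₂) - y) - e) = ev A 2 := by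
      have hlt : A.valuation e < A.valuation (f (x + n₁ + n₂) - y) := by
        rw [hr]
        exact he.trans_lt ((ev_lt_ev hA).mpr (by norm_num))
      rw [A.valuation.map_sub_eq_of_lt_left hlt, hr]
    rw [← this]
    congr 1
    simp only [hzdef, htdef, hedef]
    ring
  have hsmall : A.valuation (2 * (y * z) + e * (y + z)) ≤ ev A 5 := by
    refine A.valuation.map_add_le ?_ ?_
    · refine le_ev_mono hA (show (5 : ℤ) ≤ 6 + (1 + 2) by norm_num)
        (valuation_mul_le_ev ev_six.ge (valuation_mul_le_ev hyv hz.le))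
    · exact valuation_mul_le_ev (m := 4) (n := 1) he
        (A.valuation.map_add_le hyv (le_ev_mono hA (by norm_num) hz.le))
  have hmain : A.valuation (z * (z + t)) = ev A 4 := by rw [map_mul, hz, hzt, ← ev_add]; rfl
  rw [hτY, A.valuation.map_add_eq_of_lt_left (by
    rw [hmain]; exact hsmall.trans_lt ((ev_lt_ev hA).mpr (by norm_num))), hmain,
    ev_le_ev hA] at h6
  omega

end FermatLib.MLT.Two.FlatTwo
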