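import Fermat.Agent.MLT.Two.Flat.Subquotient
import Fermat.Agent.MLT.Two.Flat.Equivariant
import Fermat.Agent.MLT.Two.Flat.Jump
import Fermat.Agent.MLT.Two.LocalAlg
import Fermat.Agent.Galois.Flat.Points

/-!
# Flat lifts to `k[ε]` at `2` of a residual representation with inertia of order three

For a representation over `k[ε]`, `k` of four elements, flat at `2`, whose residual inertia is
generated by `diag(ζ, ζ²)`: the diagonal `ε`-entries vanish on inertia (`flat_diag_inertia_eq_zero`)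
and each off-diagonal one, restricted to the residually trivial inertia, lies on one line
(`flat_antidiag_line`).
-/

set_option autoImplicit false
set_option linter.unusedSectionVars false

noncomputable section

namespace FermatLib.MLT.Two.FlatTwo

open FermatLib.Galois FermatLib.Galois.Flat TrivSqZeroExt Matrix

local notation "Qbar" => AlgebraicClosure ℚ
local notation "Γℚ" => (AlgebraicClosure ℚ ≃ₐ[ℚ] AlgebraicClosure ℚ)

variable {A : ValuationSubring Qbar} {k : Type} [Field k] [CharP k 2] [Finite k]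

/-- Residual inertia at `A` is generated by `diag(ζ, ζ²)`, the image of `σ₀`. -/
structure IsCubicResidual (A : ValuationSubring Qbar) (rbar : Γℚ →* Matrix (Fin 2) (Fin 2) k)
    (σ₀ : Γℚ) (ζ : k) : Prop where
  zeta : ζ ^ 2 + ζ + 1 = 0
  σ₀_mem : σ₀ ∈ A.inertiaSubgroupIn ℚ
  rot : rbar σ₀ = !![ζ, 0; 0, ζ ^ 2]
  cyclic : ∀ σ ∈ A.inertiaSubgroupIn ℚ, ∃ i : ℕ, rbar σ = rbar σ₀ ^ i

/-- `ρ` reduces to `rbar`, factors through a finite level and has a finite flat model at `2`. -/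
structure IsFlatLift (rbar : Γℚ →* Matrix (Fin 2) (Fin 2) k)
    (ρ : Γℚ →* Matrix (Fin 2) (Fin 2) (DualNumber k)) : Prop where
  red : ∀ σ, fstM (ρ σ) = rbar σ
  finite_level : ∃ U : Subgroup Γℚ, IsOpen (U : Set Γℚ) ∧ ∀ g ∈ U, ρ g = 1
  flat : FlatModel.HasModelAt 2 (Fin 2 → DualNumber k) fun σ v => ρ σ *ᵥ v

lemma conj_mem_inertia {g τ : Γℚ} (hg : g ∈ A.decompositionSubgroup ℚ)
    (hτ : τ ∈ A.inertiaSubgroupIn ℚ) : g⁻¹ * τ * g ∈ A.inertiaSubgroupIn ℚ := by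
  obtain ⟨t, ht, rfl⟩ := hτ
  refine ⟨(⟨g, hg⟩ : A.decompositionSubgroup ℚ)⁻¹ * t * ⟨g, hg⟩, ?_, rfl⟩
  exact (MonoidHom.normal_ker _).conj_mem' t ht ⟨g, hg⟩

variable {rbar : Γℚ →* Matrix (Fin 2) (Fin 2) k} {σ₀ : Γℚ} {ζ : k}
  (hρb : IsCubicResidual A rbar σ₀ ζ)

include hρb

lemma IsCubicResidual.zeta_cube : ζ ^ 3 = 1 := by
  linear_combination (ζ - 1) * hρb.zeta

lemma IsCubicResidual.rot_cube : rbar σ₀ ^ 3 = 1 := by
  have h6 : (ζ ^ 2) ^ 3 = 1 := by rw [← pow_mul, show 2 * 3 = 3 * 2 from rfl, pow_mul,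
    hρb.zeta_cube, one_pow]
  rw [hρb.rot, pow_succ, pow_two]
  ext i j
  fin_cases i <;> fin_cases j <;> simp [Matrix.mul_apply, Fin.sum_univ_two] <;>
    first
      | linear_combination hρb.zeta_cube
      | linear_combination h6

lemma IsCubicResidual.diag {σ : Γℚ} (hσ : σ ∈ A.inertiaSubgroupIn ℚ) {i j : Fin 2} (hij : i ≠ j) :
    rbar σ i j = 0 := by
  obtain ⟨n, hn⟩ := hρb.cyclic σ hσ
  rw [hn, hρb.rot, show (!![ζ, 0; 0, ζ ^ 2] : Matrix (Fin 2) (Fin 2) k) =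
    Matrix.diagonal ![ζ, ζ ^ 2] by ext a b; fin_cases a <;> fin_cases b <;> simp,
    Matrix.diagonal_pow]
  exact Matrix.diagonal_apply_ne _ hij

/-- The residually trivial inertia. -/
def IsCubicResidual.cubic : InertiaCubic A where
  H := A.inertiaSubgroupIn ℚ ⊓ rbar.ker
  σ₀ := σ₀
  le_inertia := inf_le_left
  σ₀_mem := hρb.σ₀_mem
  cube_mem := Subgroup.mem_inf.mpr ⟨pow_mem hρb.σ₀_mem 3, MonoidHom.mem_ker.mpr (by
    rw [map_pow, hρb.rot_cube])⟩
  conj_mem τ hτ := Subgroup.mem_inf.mpr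
    ⟨mul_mem (mul_mem (inv_mem hρb.σ₀_mem) hτ.1) hρb.σ₀_mem, MonoidHom.mem_ker.mpr (by
    rw [map_mul, map_mul, MonoidHom.mem_ker.mp hτ.2, mul_one, ← map_mul, inv_mul_cancel,
      map_one])⟩
  gen σ hσ := by
    obtain ⟨i, hi⟩ := hρb.cyclic σ hσ
    refine ⟨i, (σ₀ ^ i)⁻¹ * σ, Subgroup.mem_inf.mpr
      ⟨mul_mem (inv_mem (pow_mem hρb.σ₀_mem i)) hσ, MonoidHom.mem_ker.mpr ?_⟩, by group⟩
    rw [map_mul, hi, ← map_pow, ← map_mul, inv_mul_cancel, map_one]

lemma IsCubicResidual.apply_H {τ : Γℚ} (hτ : τ ∈ hρb.cubic.H) : rbar τ = 1 :=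
  MonoidHom.mem_ker.mp hτ.2

lemma IsCubicResidual.rot_ii (i : Fin 2) :
    rbar σ₀ i i ^ 2 + rbar σ₀ i i + 1 = 0 ∧ rbar σ₀ i i ≠ 0 := by
  have hζ0 : ζ ≠ 0 := by
    intro h
    have := hρb.zeta
    rw [h] at this
    simp at this
  rw [hρb.rot]
  fin_cases i
  · exact ⟨by simpa using hρb.zeta, by simpa using hζ0⟩
  · refine ⟨?_, by simpa using hζ0⟩
    simp only [Fin.mk_one, Matrix.of_apply, Matrix.cons_val', Matrix.cons_val_one,
      Matrix.cons_val_fin_one]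
    linear_combination (ζ ^ 2 - ζ + 1) * hρb.zeta

variable {ρ : Γℚ →* Matrix (Fin 2) (Fin 2) (DualNumber k)} (hρ : IsFlatLift rbar ρ)

include hρ

omit hρb in
lemma IsFlatLift.snd_mul (σ τ : Γℚ) :
    sndM (ρ (σ * τ)) = rbar σ * sndM (ρ τ) + sndM (ρ σ) * rbar τ := by
  rw [map_mul, sndM_mul, hρ.red, hρ.red]

/-- The `(i, j)` entry of the `ε`-part as a homomorphism on the residually trivial inertia. -/
lemma IsFlatLift.snd_add {σ τ : Γℚ} (hσ : σ ∈ hρb.cubic.H) (hτ : τ ∈ hρb.cubic.H) (i j : Fin 2) :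
    sndM (ρ (σ * τ)) i j = sndM (ρ σ) i j + sndM (ρ τ) i j := by
  rw [hρ.snd_mul, hρb.apply_H hσ, hρb.apply_H hτ, Matrix.one_mul, Matrix.mul_one,
    Matrix.add_apply, add_comm]

/-- Equivariance of the entries. -/
lemma IsFlatLift.snd_conj {g τ : Γℚ} (hτ : τ ∈ hρb.cubic.H) :
    rbar g * sndM (ρ (g⁻¹ * τ * g)) = sndM (ρ τ) * rbar g := by
  have h1 := hρ.snd_mul g (g⁻¹ * τ * g)
  rw [show g * (g⁻¹ * τ * g) = τ * g by group, hρ.snd_mul τ g, hρb.apply_H hτ, Matrix.one_mul,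
    map_mul rbar (g⁻¹ * τ) g, map_mul rbar g⁻¹ τ, hρb.apply_H hτ, mul_one, ← map_mul rbar g⁻¹ g,
    inv_mul_cancel, map_one, Matrix.mul_one] at h1
  rw [add_comm] at h1
  exact (add_right_cancel h1).symm

lemma IsFlatLift.snd_rot (i j : Fin 2) {τ : Γℚ} (hτ : τ ∈ hρb.cubic.H) :
    sndM (ρ (σ₀⁻¹ * τ * σ₀)) i j = rbar σ₀ j j / rbar σ₀ i i * sndM (ρ τ) i j := by
  have h := congrFun (congrFun (hρ.snd_conj hρb (g := σ₀) hτ) i) j
  rw [Matrix.mul_apply, Matrix.mul_apply, Finset.sum_eq_single i (fun b _ hb => by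
      rw [hρb.diag hρb.σ₀_mem hb.symm, zero_mul]) (by simp),
    Finset.sum_eq_single j (fun b _ hb => by rw [hρb.diag hρb.σ₀_mem hb, mul_zero]) (by simp)] at h
  rw [div_mul_eq_mul_div, eq_div_iff (hρb.rot_ii i).2, mul_comm, h, mul_comm]

/-- The action on the subquotient `k × k` through the entry `(i, j)`. -/
def entryAct (rbar : Γℚ →* Matrix (Fin 2) (Fin 2) k)
    (ρ : Γℚ →* Matrix (Fin 2) (Fin 2) (DualNumber k)) (i j : Fin 2) (σ : Γℚ) : k × k →+ k × k where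
  toFun v := (rbar σ j j * v.1, rbar σ i i * v.2 + sndM (ρ σ) i j * v.1)
  map_zero' := by simp
  map_add' u v := by ext <;> simp [mul_add, add_add_add_comm]

/-- The embedding of the subquotient. -/
def entrySec (i j : Fin 2) (v : k × k) : Fin 2 → DualNumber k :=
  Pi.single j (TrivSqZeroExt.inl v.1) + Pi.single i (TrivSqZeroExt.inr v.2)

variable (hA : A.LiesOverPrime 2) (i j : Fin 2)

include hA

lemma exists_entry_model : Nonempty (IntegralModel A (entryAct rbar ρ i j)) := by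
  classical
  have : Finite (DualNumber k) := Finite.of_equiv (k × k)
    { toFun := fun p => TrivSqZeroExt.inl p.1 + TrivSqZeroExt.inr p.2
      invFun := fun x => (x.fst, x.snd)
      left_inv := fun p => by simp
      right_inv := fun x => TrivSqZeroExt.inl_fst_add_inr_snd_eq x }
  let act : Γℚ → (Fin 2 → DualNumber k) →+ (Fin 2 → DualNumber k) :=
    fun σ => (Matrix.mulVecLin (ρ σ)).toAddMonoidHom
  obtain ⟨G, -⟩ := Flat.exists_integralModel (act := act) Nat.prime_two hA hρ.flat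
  let K : AddSubgroup (Fin 2 → DualNumber k) :=
    { carrier := {v | (∀ l, (v l).fst = 0) ∧ (v i).snd = 0}
      add_mem' := fun {a b} ha hb => ⟨fun l => by simp [ha.1 l, hb.1 l], by simp [ha.2, hb.2]⟩
      zero_mem' := ⟨fun l => rfl, rfl⟩
      neg_mem' := fun {a} ha => ⟨fun l => by simp [ha.1 l], by simp [ha.2]⟩ }
  have hact : ∀ σ v, act σ v = ρ σ *ᵥ v := fun σ v => rfl
  have hfst : ∀ σ v l, (act σ v l).fst = ∑ b, rbar σ l b * (v b).fst := fun σ v l => by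
    simp [hact, Matrix.mulVec, dotProduct, Fin.sum_univ_two, ← hρ.red, fstM_apply]
  have hsnd : ∀ σ v l, (act σ v l).snd =
      ∑ b, (rbar σ l b * (v b).snd + sndM (ρ σ) l b * (v b).fst) := fun σ v l => by
    simp [hact, Matrix.mulVec, dotProduct, Fin.sum_univ_two, ← hρ.red, fstM_apply, sndM_apply]
  refine nonempty_subquotient_model G Nat.prime_two hA (K := K) ?_ (entrySec i j) ?_ ?_ ?_
  · intro σ hσ v hv
    refine ⟨fun l => by rw [hfst]; simp [hv.1], ?_⟩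
    rw [hsnd, Finset.sum_eq_single i (fun b _ hb => by simp [hv.1 b, hρb.diag hσ hb.symm])
      (by simp), hv.2, hv.1]
    simp
  · intro y z
    have : entrySec i j (y + z) - (entrySec i j y + entrySec i j z) = 0 := by
      simp only [entrySec, Prod.fst_add, Prod.snd_add, TrivSqZeroExt.inl_add,
        TrivSqZeroExt.inr_add, Pi.single_add]
      abel
    rw [this]
    exact zero_mem K
  · intro σ hσ y
    have he : ∀ l, (entrySec i j y l).fst = if l = j then y.1 else 0 := fun l => by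
      simp only [entrySec, Pi.add_apply, Pi.single_apply]; split_ifs <;> simp
    have he2 : ∀ l, (entrySec i j y l).snd = if l = i then y.2 else 0 := fun l => by
      simp only [entrySec, Pi.add_apply, Pi.single_apply]; split_ifs <;> simp
    have he' : ∀ l, (entrySec i j (entryAct rbar ρ i j σ y) l).fst =
        if l = j then rbar σ j j * y.1 else 0 := fun l => by
      simp only [entrySec, entryAct, AddMonoidHom.coe_mk, ZeroHom.coe_mk, Pi.add_apply,
        Pi.single_apply]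
      split_ifs <;> simp
    refine ⟨fun l => ?_, ?_⟩
    · rw [Pi.sub_apply, TrivSqZeroExt.fst_sub, he', hfst,
        Finset.sum_eq_single j (fun b _ hb => by simp [he, hb]) (by simp), he, if_pos rfl]
      split_ifs with h
      · rw [h, sub_self]
      · rw [hρb.diag hσ h, zero_mul, sub_self]
    · rw [Pi.sub_apply, TrivSqZeroExt.snd_sub, hsnd, Finset.sum_add_distrib,
        Finset.sum_eq_single i (fun b _ hb => by simp [he2, hb]) (by simp),
        Finset.sum_eq_single j (fun b _ hb => by simp [he, hb]) (by simp), he2, he]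
      simp only [entrySec, entryAct, AddMonoidHom.coe_mk, ZeroHom.coe_mk, Pi.add_apply,
        Pi.single_apply, TrivSqZeroExt.snd_add, if_true]
      split_ifs <;> simp
  · intro y hy
    have h1 := hy.1 j
    have h2 := hy.2
    simp only [entrySec, Pi.add_apply, TrivSqZeroExt.fst_add, TrivSqZeroExt.snd_add,
      Pi.single_apply, if_true, apply_ite TrivSqZeroExt.fst, apply_ite TrivSqZeroExt.snd,
      TrivSqZeroExt.fst_inl, TrivSqZeroExt.fst_inr, TrivSqZeroExt.snd_inl, TrivSqZeroExt.snd_inr,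
      TrivSqZeroExt.fst_zero, TrivSqZeroExt.snd_zero, ite_self, add_zero, zero_add] at h1 h2
    exact Prod.ext h1 h2

lemma entry_cubicExt (hk : Nat.card k = 4) :
    CubicExt hρb.cubic (entryAct rbar ρ i j) (AddMonoidHom.fst k k).ker (1, 0) (0, 1) := by
  classical
  have := Fintype.ofFinite k
  obtain ⟨hri, hri0⟩ := hρb.rot_ii i
  obtain ⟨hrj, hrj0⟩ := hρb.rot_ii j
  set ri := rbar σ₀ i i with hrii
  set rj := rbar σ₀ j j with hrjj
  have hfour : ∀ {r : k}, r ^ 2 + r + 1 = 0 → r ≠ 0 → ∀ y : k,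
      y = 0 ∨ y = 1 ∨ y = r ∨ y = r * r := by
    intro r hr hr0 y
    by_contra! h
    have hr1 : r ≠ 1 := by
      rintro rfl
      rw [one_pow, CharTwo.add_self_eq_zero, zero_add] at hr
      exact one_ne_zero hr
    have hr2 : r * r ≠ 1 := by
      intro e
      rw [pow_two, e, add_comm (1 : k) r, add_assoc, CharTwo.add_self_eq_zero, add_zero] at hr
      exact hr0 hr
    have hr3 : r * r ≠ r := fun e => hr1 (mul_left_cancel₀ hr0 (e.trans (mul_one r).symm))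
    have h4 : ({0, 1, r, r * r, y} : Finset k).card ≤ 4 := by
      rw [← hk, Nat.card_eq_fintype_card]; exact Finset.card_le_univ _
    have h5 : ({0, 1, r, r * r, y} : Finset k).card = 5 := by
      simp [hr1.symm, hr2.symm, hr3.symm, hr0, hr0.symm, h.1.symm, h.2.1.symm, h.2.2.1.symm,
        h.2.2.2.symm]
    omega
  have hx : ∀ v : k × k, v ∈ (AddMonoidHom.fst k k).ker ↔ v.1 = 0 := fun v => Iff.rfl
  have hsig : ∀ v : k × k, entryAct rbar ρ i j σ₀ v =
      (rj * v.1, ri * v.2 + sndM (ρ σ₀) i j * v.1) := fun v => rfl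
  have hH : ∀ τ ∈ hρb.cubic.H, ∀ v : k × k,
      entryAct rbar ρ i j τ v = (v.1, v.2 + sndM (ρ τ) i j * v.1) := fun τ hτ v => by
    simp [entryAct, hρb.apply_H hτ]
  have htwo : ∀ z : k × k, 2 • z = 0 := fun z => by
    rw [two_nsmul]; exact Prod.ext (CharTwo.add_self_eq_zero _) (CharTwo.add_self_eq_zero _)
  refine ⟨htwo, (hx _).mpr rfl, ?_, ?_, ?_, ?_⟩
  · refine ⟨fun σ _ n hn => ?_, ?_, ?_, fun τ hτ => ?_, ?_⟩
    · rw [AddSubgroup.mem_bot.mp hn, map_zero]; exact zero_mem _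
    · simp
    · rw [htwo]; exact zero_mem _
    · rw [hH τ hτ]; simp
    · change ((0 : k), (1 : k)) + entryAct rbar ρ i j σ₀ (0, 1) +
        entryAct rbar ρ i j σ₀ (entryAct rbar ρ i j σ₀ (0, 1)) ∈ _
      simp only [hsig, AddSubgroup.mem_bot, Prod.mk_add_mk, mul_zero, add_zero, mul_one,
        Prod.mk_eq_zero, true_and]
      linear_combination hri
  · refine ⟨fun σ _ n hn => ?_, ?_, ?_, fun τ hτ => ?_, ?_⟩
    · exact (hx _).mpr (show rbar σ j j * n.1 = 0 by rw [(hx n).mp hn, mul_zero])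
    · exact fun h => one_ne_zero ((hx _).mp h)
    · rw [htwo]; exact zero_mem _
    · rw [hH τ hτ, hx]; simp
    · change ((1 : k), (0 : k)) + entryAct rbar ρ i j σ₀ (1, 0) +
        entryAct rbar ρ i j σ₀ (entryAct rbar ρ i j σ₀ (1, 0)) ∈ _
      simp only [hx, hsig, Prod.fst_add, mul_one]
      linear_combination hrj
  · intro z hz
    rw [hx] at hz
    change z = 0 ∨ z = _ ∨ z = entryAct rbar ρ i j σ₀ _ ∨
      z = entryAct rbar ρ i j σ₀ (entryAct rbar ρ i j σ₀ _)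
    simp only [hsig, mul_zero, add_zero, mul_one, Prod.ext_iff, hz, Prod.fst_zero, Prod.snd_zero,
      true_and]
    exact hfour hri hri0 z.2
  · intro z
    change _ ∨ _ ∨ z - entryAct rbar ρ i j σ₀ _ ∈ _ ∨
      z - entryAct rbar ρ i j σ₀ (entryAct rbar ρ i j σ₀ _) ∈ _
    simp only [hsig, hx, Prod.fst_sub, sub_eq_zero, mul_one]
    exact hfour hrj hrj0 z.1

/-- Every entry gives a shallow homomorphism. -/
theorem IsFlatLift.isShallowHom (hk : Nat.card k = 4) :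
    IsShallowHom hρb.cubic fun τ => sndM (ρ τ) i j := by
  refine ⟨fun σ hσ τ hτ => hρ.snd_add hρb hσ hτ i j, fun π => ?_⟩
  obtain ⟨U, hU, hU1⟩ := hρ.finite_level
  have : ρ.ker.Normal := MonoidHom.normal_ker ρ
  obtain ⟨q, hq0, hfix, hq⟩ := exists_kummer_generator (C := hρb.cubic) (U := ρ.ker)
    (Subgroup.isOpen_mono (fun g hg => MonoidHom.mem_ker.mpr (hU1 g hg)) hU)
    (fun τ => π (sndM (ρ τ) i j))
    (fun σ hσ τ hτ => by rw [hρ.snd_add hρb hσ hτ, map_add])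
    (fun τ _ hτ => by rw [MonoidHom.mem_ker.mp hτ, sndM_one, Matrix.zero_apply, map_zero])
  refine ⟨q, hq0, hfix, ?_, hq⟩
  obtain ⟨G⟩ := exists_entry_model hρb hρ hA i j
  refine isShallow_of_stabilizer_le G hA (entry_cubicExt hρb hρ hA i j hk) (pow_ne_zero 2 hq0)
    hfix rfl fun τ hτ h => (hq τ hτ).mpr ?_
  have h2 := congrArg Prod.snd h
  simp [entryAct, hρb.apply_H hτ] at h2
  rw [h2, map_zero]

/-- A residually cubic flat lift provides an element of valuation `1/3`. -/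
lemma IsFlatLift.exists_c (hk : Nat.card k = 4) :
    ∃ c : Qbar, A.valuation c = ev A 2 ∧ ∀ τ ∈ hρb.cubic.H, τ c = c := by
  obtain ⟨G⟩ := exists_entry_model hρb hρ hA 0 0
  have hE := entry_cubicExt hρb hρ hA 0 0 hk
  obtain ⟨f, hf⟩ := exists_isUniformizer G hA hE
  exact ⟨f (0, 1), hf.val, fun τ hτ => by
    rw [← G.equivariant τ (hρb.cubic.le_inertia hτ) f hf.mem, sub_eq_zero.mp
      (AddSubgroup.mem_bot.mp (hE.lineN.fixed τ hτ))]⟩

/-- **Diagonal parts of flat lifts are unramified at `2`.** -/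
theorem flat_diag_inertia_eq_zero (hk : Nat.card k = 4) :
    ∀ σ ∈ A.inertiaSubgroupIn ℚ, sndM (ρ σ) i i = 0 := by
  obtain ⟨c, hc, hcfix⟩ := hρ.exists_c hρb hA hk
  have hH : ∀ τ ∈ hρb.cubic.H, sndM (ρ τ) i i = 0 :=
    (hρ.isShallowHom hρb hA i i hk).eq_zero_of_invariant hA hc hcfix fun τ hτ => by
      change sndM (ρ (σ₀⁻¹ * τ * σ₀)) i i = _
      rw [hρ.snd_rot hρb i i hτ, div_self (hρb.rot_ii i).2, one_mul]
  have hmul : ∀ σ ∈ A.inertiaSubgroupIn ℚ, ∀ τ ∈ A.inertiaSubgroupIn ℚ,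
      sndM (ρ (σ * τ)) i i = rbar σ i i * sndM (ρ τ) i i + sndM (ρ σ) i i * rbar τ i i := by
    intro σ hσ τ hτ
    rw [hρ.snd_mul, Matrix.add_apply, Matrix.mul_apply, Matrix.mul_apply,
      Finset.sum_eq_single i (fun b _ hb => by rw [hρb.diag hσ hb.symm, zero_mul]) (by simp),
      Finset.sum_eq_single i (fun b _ hb => by rw [hρb.diag hτ hb, mul_zero]) (by simp)]
  have h0 : sndM (ρ σ₀) i i = 0 := by
    have h3 := hH _ hρb.cubic.cube_mem
    change sndM (ρ (σ₀ ^ 3)) i i = 0 at h3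
    have hsq : rbar (σ₀ * σ₀) i i = rbar σ₀ i i * rbar σ₀ i i := by
      rw [map_mul, Matrix.mul_apply,
        Finset.sum_eq_single i (fun b _ hb => by rw [hρb.diag hρb.σ₀_mem hb.symm, zero_mul])
          (by simp)]
    rw [pow_succ, pow_two, hmul _ (mul_mem hρb.σ₀_mem hρb.σ₀_mem) _ hρb.σ₀_mem,
      hmul _ hρb.σ₀_mem _ hρb.σ₀_mem, hsq] at h3
    have h2 : (2 : k) = 0 := CharTwo.two_eq_zero
    have : rbar σ₀ i i ^ 2 * sndM (ρ σ₀) i i = 0 := by
      linear_combination h3 - rbar σ₀ i i ^ 2 * sndM (ρ σ₀) i i * h2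
    exact (mul_eq_zero.mp this).resolve_left (pow_ne_zero _ (hρb.rot_ii i).2)
  intro σ hσ
  obtain ⟨n, τ, hτ, rfl⟩ := hρb.cubic.gen σ hσ
  change sndM (ρ (σ₀ ^ n * τ)) i i = 0
  rw [hmul _ (pow_mem hρb.σ₀_mem n) _ (hρb.cubic.le_inertia hτ), hH τ hτ, mul_zero, zero_add]
  suffices sndM (ρ (σ₀ ^ n)) i i = 0 by rw [this, zero_mul]
  clear hσ
  induction n with
  | zero => simp
  | succ n ih =>
    rw [pow_succ, hmul _ (pow_mem hρb.σ₀_mem n) _ hρb.σ₀_mem, h0, ih, mul_zero, zero_mul, add_zero]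

/-- **Off-diagonal parts of flat lifts lie on a line at `2`.** -/
theorem flat_antidiag_line (hij : i ≠ j) (hk : Nat.card k = 4) {φ : Γℚ}
    (hφ : φ ∈ A.decompositionSubgroup ℚ) (hφA : ∀ a ∈ A, A.valuation (φ a - a ^ 4) < 1)
    (hφb : rbar φ = 1) {ρ' : Γℚ →* Matrix (Fin 2) (Fin 2) (DualNumber k)}
    (hρ' : IsFlatLift rbar ρ')
    (hne : ∃ τ ∈ hρb.cubic.H, sndM (ρ τ) i j ≠ 0) :
    ∃ μ : k, ∀ τ ∈ hρb.cubic.H, sndM (ρ' τ) i j = μ * sndM (ρ τ) i j := by
  obtain ⟨c, hc, hcfix⟩ := hρ.exists_c hρb hA hk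
  have hφH : ∀ τ ∈ hρb.cubic.H, φ⁻¹ * τ * φ ∈ hρb.cubic.H := fun τ hτ =>
    Subgroup.mem_inf.mpr ⟨conj_mem_inertia hφ hτ.1, MonoidHom.mem_ker.mpr (by
      rw [map_mul, map_mul, hρb.apply_H hτ, mul_one, ← map_mul, inv_mul_cancel, map_one])⟩
  have hinv : ∀ {r : Γℚ →* Matrix (Fin 2) (Fin 2) (DualNumber k)}, IsFlatLift rbar r →
      ∀ τ ∈ hρb.cubic.H, sndM (r (φ⁻¹ * τ * φ)) i j = sndM (r τ) i j := fun {r} hr τ hτ => by
    have h := hr.snd_conj hρb (g := φ) hτ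
    rw [hφb, Matrix.one_mul, Matrix.mul_one] at h
    rw [h]
  have hr : (rbar σ₀ j j / rbar σ₀ i i) ^ 2 + rbar σ₀ j j / rbar σ₀ i i + 1 = 0 := by
    have hζ := hρb.zeta
    have hζ0 : ζ ≠ 0 := fun h => by rw [h] at hζ; simp at hζ
    rw [hρb.rot]
    fin_cases i <;> fin_cases j <;> first
      | exact absurd rfl hij
      | (simp
         field_simp
         linear_combination hζ)
  exact (hρ.isShallowHom hρb hA i j hk).exists_smul hA hc hcfix hφ hφA hφH hk hr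
    (fun τ hτ => hρ.snd_rot hρb i j hτ) (hinv hρ) (hρ'.isShallowHom hρb hA i j hk)
    (fun τ hτ => hρ'.snd_rot hρb i j hτ) (hinv hρ') hne

omit hρb hρ hA in
/-- The square of a Frobenius element raises residues to the fourth power. -/
lemma valuation_frobenius_sq_sub {F : Γℚ} (hF : A.IsFrobeniusAt F 2) :
    F * F ∈ A.decompositionSubgroup ℚ ∧ ∀ a ∈ A, A.valuation ((F * F) a - a ^ 4) < 1 :=
  ⟨mul_mem hF.mem_decompositionSubgroup hF.mem_decompositionSubgroup, fun _ ha =>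
    valuation_frobenius_iterate_sub two_pos hF ha 2⟩

/-- An element swapping the two lines exchanges the off-diagonal entries. -/
lemma IsFlatLift.snd_swap {F : Γℚ} {a b : k} (hF : rbar F = !![0, a; b, 0]) {τ : Γℚ}
    (hτ : τ ∈ hρb.cubic.H) :
    a * sndM (ρ (F⁻¹ * τ * F)) 1 0 = sndM (ρ τ) 0 1 * b := by
  have h := congrFun (congrFun (hρ.snd_conj hρb (g := F) hτ) 0) 0
  simpa [hF, Matrix.mul_apply, Matrix.vecMul, dotProduct, Fin.sum_univ_two] using h

/-- **Flat lifts span at most a line off the diagonal.** With a Frobenius element swapping the two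
lines, one scalar governs both off-diagonal entries. -/
theorem flat_antidiag_span (hk : Nat.card k = 4) {F : Γℚ} (hF : A.IsFrobeniusAt F 2) {a b : k}
    (hab : a * b = 1) (hFb : rbar F = !![0, a; b, 0])
    {ρ' : Γℚ →* Matrix (Fin 2) (Fin 2) (DualNumber k)} (hρ' : IsFlatLift rbar ρ')
    (hne : ∃ τ ∈ hρb.cubic.H, sndM (ρ τ) 0 1 ≠ 0 ∨ sndM (ρ τ) 1 0 ≠ 0) :
    ∃ μ : k, ∀ τ ∈ hρb.cubic.H, ∀ i j : Fin 2, i ≠ j →
      sndM (ρ' τ) i j = μ * sndM (ρ τ) i j := by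
  have ha : a ≠ 0 := left_ne_zero_of_mul_eq_one hab
  have hb : b ≠ 0 := right_ne_zero_of_mul_eq_one hab
  obtain ⟨hφ, hφA⟩ := valuation_frobenius_sq_sub hF
  have hφb : rbar (F * F) = 1 := by
    rw [map_mul, hFb]
    ext i j
    fin_cases i <;> fin_cases j <;>
      simp [Matrix.mul_apply, Fin.sum_univ_two, hab, mul_comm b a]
  have hF' : ∀ τ ∈ hρb.cubic.H, F * τ * F⁻¹ ∈ hρb.cubic.H := fun τ hτ => by
    refine Subgroup.mem_inf.mpr ⟨?_, MonoidHom.mem_ker.mpr ?_⟩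
    · simpa using conj_mem_inertia (inv_mem hF.mem_decompositionSubgroup) hτ.1
    · rw [map_mul, map_mul, hρb.apply_H hτ, mul_one, ← map_mul, mul_inv_cancel, map_one]
  have h10 : ∀ {r : Γℚ →* Matrix (Fin 2) (Fin 2) (DualNumber k)}, IsFlatLift rbar r →
      ∀ τ ∈ hρb.cubic.H, sndM (r τ) 1 0 = a⁻¹ * (sndM (r (F * τ * F⁻¹)) 0 1 * b) :=
    fun {r} hr τ hτ => by
    have h := hr.snd_swap hρb hA hFb (hF' τ hτ)
    rw [show F⁻¹ * (F * τ * F⁻¹) * F = τ by group] at h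
    rw [← h, inv_mul_cancel_left₀ ha]
  have hne01 : ∃ τ ∈ hρb.cubic.H, sndM (ρ τ) 0 1 ≠ 0 := by
    obtain ⟨τ, hτ, h | h⟩ := hne
    · exact ⟨τ, hτ, h⟩
    · exact ⟨_, hF' τ hτ, fun e => h (by rw [h10 hρ τ hτ, e, zero_mul, mul_zero])⟩
  obtain ⟨μ, hμ⟩ := flat_antidiag_line hρb hρ hA 0 1 (by decide) hk hφ hφA hφb hρ' hne01
  refine ⟨μ, fun τ hτ i j hij => ?_⟩
  obtain ⟨rfl, rfl⟩ | ⟨rfl, rfl⟩ : (i = 0 ∧ j = 1) ∨ (i = 1 ∧ j = 0) := by omega
  · exact hμ τ hτ
  · rw [h10 hρ' τ hτ, h10 hρ τ hτ, hμ _ (hF' τ hτ)]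
    ring

end FermatLib.MLT.Two.FlatTwo
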