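import Fermat.Agent.MLT.Two.Flat.Coeff

/-!
# The torsor bound

For an extension, killed by `2`, of the supersingular line by itself all differences at a point have
valuation at least `1/6`, while translations by the line move some function by exactly `1/3`.
-/

set_option autoImplicit false

noncomputable section

namespace FermatLib.MLT.Two.FlatTwo

open FermatLib.Galois.Flat

local notation "Qbar" => AlgebraicClosure ℚ
local notation "Γℚ" => (AlgebraicClosure ℚ ≃ₐ[ℚ] AlgebraicClosure ℚ)

variable {A : ValuationSubring Qbar} {M : Type*} [AddCommGroup M] {act : Γℚ → M →+ M}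
variable (G : IntegralModel A act) (hA : A.LiesOverPrime 2) [Finite M]
  {C : InertiaCubic A} {N : AddSubgroup M} {x d : M} (hE : CubicExt C act N x d)
  {f : M → Qbar} (hf : IsUniformizer G d f)

include hE hA in
lemma valuation_relTrace_le_one {g : M → Qbar} (hg : g ∈ G.fns) (z : M) :
    A.valuation (relTrace C act d g z) ≤ 1 :=
  (A.valuation_le_one_iff _).mpr
    (G.apply_mem _ (G.mem_invariants.mp (relTrace_mem G hA hE hg)).1 z)

include hE hA hf in
lemma gram_coeff (g : M → Qbar) (z : M) (j : Fin 4) :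
    ∑ k : Fin 4, relTrace C act d (f ^ ((j : ℕ) + (k : ℕ))) z * cosetCoeff C act d f g z k =
      relTrace C act d (g * f ^ (j : ℕ)) z := by
  refine gram_mul z _ ?_ j
  funext i
  simp only [Matrix.mulVec, dotProduct, cosetMat, Matrix.of_apply]
  rw [Finset.sum_congr rfl fun k _ => mul_comm _ _]
  exact cosetCoeff_spec G hA hE hf g z i

include hE hA hf in
lemma valuation_coeff_le_one {g : M → Qbar} (hg : g ∈ G.fns) (z : M) (k : Fin 4) :
    A.valuation (cosetCoeff C act d f g z k) ≤ 1 :=
  valuation_solve_le G hA hE hf (z := z) (fun j => by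
    rw [gram_coeff G hA hE hf]
    exact valuation_relTrace_le_one G hA hE (G.fns_mul_mem _ _ hg (pow_mem_fns G hf.mem _)) z) k

include hE hA hf in
/-- The coordinates vary by at least `1/3` between cosets. -/
lemma valuation_coeff_sub_le {g : M → Qbar} (hg : g ∈ G.fns) (z : M) (k : Fin 4) :
    A.valuation (cosetCoeff C act d f g z k - cosetCoeff C act d f g 0 k) ≤ ev A 2 := by
  refine valuation_solve_le G hA hE hf (z := z)
    (w := fun k => cosetCoeff C act d f g z k - cosetCoeff C act d f g 0 k) (fun j => ?_) k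
  have hinv : ∀ {u : M → Qbar}, u ∈ G.fns →
      A.valuation (relTrace C act d u z - relTrace C act d u 0) ≤ ev A 2 := fun hu =>
    valuation_quot_le G hA hE (relTrace_mem G hA hE hu) z
  have e : ∑ k : Fin 4, relTrace C act d (f ^ ((j : ℕ) + (k : ℕ))) z *
      (cosetCoeff C act d f g z k - cosetCoeff C act d f g 0 k) =
      (relTrace C act d (g * f ^ (j : ℕ)) z - relTrace C act d (g * f ^ (j : ℕ)) 0) -
        ∑ k : Fin 4, (relTrace C act d (f ^ ((j : ℕ) + (k : ℕ))) z -
          relTrace C act d (f ^ ((j : ℕ) + (k : ℕ))) 0) * cosetCoeff C act d f g 0 k := by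
    simp only [mul_sub, sub_mul, Finset.sum_sub_distrib, gram_coeff G hA hE hf]
    ring
  rw [e]
  refine A.valuation.map_sub_le (hinv (G.fns_mul_mem _ _ hg (pow_mem_fns G hf.mem _)))
    (A.valuation.map_sum_le fun k _ => ?_)
  rw [map_mul]
  exact (mul_le_of_le_one_right' (valuation_coeff_le_one G hA hE hf hg 0 k)).trans
    (hinv (pow_mem_fns G hf.mem _))

include hE hA hf in
/-- The coordinates at the origin are fixed by inertia. -/
lemma coeff_zero_fixed {g : M → Qbar} (hg : g ∈ G.fns) {σ : Γℚ}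
    (hσ : σ ∈ A.inertiaSubgroupIn ℚ) (k : Fin 4) :
    σ (cosetCoeff C act d f g 0 k) = cosetCoeff C act d f g 0 k := by
  have hN := hE.lineQ.stable
  have hline : ∀ i, linePts C act d i ∈ N := fun i => by
    fin_cases i
    exacts [N.zero_mem, hE.d_mem, hN _ C.σ₀_mem _ hE.d_mem,
      hN _ C.σ₀_mem _ (hN _ C.σ₀_mem _ hE.d_mem)]
  have hu : cosetCoeff C act d f g 0 = fun k => σ (cosetCoeff C act d f g 0 k) := by
    refine cosetCoeff_unique G hA hE hf fun i => ?_
    obtain ⟨z, hz, hzi⟩ := G.exists_preimage_mem hN hσ (hline i)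
    have hj : ∃ j, z = linePts C act d j := by
      rcases hE.mem_N z hz with h | h | h | h
      exacts [⟨0, h⟩, ⟨1, h⟩, ⟨2, h⟩, ⟨3, h⟩]
    obtain ⟨j, rfl⟩ := hj
    have h := congrArg σ (cosetCoeff_spec G hA hE hf g 0 j)
    simp only [zero_add, map_sum, map_mul, map_pow] at h ⊢
    rw [← G.equivariant σ hσ f hf.mem, ← G.equivariant σ hσ g hg, hzi] at h
    exact h
  exact (congrFun hu k).symm

include hE hA hf in
/-- Two expansions in powers of `f` on a product of cosets agree. -/
lemma expansion_unique {z y : M} {D D' : Fin 4 → Fin 4 → Qbar}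
    (h : ∀ i i', ∑ j : Fin 4, ∑ k : Fin 4,
        D j k * f (z + linePts C act d i) ^ (j : ℕ) * f (y + linePts C act d i') ^ (k : ℕ) =
      ∑ j : Fin 4, ∑ k : Fin 4,
        D' j k * f (z + linePts C act d i) ^ (j : ℕ) * f (y + linePts C act d i') ^ (k : ℕ)) :
    D = D' := by
  funext j k
  have hinner : ∀ (j : Fin 4) (i' : Fin 4),
      ∑ k : Fin 4, (D j k - D' j k) * f (y + linePts C act d i') ^ (k : ℕ) = 0 := by
    intro j i'
    have h1 : cosetCoeff C act d f 0 z =
        fun j => ∑ k : Fin 4, (D j k - D' j k) * f (y + linePts C act d i') ^ (k : ℕ) := by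
      refine cosetCoeff_unique G hA hE hf fun i => ?_
      have := sub_eq_zero.mpr (h i i')
      simp only [Pi.zero_apply]
      rw [← this, ← Finset.sum_sub_distrib]
      refine Finset.sum_congr rfl fun j _ => ?_
      rw [Finset.sum_mul, ← Finset.sum_sub_distrib]
      exact Finset.sum_congr rfl fun k _ => by ring
    have h2 : cosetCoeff C act d f 0 z = fun _ => 0 :=
      cosetCoeff_unique G hA hE hf fun i => by simp
    exact (congrFun (h1.symm.trans h2) j)
  have h1 : cosetCoeff C act d f 0 y = fun k => D j k - D' j k :=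
    cosetCoeff_unique G hA hE hf fun i' => by rw [hinner]; rfl
  have h2 : cosetCoeff C act d f 0 y = fun _ => 0 :=
    cosetCoeff_unique G hA hE hf fun i => by simp
  exact sub_eq_zero.mp (congrFun (h1.symm.trans h2) k)

include hE hA hf in
/-- The addition law of `f` in coordinates. -/
lemma exists_addition_law : ∃ D : M → M → Fin 4 → Fin 4 → Qbar,
    (∀ z y i i', f (z + linePts C act d i + (y + linePts C act d i')) =
      ∑ j : Fin 4, ∑ k : Fin 4,
        D z y j k * f (z + linePts C act d i) ^ (j : ℕ) * f (y + linePts C act d i') ^ (k : ℕ)) ∧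
    (∀ z y j k, D y z k j = D z y j k) ∧
    (∀ z y j k, A.valuation (D z y j k) ≤ 1) ∧
    (∀ z y j k, A.valuation (D z y j k - D 0 0 j k) ≤ ev A 2) ∧
    (∀ z y j k, A.valuation (D z y j k - D z 0 j k - D 0 y j k + D 0 0 j k) ≤ ev A 4) ∧
    ∀ j k, ∀ σ ∈ A.inertiaSubgroupIn ℚ, σ (D 0 0 j k) = D 0 0 j k := by
  obtain ⟨n, a, b, ha, hb, hab⟩ := G.comul f hf.mem
  let D : M → M → Fin 4 → Fin 4 → Qbar := fun z y j k =>
    ∑ i, cosetCoeff C act d f (a i) z j * cosetCoeff C act d f (b i) y k
  have hexp : ∀ z y i i', f (z + linePts C act d i + (y + linePts C act d i')) =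
      ∑ j : Fin 4, ∑ k : Fin 4,
        D z y j k * f (z + linePts C act d i) ^ (j : ℕ) * f (y + linePts C act d i') ^ (k : ℕ) := by
    intro z y i i'
    rw [hab]
    simp only [D, Finset.sum_mul]
    rw [Finset.sum_congr rfl fun j _ => Finset.sum_comm, Finset.sum_comm]
    refine Finset.sum_congr rfl fun l _ => ?_
    rw [← cosetCoeff_spec G hA hE hf (a l) z i, ← cosetCoeff_spec G hA hE hf (b l) y i',
      Finset.sum_mul_sum]
    exact Finset.sum_congr rfl fun j _ => Finset.sum_congr rfl fun k _ => by ring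
  refine ⟨D, hexp, fun z y j k => ?_, fun z y j k => ?_, fun z y j k => ?_, fun z y j k => ?_,
    fun j k σ hσ => ?_⟩
  · have := expansion_unique G hA hE hf (D := fun j k => D y z k j) (D' := D z y) fun i i' => by
      rw [← hexp z y, add_comm (z + linePts C act d i), hexp y z, Finset.sum_comm]
      exact Finset.sum_congr rfl fun j _ => Finset.sum_congr rfl fun k _ => by ring
    exact congrFun (congrFun this j) k
  · refine A.valuation.map_sum_le fun i _ => ?_
    rw [map_mul]
    exact mul_le_one' (valuation_coeff_le_one G hA hE hf (ha i) z j)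
      (valuation_coeff_le_one G hA hE hf (hb i) y k)
  · simp only [D, ← Finset.sum_sub_distrib]
    refine A.valuation.map_sum_le fun i _ => ?_
    rw [show ∀ p q r s : Qbar, p * q - r * s = (p - r) * q + r * (q - s) from
      fun p q r s => by ring]
    refine A.valuation.map_add_le ?_ ?_ <;> rw [map_mul]
    · exact (mul_le_of_le_one_right' (valuation_coeff_le_one G hA hE hf (hb i) y k)).trans
        (valuation_coeff_sub_le G hA hE hf (ha i) z j)
    · exact (mul_le_of_le_one_left' (valuation_coeff_le_one G hA hE hf (ha i) 0 j)).trans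
        (valuation_coeff_sub_le G hA hE hf (hb i) y k)
  · simp only [D, ← Finset.sum_sub_distrib, ← Finset.sum_add_distrib]
    refine A.valuation.map_sum_le fun i _ => ?_
    rw [show ∀ p q r s : Qbar, p * q - p * s - r * q + r * s = (p - r) * (q - s) from
      fun p q r s => by ring]
    exact valuation_mul_le_ev (valuation_coeff_sub_le G hA hE hf (ha i) z j)
      (valuation_coeff_sub_le G hA hE hf (hb i) y k)
  · simp only [D, map_sum, map_mul, coeff_zero_fixed G hA hE hf (ha _) hσ,
      coeff_zero_fixed G hA hE hf (hb _) hσ]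

include G hE hA in
/-- All points are connected. -/
lemma valuation_delta_lt_one {g : M → Qbar} (hg : g ∈ G.fns) :
    A.valuation (g x - g 0) < 1 := by
  have hσD := mem_decomposition_of_mem_inertia C.σ₀_mem
  have hlt : ev A 2 < (1 : A.ValueGroup) := by
    rw [← ev_zero (A := A)]; exact (ev_lt_ev hA).mpr (by norm_num)
  have hNconn : ∀ n ∈ N, n ∈ G.conn := by
    intro n hn u hu
    have hu' := mem_invariants_bot G hE hu
    obtain ⟨h1, h2, -⟩ := delta_rot G hE.lineN hu'
    have hd := (valuation_line_le G hA hE hu).trans_lt hlt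
    rcases hE.mem_N n hn with rfl | rfl | rfl | rfl
    · simp
    · exact hd
    · rw [h1, valuation_apply_eq hσD]; exact hd
    · rw [h2, valuation_apply_eq hσD, valuation_apply_eq hσD]; exact hd
  have h3 : act C.σ₀ (act C.σ₀ x) - x ∈ G.conn := by
    have := G.conn.add_mem (G.act_sub_mem_conn C.σ₀_mem (act C.σ₀ x))
      (G.act_sub_mem_conn C.σ₀_mem x)
    rwa [sub_add_sub_cancel] at this
  have h4 : x ∈ G.conn := by
    have hs := hNconn _ hE.lineQ.sum_mem
    have h2 : (act C.σ₀ x - x) + (act C.σ₀ (act C.σ₀ x) - x) ∈ G.conn :=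
      G.conn.add_mem (G.act_sub_mem_conn C.σ₀_mem x) h3
    have := G.conn.sub_mem hs h2
    rw [show x + act C.σ₀ x + act C.σ₀ (act C.σ₀ x) -
      (act C.σ₀ x - x + (act C.σ₀ (act C.σ₀ x) - x)) = x + 2 • x by rw [two_nsmul]; abel,
      hE.two, add_zero] at this
    exact this
  exact h4 g hg

include hE hA hf in
/-- The uniformizing function has valuation at least `1/6` at `x`. -/
theorem valuation_uniformizer_le : A.valuation (f x) ≤ ev A 1 := by
  obtain ⟨D, hexp, hsymm, hint, hdiff, hsecond, hfix⟩ := exists_addition_law G hA hE hf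
  -- the coefficients at the origin
  have hrow : ∀ k, D 0 0 0 k = if k = 1 then 1 else 0 := by
    have h := cosetCoeff_unique G hA hE hf (g := f) (z := 0) (w := fun k => D 0 0 0 k) fun i => by
      have := hexp 0 0 0 i
      have hp : linePts C act d 0 = 0 := rfl
      simp only [zero_add, hp, hf.map_zero] at this
      simp only [zero_add]
      conv_rhs => rw [this]
      simp [Fin.sum_univ_four]
    have h' := cosetCoeff_unique G hA hE hf (g := f) (z := 0)
      (w := fun k => if k = 1 then (1 : Qbar) else 0) fun i => by simp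
    intro k
    exact congrFun (h.symm.trans h') k
  have h00 : D 0 0 0 0 = 0 := by simpa using hrow 0
  have hoff : ∀ {z : M} {j k : Fin 4} {w : Qbar} {m : ℤ}, A.valuation w ≤ ev A m →
      A.valuation (2 * D z z j k * w) ≤ ev A (6 + m) := by
    intro z j k w m hw
    refine valuation_mul_le_ev ?_ hw
    simpa using valuation_mul_le_ev (A := A) (n := 0) ev_six.ge
      (by rw [ev_zero]; exact hint z z j k)
  set c := f d
  have hc2 : A.valuation (c ^ 2) = ev A 4 := by rw [map_pow, hf.val, ev_pow]; norm_num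
  have hc4 : A.valuation (c ^ 4) = ev A 8 := by rw [map_pow, hf.val, ev_pow]; norm_num
  -- the relation at `d`
  obtain ⟨hD11, hD22⟩ : A.valuation (D 0 0 1 1) ≤ ev A 6 ∧ A.valuation (D 0 0 2 2) = 1 := by
    have h := hexp 0 0 1 1
    have hp : linePts C act d 1 = d := rfl
    rw [zero_add, hp, show d + d = 0 by rw [← two_nsmul]; exact hE.two d, hf.map_zero] at h
    have r0 : D 0 0 0 0 = 0 := h00
    have r1 : D 0 0 0 1 = 1 := by simpa using hrow 1
    have r2 : D 0 0 0 2 = 0 := by simpa using hrow 2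
    have r3 : D 0 0 0 3 = 0 := by simpa using hrow 3
    have s1 := hsymm 0 0 0 1
    have s2 := hsymm 0 0 0 2
    have s3 := hsymm 0 0 0 3
    have s12 := hsymm 0 0 1 2
    have s13 := hsymm 0 0 1 3
    have s23 := hsymm 0 0 2 3
    simp only [Fin.sum_univ_four, s1, s2, s3, s12, s13, s23, r0, r1, r2, r3] at h
    simp only [Fin.val_zero, Fin.val_one, Fin.val_two, show ((3 : Fin 4) : ℕ) = 3 from rfl,
      pow_zero, pow_one, zero_mul, add_zero, zero_add, mul_one, one_mul] at h
    have h10 : ∀ {j k : Fin 4} {i : ℕ}, 2 ≤ i → A.valuation (2 * D 0 0 j k * c ^ i) ≤ ev A 10 :=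
      fun hi => le_ev_mono hA (by omega) (hoff (valuation_pow_le_ev hf.val.le _))
    have h33 : A.valuation (D 0 0 3 3 * c ^ 6) ≤ ev A 10 := by
      refine le_ev_mono hA (show (10 : ℤ) ≤ 0 + 2 * 6 by norm_num) (valuation_mul_le_ev ?_ ?_)
      · rw [ev_zero]; exact hint 0 0 3 3
      · exact valuation_pow_le_ev hf.val.le 6
    have hrest : A.valuation (2 * D 0 0 1 2 * c ^ 3 + 2 * D 0 0 1 3 * c ^ 4 +
        2 * D 0 0 2 3 * c ^ 5 + D 0 0 3 3 * c ^ 6) ≤ ev A 10 :=
      A.valuation.map_add_le (A.valuation.map_add_le (A.valuation.map_add_le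
        (h10 (by norm_num)) (h10 (by norm_num))) (h10 (by norm_num))) h33
    set R := 2 * D 0 0 1 2 * c ^ 3 + 2 * D 0 0 1 3 * c ^ 4 + 2 * D 0 0 2 3 * c ^ 5 +
      D 0 0 3 3 * c ^ 6
    have hrel : 0 = 2 * c + D 0 0 1 1 * c ^ 2 + D 0 0 2 2 * c ^ 4 + R := by
      simp only [R]; linear_combination h
    have h2c : A.valuation (2 * c) = ev A 8 := by rw [map_mul, hf.val, ← ev_six, ← ev_add]; rfl
    have hf11 : A.valuation (D 0 0 1 1) ≤ ev A 6 := by
      refine inertia_fixed_le hA (hfix 1 1) (n := 0) ?_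
      by_contra! hgt
      have hv : A.valuation (D 0 0 1 1) = 1 := by
        rcases eq_or_ne (D 0 0 1 1) 0 with h0 | h0
        · simp [h0] at hgt
        obtain ⟨n, hn⟩ := inertia_fixed_even hA h0 (hfix 1 1)
        have h1 := hint 0 0 1 1
        rw [hn, ev_lt_ev hA] at hgt
        rw [hn, ← ev_zero (A := A), ev_le_ev hA] at h1
        rw [hn, ← ev_zero (A := A)]
        congr 1
        omega
      have hmain : A.valuation (D 0 0 1 1 * c ^ 2) = ev A 4 := by rw [map_mul, hv, one_mul, hc2]
      have h8 : A.valuation (2 * c + D 0 0 2 2 * c ^ 4 + R) ≤ ev A 8 := by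
        refine A.valuation.map_add_le (A.valuation.map_add_le h2c.le ?_)
          (le_ev_mono hA (by norm_num) hrest)
        rw [map_mul]
        exact (mul_le_of_le_one_left' (hint 0 0 2 2)).trans hc4.le
      rw [show 2 * c + D 0 0 2 2 * c ^ 4 + R = -(D 0 0 1 1 * c ^ 2) by linear_combination -hrel,
        Valuation.map_neg, hmain, ev_le_ev hA] at h8
      omega
    refine ⟨hf11, ?_⟩
    have h11 : A.valuation (D 0 0 1 1 * c ^ 2) ≤ ev A 10 := by
      simpa using valuation_mul_le_ev hf11 hc2.le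
    refine le_antisymm (hint 0 0 2 2) ?_
    by_contra! hlt
    have hlt' : A.valuation (D 0 0 2 2 * c ^ 4 + (D 0 0 1 1 * c ^ 2 + R)) < ev A 8 := by
      refine A.valuation.map_add_lt ?_ ((A.valuation.map_add_le h11 hrest).trans_lt
        ((ev_lt_ev hA).mpr (by norm_num)))
      rw [map_mul, hc4]
      exact mul_lt_of_lt_one_left (ev_pos _) hlt
    rw [show D 0 0 2 2 * c ^ 4 + (D 0 0 1 1 * c ^ 2 + R) = -(2 * c) by linear_combination -hrel,
      Valuation.map_neg, h2c] at hlt'
    exact hlt'.false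
  -- the relation at `x`
  by_contra! hgt
  set W := A.valuation (f x) with hW
  have hW0 : 0 < W := (ev_pos 1).trans hgt
  have hW1 : W < 1 := by simpa [hf.map_zero, hW] using valuation_delta_lt_one G hA hE hf.mem
  have hW2 : ev A 2 < W ^ 2 := by
    have := pow_lt_pow_left₀ hgt zero_le (n := 2) two_ne_zero
    rwa [ev_pow] at this
  have hW4 : ev A 4 < W ^ 4 := by
    have := pow_lt_pow_left₀ hgt zero_le (n := 4) (by norm_num)
    rwa [ev_pow] at this
  have hrel := hexp x x 0 0
  have hp : linePts C act d 0 = 0 := rfl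
  rw [hp, add_zero, show x + x = 0 by rw [← two_nsmul]; exact hE.two x, hf.map_zero] at hrel
  simp only [Fin.sum_univ_four, hsymm x x 0 1, hsymm x x 0 2, hsymm x x 0 3, hsymm x x 1 2,
    hsymm x x 1 3, hsymm x x 2 3] at hrel
  simp only [Fin.val_zero, Fin.val_one, Fin.val_two, show ((3 : Fin 4) : ℕ) = 3 from rfl,
    pow_zero, pow_one, mul_one] at hrel
  have hw : ∀ i : ℕ, A.valuation (f x ^ i) ≤ ev A 0 := fun i => by
    rw [← mem_A_iff_le_ev]; exact pow_mem (G.apply_mem f hf.mem x) i
  have hsmall : ∀ {t : Qbar}, A.valuation t ≤ ev A 4 → A.valuation t < W ^ 4 := fun ht =>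
    ht.trans_lt hW4
  have h00' : A.valuation (D x x 0 0) < W ^ 4 := by
    refine hsmall ?_
    have e : D x x 0 0 = (D x x 0 0 - D x 0 0 0 - D 0 x 0 0 + D 0 0 0 0) +
        (D x 0 0 0 - D 0 0 0 0) * 2 := by
      rw [hsymm x 0 0 0, h00]; ring
    rw [e]
    refine A.valuation.map_add_le (hsecond x x 0 0) ?_
    refine le_ev_mono hA (show (4 : ℤ) ≤ 2 + 6 by norm_num) (valuation_mul_le_ev ?_ ev_six.ge)
    simpa [hsymm x 0 0 0] using hdiff x 0 0 0
  have hoff' : ∀ {j k : Fin 4} {i : ℕ}, A.valuation (2 * D x x j k * f x ^ i) < W ^ 4 := fun {j k i} =>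
    hsmall (le_ev_mono hA (by norm_num) (hoff (hw i)))
  have h11 : A.valuation (D x x 1 1 * f x ^ 2) < W ^ 4 := by
    have h2 : A.valuation (D x x 1 1) ≤ ev A 2 := by
      have := A.valuation.map_add_le (hdiff x x 1 1) (le_ev_mono hA (show (2 : ℤ) ≤ 6 by norm_num) hD11)
      rwa [sub_add_cancel] at this
    rw [map_mul, map_pow, show W ^ 4 = W ^ 2 * W ^ 2 by rw [← pow_add]]
    exact mul_lt_mul_of_pos_right (h2.trans_lt hW2) (pow_pos hW0 2)
  have h33 : A.valuation (D x x 3 3 * f x ^ 6) < W ^ 4 := by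
    rw [map_mul, map_pow]
    exact (mul_le_of_le_one_left' (hint x x 3 3)).trans_lt
      (pow_lt_pow_right_of_lt_one₀ hW0 hW1 (by norm_num))
  have h22 : A.valuation (D x x 2 2 * f x ^ 4) = W ^ 4 := by
    have hlt : A.valuation (D x x 2 2 - D 0 0 2 2) < A.valuation (D 0 0 2 2) := by
      rw [hD22]; exact (hdiff x x 2 2).trans_lt (by
        rw [← ev_zero (A := A)]; exact (ev_lt_ev hA).mpr (by norm_num))
    rw [map_mul, map_pow, A.valuation.map_eq_of_sub_lt hlt, hD22, one_mul]
  have hbad : A.valuation (D x x 2 2 * f x ^ 4) < W ^ 4 := by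
    rw [show D x x 2 2 * f x ^ 4 = -(D x x 0 0 + 2 * D x x 0 1 * f x ^ 1 + 2 * D x x 0 2 * f x ^ 2 +
        2 * D x x 0 3 * f x ^ 3 + D x x 1 1 * f x ^ 2 + 2 * D x x 1 2 * f x ^ 3 +
        2 * D x x 1 3 * f x ^ 4 + 2 * D x x 2 3 * f x ^ 5 + D x x 3 3 * f x ^ 6) by
      linear_combination -hrel, Valuation.map_neg]
    have o1 := hoff' (j := 0) (k := 1) (i := 1)
    have o2 := hoff' (j := 0) (k := 2) (i := 2)
    have o3 := hoff' (j := 0) (k := 3) (i := 3)
    have o4 := hoff' (j := 1) (k := 2) (i := 3)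
    have o5 := hoff' (j := 1) (k := 3) (i := 4)
    have o6 := hoff' (j := 2) (k := 3) (i := 5)
    exact A.valuation.map_add_lt (A.valuation.map_add_lt (A.valuation.map_add_lt
      (A.valuation.map_add_lt (A.valuation.map_add_lt (A.valuation.map_add_lt
      (A.valuation.map_add_lt (A.valuation.map_add_lt h00' o1) o2) o3) h11) o4) o5) o6) h33
  exact hbad.ne h22

include hE hA hf in
/-- All functions have differences of valuation at least `1/6` at `x`. -/
theorem valuation_delta_le {g : M → Qbar} (hg : g ∈ G.fns) :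
    A.valuation (g x - g 0) ≤ ev A 1 := by
  have hp : linePts C act d 0 = 0 := rfl
  have hx := cosetCoeff_spec G hA hE hf g x 0
  have h0 := cosetCoeff_spec G hA hE hf g 0 0
  simp only [hp, add_zero, hf.map_zero] at hx h0
  have hw := valuation_uniformizer_le G hA hE hf
  rw [← hx, ← h0, ← Finset.sum_sub_distrib]
  refine A.valuation.map_sum_le fun k _ => ?_
  rcases Nat.eq_zero_or_pos (k : ℕ) with hk | hk
  · rw [hk, pow_zero, pow_zero, mul_one, mul_one]
    exact le_ev_mono hA (by norm_num) (valuation_coeff_sub_le G hA hE hf hg x k)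
  · rw [zero_pow hk.ne', mul_zero, sub_zero, map_mul, map_pow]
    refine (mul_le_of_le_one_left' (valuation_coeff_le_one G hA hE hf hg x k)).trans ?_
    obtain ⟨i, hi⟩ := Nat.exists_eq_succ_of_ne_zero hk.ne'
    rw [hi, pow_succ]
    exact (mul_le_of_le_one_left' (pow_le_one₀ zero_le
      ((A.valuation_le_one_iff _).mpr (G.apply_mem f hf.mem x)))).trans hw

include hE hA hf in
/-- Translation by a nonzero point of the line moves `f` by exactly `1/3`. -/
theorem valuation_translate_eq {n : M} (hn : n ∈ N) (hn0 : n ≠ 0) :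
    A.valuation (f (x + n) - f x) = ev A 2 := by
  have hσD := mem_decomposition_of_mem_inertia C.σ₀_mem
  obtain ⟨h1, h2, -⟩ := delta_rot G hE.lineN (mem_invariants_bot G hE hf.mem)
  rw [hf.map_zero, sub_zero, sub_zero] at h1 h2
  have hval : A.valuation (f n) = ev A 2 ∧
      ∀ g ∈ G.fns, A.valuation (g n - g 0) ≤ ev A 2 := by
    rcases hE.mem_N n hn with rfl | rfl | rfl | rfl
    · exact absurd rfl hn0
    · exact ⟨hf.val, fun g hg => valuation_line_le G hA hE hg⟩
    · refine ⟨by rw [h1, valuation_apply_eq hσD, hf.val], fun g hg => ?_⟩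
      rw [(delta_rot G hE.lineN (mem_invariants_bot G hE hg)).1, valuation_apply_eq hσD]
      exact valuation_line_le G hA hE hg
    · refine ⟨by rw [h2, valuation_apply_eq hσD, valuation_apply_eq hσD, hf.val], fun g hg => ?_⟩
      rw [(delta_rot G hE.lineN (mem_invariants_bot G hE hg)).2.1, valuation_apply_eq hσD,
        valuation_apply_eq hσD]
      exact valuation_line_le G hA hE hg
  obtain ⟨m, a, b, ha, hb, hab⟩ := G.comul f hf.mem
  have e : (f (x + n) - f x) - f n = ∑ i, (a i x - a i 0) * (b i n - b i 0) := by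
    have h1 : f x = ∑ i, a i x * b i 0 := by rw [← hab, add_zero]
    have h2 : f n = ∑ i, a i 0 * b i n := by rw [← hab, zero_add]
    have h3 : (0 : Qbar) = ∑ i, a i 0 * b i 0 := by rw [← hab, add_zero, hf.map_zero]
    rw [hab x n, h1, h2]
    simp only [sub_mul, mul_sub, Finset.sum_sub_distrib]
    linear_combination h3
  have hlt : A.valuation (f (x + n) - f x - f n) < A.valuation (f n) := by
    rw [hval.1, e]
    refine lt_of_le_of_lt (A.valuation.map_sum_le fun i _ => ?_)
      ((ev_lt_ev hA).mpr (show (2 : ℤ) < 1 + 2 by norm_num))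
    exact valuation_mul_le_ev (valuation_delta_le G hA hE hf (ha i)) (hval.2 _ (hb i))
  rw [A.valuation.map_eq_of_sub_lt hlt, hval.1]

end FermatLib.MLT.Two.FlatTwo
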