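import Fermat.Agent.MLT.Two.Flat.Shallow
import Mathlib.FieldTheory.Galois.Infinite

/-!
# The residue of a shallow square class

Over the fixed field of `C.H`, with `c` of valuation `1/3`, a shallow square class has a
representative `1 + t c⁵` up to higher order, and the residue of `t` determines the class.
-/

set_option autoImplicit false
set_option linter.unusedSectionVars false

noncomputable section

namespace FermatLib.MLT.Two.FlatTwo

open FermatLib.Galois.Flat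
open scoped Pointwise

local notation "Qbar" => AlgebraicClosure ℚ
local notation "Γℚ" => (AlgebraicClosure ℚ ≃ₐ[ℚ] AlgebraicClosure ℚ)

local instance flatClass_isAlgebraic : Algebra.IsAlgebraic ℚ Qbar :=
  AlgebraicClosure.isAlgebraic ℚ

local instance flatClass_isGalois : IsGalois ℚ Qbar :=
  have : IsAlgClosure ℚ Qbar := ⟨inferInstance, inferInstance⟩
  have : Normal ℚ Qbar := IsAlgClosure.normal ℚ Qbar
  { }

variable {A : ValuationSubring Qbar} (C : InertiaCubic A)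

/-- The class of `u` has residue `t` with respect to `c`. -/
def HasResidue (c u t : Qbar) : Prop :=
  A.valuation t ≤ 1 ∧ ∃ w : Qbar, w ≠ 0 ∧ (∀ τ ∈ C.H, τ w = w) ∧
    A.valuation (u * w ^ 2 - 1 - t * c ^ 5) < ev A 10

variable {C} (hA : A.LiesOverPrime 2) {c : Qbar} (hc : A.valuation c = ev A 2)
  (hcfix : ∀ τ ∈ C.H, τ c = c)

include hc in
lemma valuation_mul_c_five {t : Qbar} :
    A.valuation (t * c ^ 5) = A.valuation t * ev A 10 := by
  rw [map_mul, map_pow, hc, ev_pow]; norm_num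

include hc in
lemma c_ne_zero : c ≠ 0 := by
  rintro rfl
  rw [map_zero] at hc
  exact ev_ne_zero _ hc.symm

include hA hc in
lemma HasResidue.valuation_le {u t w : Qbar} (ht : A.valuation t ≤ 1)
    (h : A.valuation (u * w ^ 2 - 1 - t * c ^ 5) < ev A 10) :
    A.valuation (u * w ^ 2 - 1) ≤ ev A 10 := by
  rw [show u * w ^ 2 - 1 = (u * w ^ 2 - 1 - t * c ^ 5) + t * c ^ 5 by ring]
  refine A.valuation.map_add_le h.le ?_
  rw [valuation_mul_c_five hc]
  exact mul_le_of_le_one_left' ht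

include hA hc hcfix in
/-- Shallow classes have residues. -/
theorem exists_hasResidue {u : Qbar} (hufix : ∀ τ ∈ C.H, τ u = u) (h : IsShallow C u) :
    ∃ t, HasResidue C c u t := by
  obtain ⟨w, hw0, hwfix, hw⟩ := h
  set u₂ := u * w ^ 2 with hu₂
  obtain ⟨s, hs, hslt⟩ := exists_fixed_sqrt hA (t := (u₂ - 1) / c ^ 4) (by
    rw [map_div₀, map_pow, hc, ev_pow]
    exact (div_le_one₀ (ev_pos _)).mpr (by simpa using hw))
  have hsv : A.valuation s ≤ 1 := (A.valuation_le_one_iff _).mpr hs.1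
  set g := 1 + s * c ^ 2 with hg
  have hsc : A.valuation (s * c ^ 2) ≤ ev A 4 := by
    rw [map_mul, map_pow, hc, ev_pow]
    exact (mul_le_of_le_one_left' hsv).trans_eq (by norm_num)
  have hgv : A.valuation g = 1 := by
    refine valuation_eq_of_sub_lt_one hA (map_one _) ?_
    rw [hg, add_sub_cancel_left, ← ev_zero (A := A)]
    exact hsc.trans_lt ((ev_lt_ev hA).mpr (by norm_num))
  have hg0 : g ≠ 0 := by intro h; rw [h, map_zero] at hgv; exact zero_ne_one hgv
  have hgfix : ∀ τ ∈ C.H, τ g = g := fun τ hτ => by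
    rw [hg, map_add, map_one, map_mul, map_pow, hcfix τ hτ, hs.2 τ (C.le_inertia hτ)]
  set δ := u * (w / g) ^ 2 - 1 with hδ
  have hδfix : ∀ τ ∈ C.H, τ δ = δ := fun τ hτ => by
    rw [hδ, map_sub, map_mul, map_pow, map_div₀, hufix τ hτ, hwfix τ hτ, hgfix τ hτ, map_one]
  have hδ8 : A.valuation δ < ev A 8 := by
    have hc0 := c_ne_zero hc
    have e : δ = (-((s ^ 2 - (u₂ - 1) / c ^ 4) * c ^ 4) - 2 * (s * c ^ 2)) / g ^ 2 := by
      simp only [hδ, hu₂]
      field_simp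
      simp only [hg]
      ring
    rw [e, map_div₀, map_pow, hgv, one_pow, div_one]
    refine (A.valuation.map_sub _ _).trans_lt (max_lt ?_ ?_)
    · rw [Valuation.map_neg, map_mul, map_pow, hc, ev_pow]
      simpa using mul_lt_of_lt_one_left (ev_pos (A := A) 8) hslt
    · exact (valuation_mul_le_ev ev_six.ge hsc).trans_lt ((ev_lt_ev hA).mpr (by norm_num))
  have hδ10 : A.valuation δ ≤ ev A 10 := C.le_ev_of_lt hA hδfix (n := 4) (by simpa using hδ8)
  refine ⟨δ / c ^ 5, ?_, w / g, div_ne_zero hw0 hg0,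
    fun τ hτ => by rw [map_div₀, hwfix τ hτ, hgfix τ hτ], ?_⟩
  · rw [map_div₀, map_pow, hc, ev_pow]
    exact (div_le_one₀ (ev_pos _)).mpr (by simpa using hδ10)
  · rw [div_mul_cancel₀ _ (pow_ne_zero _ (c_ne_zero hc)), ← hδ, sub_self, map_zero]
    exact ev_pos _

include hA hc in
/-- Residues only matter modulo the maximal ideal. -/
lemma HasResidue.congr {u t t' : Qbar} (h : HasResidue C c u t)
    (htt' : A.valuation (t - t') < 1) : HasResidue C c u t' := by
  obtain ⟨ht, w, hw0, hwfix, hw⟩ := h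
  refine ⟨?_, w, hw0, hwfix, ?_⟩
  · rw [show t' = t - (t - t') by ring]
    exact (A.valuation.map_sub _ _).trans (max_le ht htt'.le)
  · rw [show u * w ^ 2 - 1 - t' * c ^ 5 = (u * w ^ 2 - 1 - t * c ^ 5) + (t - t') * c ^ 5 by ring]
    refine A.valuation.map_add_lt hw ?_
    rw [valuation_mul_c_five hc]
    exact mul_lt_of_lt_one_left (ev_pos _) htt'

include hA hc in
/-- Residues are additive. -/
lemma HasResidue.mul {u u' t t' : Qbar} (h : HasResidue C c u t) (h' : HasResidue C c u' t') :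
    HasResidue C c (u * u') (t + t') := by
  obtain ⟨ht, w, hw0, hwfix, hw⟩ := h
  obtain ⟨ht', w', hw0', hwfix', hw'⟩ := h'
  refine ⟨(A.valuation.map_add _ _).trans (max_le ht ht'), w * w', mul_ne_zero hw0 hw0',
    fun τ hτ => by rw [map_mul, hwfix τ hτ, hwfix' τ hτ], ?_⟩
  have hδ := HasResidue.valuation_le hA hc ht hw
  have hδ' := HasResidue.valuation_le hA hc ht' hw'
  rw [show u * u' * (w * w') ^ 2 - 1 - (t + t') * c ^ 5 = (u * w ^ 2 - 1 - t * c ^ 5) +
    (u' * w' ^ 2 - 1 - t' * c ^ 5) + (u * w ^ 2 - 1) * (u' * w' ^ 2 - 1) by ring]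
  exact A.valuation.map_add_lt (A.valuation.map_add_lt hw hw')
    ((valuation_mul_le_ev hδ hδ').trans_lt ((ev_lt_ev hA).mpr (by norm_num)))

include hA hc hcfix in
/-- A class of residue zero is trivial on `C.H`. -/
theorem HasResidue.apply_sqrt_eq {q t : Qbar} (h : HasResidue C c (q ^ 2) t)
    (hfix : ∀ τ ∈ C.H, τ (q ^ 2) = q ^ 2) (ht0 : A.valuation t < 1) :
    ∀ τ ∈ C.H, τ q = q := by
  obtain ⟨-, w, hw0, hwfix, hw⟩ := h.congr hA hc (t' := 0) (by simpa using ht0)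
  rw [zero_mul, sub_zero] at hw
  have h12 : A.valuation (q ^ 2 * w ^ 2 - 1) ≤ ev A 12 :=
    C.le_ev_of_lt hA (n := 5) (fun τ hτ => by
      rw [map_sub, map_mul, hfix τ hτ, map_pow, hwfix τ hτ, map_one]) (by simpa using hw)
  set x := (q * w - 1) / 2 with hx
  have hxa : A.valuation (x * (x + 1)) ≤ 1 := by
    rw [show x * (x + 1) = (q ^ 2 * w ^ 2 - 1) / 4 by rw [hx]; ring, map_div₀,
      show (4 : Qbar) = 2 * 2 by norm_num, map_mul, ← ev_six, ← ev_add]
    exact (div_le_one₀ (ev_pos _)).mpr (by simpa using h12)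
  have hxv : A.valuation x ≤ 1 := by
    by_contra! hlt
    rw [map_mul, A.valuation.map_add_eq_of_lt_left (by rwa [map_one])] at hxa
    exact hxa.not_gt (one_lt_mul'' hlt hlt)
  have hqw : A.valuation (q * w) = 1 := by
    refine (pow_left_inj₀ zero_le zero_le two_ne_zero).mp ?_
    rw [one_pow, ← map_pow, mul_pow]
    refine valuation_eq_of_sub_lt_one hA (map_one _) (h12.trans_lt ?_)
    rw [← ev_zero (A := A)]; exact (ev_lt_ev hA).mpr (by norm_num)
  intro τ hτ
  have hsq : (τ (q * w)) ^ 2 = (q * w) ^ 2 := by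
    rw [← map_pow, mul_pow, map_mul, hfix τ hτ, map_pow, hwfix τ hτ]
  rcases eq_or_eq_neg_of_sq_eq_sq _ _ hsq with h1 | h1
  · rw [map_mul, hwfix τ hτ] at h1
    exact mul_right_cancel₀ hw0 h1
  · exfalso
    have hlt := valuation_apply_sub_lt_one (C.le_inertia hτ) ((A.valuation_le_one_iff x).mp hxv)
    rw [show τ x - x = -(q * w) by
      rw [hx, map_div₀, map_sub, h1, map_one, map_ofNat]; ring, Valuation.map_neg, hqw] at hlt
    exact hlt.false

include hA hc hcfix in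
/-- The residue is unique modulo the maximal ideal. -/
theorem HasResidue.unique {u t t' : Qbar} (hu : u ≠ 0) 
    (h : HasResidue C c u t) (h' : HasResidue C c u t') : A.valuation (t - t') < 1 := by
  obtain ⟨ht, w, hw0, hwfix, hw⟩ := h
  obtain ⟨ht', w', hw0', hwfix', hw'⟩ := h'
  set z := w / w' with hz
  have hzfix : ∀ τ ∈ C.H, τ (z - 1) = z - 1 := fun τ hτ => by
    rw [hz, map_sub, map_div₀, hwfix τ hτ, hwfix' τ hτ, map_one]
  have hd := HasResidue.valuation_le hA hc ht hw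
  have hd' := HasResidue.valuation_le hA hc ht' hw'
  have hv' : A.valuation (u * w' ^ 2) = 1 := by
    refine valuation_eq_of_sub_lt_one hA (map_one _) (hd'.trans_lt ?_)
    rw [← ev_zero (A := A)]; exact (ev_lt_ev hA).mpr (by norm_num)
  have e : z ^ 2 - 1 = ((u * w ^ 2 - 1) - (u * w' ^ 2 - 1)) / (u * w' ^ 2) := by
    rw [hz]; field_simp; ring
  have hz10 : A.valuation (z ^ 2 - 1) ≤ ev A 10 := by
    rw [e, map_div₀, hv', div_one]
    exact (A.valuation.map_sub _ _).trans (max_le hd hd')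
  have hz6 : A.valuation (z - 1) ≤ ev A 6 := by
    by_contra! hgt
    have hsum : A.valuation (z - 1 + 2) = A.valuation (z - 1) :=
      A.valuation.map_add_eq_of_lt_left (by rw [← ev_six]; exact hgt)
    obtain ⟨m, hm⟩ := C.exists_even hA (z - 1) (fun h0 => by
      rw [h0, map_zero] at hgt; exact hgt.not_ge zero_le) hzfix
    rw [show z ^ 2 - 1 = (z - 1) * (z - 1 + 2) by ring, map_mul, hsum, hm, ← ev_add,
      ev_le_ev hA] at hz10
    rw [hm, ev_lt_ev hA] at hgt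
    omega
  have hz12 : A.valuation (z ^ 2 - 1) ≤ ev A 12 := by
    rw [show z ^ 2 - 1 = (z - 1) * (z - 1 + 2) by ring]
    exact valuation_mul_le_ev hz6 (A.valuation.map_add_le hz6 ev_six.ge)
  have hkey : A.valuation ((t - t') * c ^ 5) < ev A 10 := by
    rw [show (t - t') * c ^ 5 = ((u * w ^ 2 - 1) - (u * w' ^ 2 - 1)) -
      ((u * w ^ 2 - 1 - t * c ^ 5) - (u * w' ^ 2 - 1 - t' * c ^ 5)) by ring,
      show (u * w ^ 2 - 1) - (u * w' ^ 2 - 1) = (z ^ 2 - 1) * (u * w' ^ 2) by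
        rw [e, div_mul_cancel₀ _ (mul_ne_zero hu (pow_ne_zero _ hw0'))]]
    refine (A.valuation.map_sub _ _).trans_lt
      (max_lt ?_ ((A.valuation.map_sub _ _).trans_lt (max_lt hw hw')))
    rw [map_mul, hv', mul_one]
    exact hz12.trans_lt ((ev_lt_ev hA).mpr (by norm_num))
  rw [valuation_mul_c_five hc] at hkey
  by_contra! hle
  exact hkey.not_ge (le_mul_of_one_le_left' hle)

include hA hc hcfix in
/-- Transport by an element of the decomposition group normalising `C.H`. -/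
theorem HasResidue.map {g : Γℚ} (hg : g ∈ A.decompositionSubgroup ℚ)
    (hgH : ∀ τ ∈ C.H, g⁻¹ * τ * g ∈ C.H) {u t : Qbar} (h : HasResidue C c u t) :
    HasResidue C c (g u) (g t * (g c / c) ^ 5) := by
  obtain ⟨ht, w, hw0, hwfix, hw⟩ := h
  have hc0 := c_ne_zero hc
  refine ⟨?_, g w, (map_ne_zero g).mpr hw0, fun τ hτ => ?_, ?_⟩
  · rw [map_mul, map_pow, map_div₀, valuation_apply_eq hg, valuation_apply_eq hg, hc,
      div_self (ev_ne_zero _), one_pow, mul_one]
    exact ht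
  · calc τ (g w) = g ((g⁻¹ * τ * g) w) := by
          simp only [AlgEquiv.mul_apply, AlgEquiv.aut_inv, AlgEquiv.apply_symm_apply]
      _ = g w := by rw [hwfix _ (hgH τ hτ)]
  · rw [mul_assoc (g t), ← mul_pow, div_mul_cancel₀ _ hc0, ← map_pow g c, ← map_mul g t,
      ← map_pow g w, ← map_mul g u, ← map_one g, ← map_sub g, ← map_sub g, valuation_apply_eq hg]
    exact hw

lemma zmod_two_cases : ∀ a : ZMod 2, a = 0 ∨ a = 1 := by decide

/-- A Kummer generator of a quadratic character of `C.H` trivial on a normal subgroup of finite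
level. -/
theorem exists_kummer_generator {U : Subgroup Γℚ} [U.Normal] (hU : IsOpen (U : Set Γℚ))
    (χ : Γℚ → ZMod 2) (hadd : ∀ σ ∈ C.H, ∀ τ ∈ C.H, χ (σ * τ) = χ σ + χ τ)
    (hker : ∀ τ ∈ C.H, τ ∈ U → χ τ = 0) :
    ∃ q : Qbar, q ≠ 0 ∧ (∀ τ ∈ C.H, τ (q ^ 2) = q ^ 2) ∧ ∀ τ ∈ C.H, (τ q = q ↔ χ τ = 0) := by
  by_cases hall : ∀ τ ∈ C.H, χ τ = 0
  · exact ⟨1, one_ne_zero, fun τ _ => by simp, fun τ hτ => by simp [hall τ hτ]⟩
  push Not at hall
  obtain ⟨τ₁, hτ₁, hχ₁⟩ := hall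
  have h1 : χ 1 = 0 := by simpa using hadd 1 (one_mem _) 1 (one_mem _)
  have hinv : ∀ τ ∈ C.H, χ τ⁻¹ = χ τ := fun τ hτ => by
    have := hadd τ hτ τ⁻¹ (inv_mem hτ)
    rw [mul_inv_cancel, h1] at this
    exact (eq_neg_of_add_eq_zero_right this.symm).trans (ZMod.neg_eq_self_mod_two _)
  have hτ₁one : χ τ₁ = 1 := (zmod_two_cases (χ τ₁)).resolve_left hχ₁
  let K : Subgroup Γℚ :=
    { carrier := {τ | τ ∈ C.H ∧ χ τ = 0}
      mul_mem' := fun {a b} ha hb => ⟨mul_mem ha.1 hb.1, by rw [hadd a ha.1 b hb.1, ha.2, hb.2]; simp⟩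
      one_mem' := ⟨one_mem _, h1⟩
      inv_mem' := fun {a} ha => ⟨inv_mem ha.1, by rw [hinv a ha.1]; exact ha.2⟩ }
  have hopen : IsOpen ((K ⊔ U : Subgroup Γℚ) : Set Γℚ) := Subgroup.isOpen_mono le_sup_right hU
  have hτ₁not : τ₁ ∉ K ⊔ U := by
    intro hmem
    obtain ⟨k, hk, v, hv, hkv⟩ : τ₁ ∈ ((K : Set Γℚ) * (U : Set Γℚ)) := by
      rw [← Subgroup.mul_normal K U]; exact hmem
    have hvH : v ∈ C.H := by
      have : v = k⁻¹ * τ₁ := by rw [← hkv]; group
      rw [this]; exact mul_mem (inv_mem hk.1) hτ₁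
    exact hχ₁ (by rw [← hkv, hadd k hk.1 v hvH, hk.2, hker v hvH hv, add_zero])
  let F := IntermediateField.fixedField (K ⊔ U : Subgroup Γℚ)
  have hF : F.fixingSubgroup = K ⊔ U :=
    InfiniteGalois.fixingSubgroup_fixedField ⟨K ⊔ U, Subgroup.isClosed_of_isOpen _ hopen⟩
  obtain ⟨q', hq', hmove⟩ : ∃ q' ∈ F, τ₁ q' ≠ q' := by
    by_contra! h
    refine hτ₁not ?_
    rw [← hF, IntermediateField.mem_fixingSubgroup_iff]
    exact h
  have hq'K : ∀ τ ∈ C.H, χ τ = 0 → τ q' = q' := fun τ hτ h => hq' ⟨τ, le_sup_left (a := K) ⟨hτ, h⟩⟩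
  have hconj : ∀ τ ∈ C.H, χ τ = 0 → τ (τ₁ q') = τ₁ q' := fun τ hτ h => by
    have := hq'K (τ₁⁻¹ * τ * τ₁) (mul_mem (mul_mem (inv_mem hτ₁) hτ) hτ₁) (by
      rw [hadd _ (mul_mem (inv_mem hτ₁) hτ) _ hτ₁, hadd _ (inv_mem hτ₁) _ hτ, hinv _ hτ₁, h,
        add_zero, hτ₁one]
      rfl)
    simp only [AlgEquiv.mul_apply, AlgEquiv.aut_inv] at this
    exact τ₁.symm.injective (by rw [this, AlgEquiv.symm_apply_apply])
  have h11 : τ₁ (τ₁ q') = q' := by
    rw [← AlgEquiv.mul_apply]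
    exact hq'K _ (mul_mem hτ₁ hτ₁) (by rw [hadd _ hτ₁ _ hτ₁, hτ₁one]; rfl)
  set q := q' - τ₁ q' with hq
  have hfix : ∀ τ ∈ C.H, χ τ = 0 → τ q = q := fun τ hτ h => by
    rw [hq, map_sub, hq'K τ hτ h, hconj τ hτ h]
  have hneg : τ₁ q = -q := by rw [hq, map_sub, h11]; ring
  have hq0 : q ≠ 0 := sub_ne_zero.mpr hmove.symm
  have hodd : ∀ τ ∈ C.H, χ τ ≠ 0 → τ q = -q := fun τ hτ h => by
    have e : χ (τ * τ₁) = 0 := by
      rw [hadd τ hτ τ₁ hτ₁, hτ₁one, (zmod_two_cases (χ τ)).resolve_left h]; rfl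
    have := hfix _ (mul_mem hτ hτ₁) e
    rw [AlgEquiv.mul_apply, hneg, map_neg] at this
    exact neg_eq_iff_eq_neg.mp this
  refine ⟨q, hq0, fun τ hτ => ?_, fun τ hτ => ⟨fun h => ?_, hfix τ hτ⟩⟩
  · by_cases h : χ τ = 0
    · rw [map_pow, hfix τ hτ h]
    · rw [map_pow, hodd τ hτ h, neg_sq]
  · by_contra hne
    rw [hodd τ hτ hne] at h
    exact hq0 (by linear_combination (-1/2 : Qbar) * h)

end FermatLib.MLT.Two.FlatTwo
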