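import Fermat.Agent.MLT.Two.Flat.Line
import Mathlib.LinearAlgebra.Matrix.NonsingularInverse

/-!
# Coordinates of functions on the cosets of the supersingular line

For an extension of the cubic line by itself, the relative trace `g ↦ (1/2)∑ g(z + n)` gives integral
coordinates, on every coset, with respect to the powers of a uniformizing function.
-/

set_option autoImplicit false

noncomputable section

namespace FermatLib.MLT.Two.FlatTwo

open FermatLib.Galois.Flat

local notation "Qbar" => AlgebraicClosure ℚ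
local notation "Γℚ" => (AlgebraicClosure ℚ ≃ₐ[ℚ] AlgebraicClosure ℚ)

variable {A : ValuationSubring Qbar} {M : Type*} [AddCommGroup M] {act : Γℚ → M →+ M}

/-- An extension, killed by `2`, of the cubic line by itself. -/
structure CubicExt (C : InertiaCubic A) (act : Γℚ → M →+ M) (N : AddSubgroup M) (x d : M) :
    Prop where
  two : ∀ z : M, 2 • z = 0
  d_mem : d ∈ N
  lineN : IsCubicLine C act ⊥ d
  lineQ : IsCubicLine C act N x
  mem_N : ∀ z ∈ N, z = 0 ∨ z = d ∨ z = act C.σ₀ d ∨ z = act C.σ₀ (act C.σ₀ d)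
  mem_Q : ∀ z : M, z ∈ N ∨ z - x ∈ N ∨ z - act C.σ₀ x ∈ N ∨ z - act C.σ₀ (act C.σ₀ x) ∈ N

/-- The four points of the line. -/
def linePts (C : InertiaCubic A) (act : Γℚ → M →+ M) (d : M) : Fin 4 → M :=
  ![0, d, act C.σ₀ d, act C.σ₀ (act C.σ₀ d)]

/-- Half the sum over the coset. -/
def relTrace (C : InertiaCubic A) (act : Γℚ → M →+ M) (d : M) (g : M → Qbar) (z : M) : Qbar :=
  (∑ i, g (z + linePts C act d i)) / 2

/-- The Vandermonde matrix of `f` on the coset of `z`. -/
def cosetMat (C : InertiaCubic A) (act : Γℚ → M →+ M) (d : M) (f : M → Qbar) (z : M) :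
    Matrix (Fin 4) (Fin 4) Qbar :=
  Matrix.of fun i k => f (z + linePts C act d i) ^ (k : ℕ)

/-- The coordinates of `g` on the coset of `z`. -/
def cosetCoeff (C : InertiaCubic A) (act : Γℚ → M →+ M) (d : M) (f g : M → Qbar) (z : M) :
    Fin 4 → Qbar :=
  Matrix.mulVec (cosetMat C act d f z)⁻¹ fun i => g (z + linePts C act d i)

/-- `f` is a uniformizing function of the line. -/
structure IsUniformizer (G : IntegralModel A act) (d : M) (f : M → Qbar) : Prop where
  mem : f ∈ G.fns
  map_zero : f 0 = 0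
  val : A.valuation (f d) = ev A 2

variable (G : IntegralModel A act) (hA : A.LiesOverPrime 2) [Finite M]
  {C : InertiaCubic A} {N : AddSubgroup M} {x d : M} (hE : CubicExt C act N x d)

include hE in
omit [Finite M] in
lemma mem_invariants_bot {g : M → Qbar} (hg : g ∈ G.fns) : g ∈ G.invariants (⊥ : AddSubgroup M) :=
  G.mem_invariants.mpr ⟨hg, fun z n hn => by rw [AddSubgroup.mem_bot.mp hn, add_zero]⟩

omit [Finite M] in
lemma pow_mem_fns {f : M → Qbar} (hf : f ∈ G.fns) (k : ℕ) : f ^ k ∈ G.fns := by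
  induction k with
  | zero => rw [pow_zero]; exact G.fns_one_mem
  | succ k ih => rw [pow_succ]; exact G.fns_mul_mem _ _ ih hf

omit [Finite M] in
lemma apply_zero_mem {g : M → Qbar} (hg : g ∈ G.fns) : g 0 ∈ inertiaFixedRing A :=
  ⟨G.apply_mem g hg 0, fun σ hσ => by rw [← G.equivariant σ hσ g hg, _root_.map_zero]⟩

include hE hA in
lemma exists_isUniformizer : ∃ f, IsUniformizer G d f := by
  obtain ⟨h₀, hh₀, hv, -⟩ := exists_uniformizer G hA hE.lineN
  have hh := (G.mem_invariants.mp hh₀).1
  refine ⟨fun z => h₀ z - h₀ 0, ?_, sub_self _, hv⟩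
  have e : (fun z => h₀ z - h₀ 0) =
      h₀ - (⟨_, apply_zero_mem G hh⟩ : inertiaFixedRing A) • (fun _ => (1 : Qbar)) := by
    funext z; simp [Subring.smul_def]
  rw [e]
  exact sub_mem hh (Submodule.smul_mem _ _ G.fns_one_mem)

include hE hA in
lemma valuation_line_le {g : M → Qbar} (hg : g ∈ G.fns) :
    A.valuation (g d - g 0) ≤ ev A 2 := by
  obtain ⟨-, -, -, h⟩ := exists_uniformizer G hA hE.lineN
  exact h g (mem_invariants_bot G hE hg)

include hE hA in
lemma valuation_quot_le {g : M → Qbar} (hg : g ∈ G.invariants N) (z : M) :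
    A.valuation (g z - g 0) ≤ ev A 2 := by
  obtain ⟨-, -, -, h⟩ := exists_uniformizer G hA hE.lineQ
  have hσD := mem_decomposition_of_mem_inertia C.σ₀_mem
  obtain ⟨h1, h2, -⟩ := delta_rot G hE.lineQ hg
  rcases hE.mem_Q z with hz | hz | hz | hz
  · rw [G.invariants_eq_of_sub_mem hg (y := 0) (by simpa using hz)]; simp
  · rw [G.invariants_eq_of_sub_mem hg hz]; exact h g hg
  · rw [G.invariants_eq_of_sub_mem hg hz, h1, valuation_apply_eq hσD]; exact h g hg
  · rw [G.invariants_eq_of_sub_mem hg hz, h2, valuation_apply_eq hσD, valuation_apply_eq hσD]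
    exact h g hg

include hE in
omit [Finite M] in
lemma sum_linePts_shift {g : M → Qbar} {n : M} (hn : n ∈ N) (z : M) :
    ∑ i, g (z + n + linePts C act d i) = ∑ i, g (z + linePts C act d i) := by
  set a := d
  set b := act C.σ₀ d
  set e := act C.σ₀ (act C.σ₀ d)
  have haa : a + a = 0 := by rw [← two_nsmul]; exact hE.two a
  have hbb : b + b = 0 := by rw [← two_nsmul]; exact hE.two b
  have hee : e + e = 0 := by rw [← two_nsmul]; exact hE.two e
  have hs : a + b + e = 0 := AddSubgroup.mem_bot.mp hE.lineN.sum_mem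
  have hab : a + b = e := eq_of_sub_eq_zero (by
    calc a + b - e = a + b + e - (e + e) := by abel
      _ = 0 := by rw [hs, hee, sub_zero])
  have hae : a + e = b := eq_of_sub_eq_zero (by
    calc a + e - b = a + b + e - (b + b) := by abel
      _ = 0 := by rw [hs, hbb, sub_zero])
  have hbe : b + e = a := eq_of_sub_eq_zero (by
    calc b + e - a = a + b + e - (a + a) := by abel
      _ = 0 := by rw [hs, haa, sub_zero])
  have hba : b + a = e := by rw [add_comm, hab]
  have hea : e + a = b := by rw [add_comm, hae]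
  have heb : e + b = a := by rw [add_comm, hbe]
  simp only [Fin.sum_univ_four, linePts, Matrix.cons_val, add_assoc]
  rcases hE.mem_N n hn with rfl | rfl | rfl | rfl <;>
    simp only [zero_add, add_zero, haa, hbb, hee, hab, hae, hbe, hba, hea, heb, a, b, e] <;> ring

include hE hA in
/-- The relative trace of a function is an invariant function. -/
lemma relTrace_mem {g : M → Qbar} (hg : g ∈ G.fns) : relTrace C act d g ∈ G.invariants N := by
  refine G.mem_invariants.mpr ⟨?_, fun z n hn => by
    rw [relTrace, relTrace, sum_linePts_shift hE hn]⟩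
  obtain ⟨m, a, b, ha, hb, hab⟩ := G.comul g hg
  have hlam : ∀ i, (∑ j, b i (linePts C act d j)) / 2 ∈ inertiaFixedRing A := by
    intro i
    have hb' := mem_invariants_bot G hE (hb i)
    obtain ⟨h1, h2, -⟩ := delta_rot G hE.lineN hb'
    set T := (b i d - b i 0) + C.σ₀ (b i d - b i 0) + C.σ₀ (C.σ₀ (b i d - b i 0)) with hT
    have hfix : ∀ σ ∈ A.inertiaSubgroupIn ℚ, σ T = T := trace_fixed G hE.lineN hb'
    have e : (∑ j, b i (linePts C act d j)) / 2 = 2 * b i 0 + T / 2 := by
      simp only [Fin.sum_univ_four, linePts, Matrix.cons_val, hT]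
      linear_combination (h1 + h2) / 2
    have hTv : A.valuation T ≤ ev A 6 := by
      refine inertia_fixed_le hA hfix (n := 0) (le_ev_mono hA (m := 2) (by norm_num) ?_)
      have hσD := mem_decomposition_of_mem_inertia C.σ₀_mem
      have h := valuation_line_le G hA hE (hb i)
      refine A.valuation.map_add_le (A.valuation.map_add_le h ?_) ?_
      · rw [valuation_apply_eq hσD]; exact h
      · rw [valuation_apply_eq hσD, valuation_apply_eq hσD]; exact h
    have hb0 := apply_zero_mem G (hb i)
    rw [e]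
    refine ⟨add_mem (mul_mem (natCast_mem A 2) hb0.1) ?_, fun σ hσ => by
      rw [map_add, map_mul, map_div₀, map_ofNat, hfix σ hσ, hb0.2 σ hσ]⟩
    rw [mem_A_iff_le_ev, map_div₀, ← ev_six, ev_zero]
    exact (div_le_one₀ (ev_pos _)).mpr hTv
  have e : relTrace C act d g = ∑ i, (⟨_, hlam i⟩ : inertiaFixedRing A) • a i := by
    funext z
    simp only [relTrace, hab, Finset.sum_apply, Pi.smul_apply, Subring.smul_def, smul_eq_mul,
      Finset.sum_div]
    rw [Finset.sum_comm]
    refine Finset.sum_congr rfl fun i _ => ?_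
    simp only [Finset.mul_sum, div_eq_mul_inv, mul_left_comm, mul_comm]
  rw [e]
  exact Submodule.sum_mem _ fun i _ => Submodule.smul_mem _ _ (ha i)

variable {f : M → Qbar} (hf : IsUniformizer G d f)

include hE hA hf in
/-- Entries of the Gram matrix of the relative trace. -/
lemma valuation_gram (n : ℕ) (z : M) :
    A.valuation (relTrace C act d (f ^ n) z) ≤ 1 ∧
      (n = 3 → A.valuation (relTrace C act d (f ^ n) z) = 1) ∧
      (4 ≤ n → A.valuation (relTrace C act d (f ^ n) z) < 1) := by
  have hσD := mem_decomposition_of_mem_inertia C.σ₀_mem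
  have hE' := relTrace_mem G hA hE (pow_mem_fns G hf.mem n)
  have hdiff : A.valuation (relTrace C act d (f ^ n) z - relTrace C act d (f ^ n) 0) < 1 :=
    (valuation_quot_le G hA hE hE' z).trans_lt (by
      rw [← ev_zero (A := A)]; exact (ev_lt_ev hA).mpr (by norm_num))
  obtain ⟨h1, h2, -⟩ := delta_rot G hE.lineN (mem_invariants_bot G hE hf.mem)
  rw [hf.map_zero, sub_zero, sub_zero] at h1 h2
  set c := f d
  rcases Nat.eq_zero_or_pos n with rfl | hn
  · refine ⟨(A.valuation_le_one_iff _).mpr
      (G.apply_mem _ (G.mem_invariants.mp hE').1 z), by omega, by omega⟩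
  have e0 : relTrace C act d (f ^ n) 0 = (c ^ n + C.σ₀ (c ^ n) + C.σ₀ (C.σ₀ (c ^ n))) / 2 := by
    simp only [relTrace, zero_add, Fin.sum_univ_four, linePts, Matrix.cons_val, Pi.pow_apply,
      h1, h2, hf.map_zero, zero_pow hn.ne', map_pow]
    rfl
  have hint : A.valuation (relTrace C act d (f ^ n) z) ≤ 1 :=
    (A.valuation_le_one_iff _).mpr (G.apply_mem _ (G.mem_invariants.mp hE').1 z)
  refine ⟨hint, ?_, ?_⟩
  · rintro rfl
    rw [← sub_add_cancel (relTrace C act d (f ^ 3) z) (relTrace C act d (f ^ 3) 0)]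
    suffices h : A.valuation (relTrace C act d (f ^ 3) 0) = 1 by
      rw [A.valuation.map_add_eq_of_lt_right (by rw [h]; exact hdiff), h]
    have hu1 : A.valuation (c ^ 3 / 2) = 1 := by
      rw [map_div₀, map_pow, hf.val, ev_pow, ← ev_six]
      exact div_self (ev_ne_zero _)
    set u := c ^ 3 / 2
    have hσ2 : C.σ₀ (c ^ 3) = 2 * C.σ₀ u := by
      rw [show c ^ 3 = 2 * u by simp [u]; ring, map_mul, map_ofNat]
    have e : relTrace C act d (f ^ 3) 0 = ((3 : ℕ) : Qbar) * u +
        (((C.σ₀ u - u) + (C.σ₀ u - u)) + (C.σ₀ (C.σ₀ u) - C.σ₀ u)) := by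
      rw [e0, hσ2, map_mul, map_ofNat]; simp only [u]; push_cast; ring
    have hs : A.valuation (C.σ₀ u - u) < 1 :=
      valuation_apply_sub_lt_one C.σ₀_mem ((A.valuation_le_one_iff _).mp hu1.le)
    have h3 : A.valuation (((3 : ℕ) : Qbar) * u) = 1 := by
      rw [map_mul, hu1, mul_one, valuation_natCast_odd hA (by norm_num), ev_zero]
    rw [e, A.valuation.map_add_eq_of_lt_left, h3]
    rw [h3]
    refine A.valuation.map_add_lt (A.valuation.map_add_lt hs hs) ?_
    rw [← map_sub, valuation_apply_eq hσD]; exact hs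
  · intro hn4
    rw [← sub_add_cancel (relTrace C act d (f ^ n) z) (relTrace C act d (f ^ n) 0)]
    refine A.valuation.map_add_lt hdiff ?_
    have hb := mem_invariants_bot G hE (pow_mem_fns G hf.mem n)
    have hT := trace_fixed G hE.lineN hb
    simp only [Pi.pow_apply, hf.map_zero, zero_pow hn.ne', sub_zero] at hT
    have hc : A.valuation (c ^ n) ≤ ev A 8 :=
      le_ev_mono hA (by omega) (valuation_pow_le_ev hf.val.le n)
    have h12 : A.valuation (c ^ n + C.σ₀ (c ^ n) + C.σ₀ (C.σ₀ (c ^ n))) ≤ ev A 12 := by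
      refine inertia_fixed_le hA hT (n := 1) (le_ev_mono hA (m := 8) (by norm_num) ?_)
      refine A.valuation.map_add_le (A.valuation.map_add_le hc ?_) ?_
      · rw [valuation_apply_eq hσD]; exact hc
      · rw [valuation_apply_eq hσD, valuation_apply_eq hσD]; exact hc
    rw [e0, map_div₀, ← ev_six, div_lt_one₀ (ev_pos _)]
    exact h12.trans_lt ((ev_lt_ev hA).mpr (by norm_num))

omit [Finite M] in
lemma gram_mul {g : M → Qbar} (z : M) (w : Fin 4 → Qbar)
    (hw : Matrix.mulVec (cosetMat C act d f z) w = fun i => g (z + linePts C act d i))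
    (j : Fin 4) :
    ∑ k : Fin 4, relTrace C act d (f ^ ((j : ℕ) + (k : ℕ))) z * w k =
      relTrace C act d (g * f ^ (j : ℕ)) z := by
  simp only [relTrace, Pi.mul_apply, Pi.pow_apply, div_mul_eq_mul_div, Finset.sum_mul,
    ← Finset.sum_div]
  rw [Finset.sum_comm]
  congr 1
  refine Finset.sum_congr rfl fun i _ => ?_
  rw [← congrFun hw i]
  simp only [Matrix.mulVec, dotProduct, cosetMat, Matrix.of_apply, Finset.sum_mul, pow_add]
  exact Finset.sum_congr rfl fun k _ => by ring

include hE hA hf in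
/-- Back substitution with the anti-triangular Gram matrix. -/
lemma valuation_solve_le {z : M} {w : Fin 4 → Qbar} {γ : A.ValueGroup}
    (hw : ∀ j : Fin 4, A.valuation (∑ k : Fin 4, relTrace C act d (f ^ ((j : ℕ) + (k : ℕ))) z * w k) ≤ γ)
    (k : Fin 4) : A.valuation (w k) ≤ γ := by
  classical
  obtain ⟨m, -, hm⟩ := Finset.univ.exists_max_image (fun k => A.valuation (w k))
    Finset.univ_nonempty
  refine (hm k (Finset.mem_univ k)).trans ?_
  by_contra! hlt
  obtain ⟨k₀, hk₀, hmin⟩ := (Finset.univ.filter fun k => A.valuation (w k) = A.valuation (w m)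
    ).exists_min_image (fun k : Fin 4 => (k : ℕ)) ⟨m, by simp⟩
  rw [Finset.mem_filter] at hk₀
  let j : Fin 4 := ⟨3 - k₀, by omega⟩
  have hmain : A.valuation (relTrace C act d (f ^ ((j : ℕ) + k₀)) z * w k₀) = A.valuation (w m) := by
    rw [map_mul, (valuation_gram G hA hE hf _ z).2.1 (by simp [j]; omega), one_mul, hk₀.2]
  have := hw j
  rw [A.valuation.map_sum_eq_of_lt (Finset.mem_univ k₀) fun k hk => ?_, hmain] at this
  · exact this.not_gt hlt
  rw [Finset.mem_sdiff, Finset.mem_singleton] at hk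
  rw [hmain, map_mul]
  rcases lt_or_gt_of_ne (fun h : (k : ℕ) = k₀ => hk.2 (Fin.ext h)) with h | h
  · refine (mul_le_of_le_one_left' (valuation_gram G hA hE hf _ z).1).trans_lt ?_
    refine lt_of_le_of_ne (hm k (Finset.mem_univ k)) fun heq => ?_
    exact absurd (hmin k (by simp [heq])) (by omega)
  · refine lt_of_le_of_lt (mul_le_mul' le_rfl (hm k (Finset.mem_univ k))) ?_
    exact mul_lt_of_lt_one_left (lt_of_le_of_lt zero_le hlt)
      ((valuation_gram G hA hE hf _ z).2.2 (by simp [j]; omega))

include G hE hA hf in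
lemma isUnit_cosetMat (z : M) : IsUnit (cosetMat C act d f z) := by
  rw [← Matrix.mulVec_injective_iff_isUnit]
  intro v w hvw
  have h0 : Matrix.mulVec (cosetMat C act d f z) (v - w) =
      fun i => (0 : M → Qbar) (z + linePts C act d i) := by
    rw [Matrix.mulVec_sub, sub_eq_zero.mpr hvw]; rfl
  funext k
  refine sub_eq_zero.mp (A.valuation.zero_iff.mp (le_antisymm ?_ zero_le))
  refine valuation_solve_le G hA hE hf (z := z) (w := v - w) (fun j => ?_) k
  rw [gram_mul z (v - w) h0 j]
  simp [relTrace]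

include G hE hA hf in
lemma cosetCoeff_spec (g : M → Qbar) (z : M) (i : Fin 4) :
    ∑ k : Fin 4, cosetCoeff C act d f g z k * f (z + linePts C act d i) ^ (k : ℕ) =
      g (z + linePts C act d i) := by
  have h : Matrix.mulVec (cosetMat C act d f z) (cosetCoeff C act d f g z) =
      fun i => g (z + linePts C act d i) := by
    rw [cosetCoeff, Matrix.mulVec_mulVec,
      Matrix.mul_nonsing_inv _ ((Matrix.isUnit_iff_isUnit_det _).mp (isUnit_cosetMat G hA hE hf z)),
      Matrix.one_mulVec]
  have := congrFun h i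
  simp only [Matrix.mulVec, dotProduct, cosetMat, Matrix.of_apply] at this
  rw [← this]
  exact Finset.sum_congr rfl fun k _ => mul_comm _ _

include G hE hA hf in
lemma cosetCoeff_unique {g : M → Qbar} {z : M} {w : Fin 4 → Qbar}
    (hw : ∀ i, ∑ k : Fin 4, w k * f (z + linePts C act d i) ^ (k : ℕ) =
      g (z + linePts C act d i)) : cosetCoeff C act d f g z = w := by
  refine Matrix.mulVec_injective_iff_isUnit.mpr (isUnit_cosetMat G hA hE hf z) ?_
  funext i
  simp only [Matrix.mulVec, dotProduct, cosetMat, Matrix.of_apply]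
  rw [Finset.sum_congr rfl fun k _ => mul_comm _ _,
    cosetCoeff_spec G hA hE hf g z i, ← hw i]
  exact Finset.sum_congr rfl fun k _ => mul_comm _ _

end FermatLib.MLT.Two.FlatTwo
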