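import Fermat.Agent.MLT.Two.Flat.Residue
import Fermat.Agent.Galois.Flat.Connected

/-!
# The supersingular line

If inertia acts through a fixed-point-free element of order `3` on a point `d` killed by `2` (all
modulo a stable subgroup `N₀`), the functions of an integral model have differences at `d` of
valuation `≥ 1/3`, with equality for some function, and powers of that function span.
-/

set_option autoImplicit false

noncomputable section

namespace FermatLib.MLT.Two.FlatTwo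

open FermatLib.Galois.Flat

local notation "Qbar" => AlgebraicClosure ℚ
local notation "Γℚ" => (AlgebraicClosure ℚ ≃ₐ[ℚ] AlgebraicClosure ℚ)

variable {A : ValuationSubring Qbar} {M : Type*} [AddCommGroup M] {act : Γℚ → M →+ M}

/-- `d` spans, modulo `N₀`, a group of order `4` on which inertia acts through fixed-point-free
rotations of order `3`. -/
structure IsCubicLine (C : InertiaCubic A) (act : Γℚ → M →+ M) (N₀ : AddSubgroup M) (d : M) :
    Prop where
  stable : IsInertiaStable A act N₀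
  not_mem : d ∉ N₀
  two_mem : 2 • d ∈ N₀
  fixed : ∀ τ ∈ C.H, act τ d - d ∈ N₀
  sum_mem : d + act C.σ₀ d + act C.σ₀ (act C.σ₀ d) ∈ N₀

variable (G : IntegralModel A act) (hA : A.LiesOverPrime 2) [Finite M]

include hA in
/-- The second difference is bounded by the product of the bounds of the two steps. -/
lemma valuation_secondDiff_le {N₀ : AddSubgroup M} (hN : IsInertiaStable A act N₀) {f g : M}
    {γ γ' : A.ValueGroup} (hf : ∀ h ∈ G.invariants N₀, A.valuation (h f - h 0) ≤ γ)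
    (hg : ∀ h ∈ G.invariants N₀, A.valuation (h g - h 0) ≤ γ') {h : M → Qbar}
    (hh : h ∈ G.invariants N₀) (x : M) :
    A.valuation (h (x + f + g) - h (x + f) - h (x + g) + h x) ≤ γ * γ' := by
  obtain ⟨n, a, b, ha, hb, hab⟩ := G.comul_invariants Nat.prime_two hA hN hh
  have e : h (x + f + g) - h (x + f) - h (x + g) + h x =
      ∑ i, (a i (x + f) - a i x) * (b i g - b i 0) := by
    have h1 : h (x + f) = ∑ i, a i (x + f) * b i 0 := by rw [← hab, add_zero]
    have h2 : h x = ∑ i, a i x * b i 0 := by rw [← hab, add_zero]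
    rw [hab (x + f) g, hab x g, h1, h2]
    simp only [sub_mul, mul_sub, Finset.sum_sub_distrib]
    ring
  rw [e]
  refine A.valuation.map_sum_le fun i _ => ?_
  rw [map_mul]
  refine mul_le_mul' ?_ (hg _ (hb i))
  simpa [fwdDiff] using G.valuation_fwdDiff_iter_le Nat.prime_two hA hN hf 1 (a i) (ha i) x

variable {C : InertiaCubic A} {N₀ : AddSubgroup M} {d : M} (hd : IsCubicLine C act N₀ d)

include hd

lemma apply_fixed {h : M → Qbar} (hh : h ∈ G.invariants N₀) {τ : Γℚ} (hτ : τ ∈ C.H) :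
    τ (h d - h 0) = h d - h 0 := by
  rw [map_sub, ← G.equivariant τ (C.le_inertia hτ) h (G.mem_invariants.mp hh).1,
    ← G.equivariant τ (C.le_inertia hτ) h (G.mem_invariants.mp hh).1, map_zero,
    G.invariants_eq_of_sub_mem hh (hd.fixed τ hτ)]

lemma delta_rot {h : M → Qbar} (hh : h ∈ G.invariants N₀) :
    h (act C.σ₀ d) - h 0 = C.σ₀ (h d - h 0) ∧
      h (act C.σ₀ (act C.σ₀ d)) - h 0 = C.σ₀ (C.σ₀ (h d - h 0)) ∧
      h (d + act C.σ₀ d) - h 0 = C.σ₀ (C.σ₀ (h d - h 0)) := by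
  have hh' := (G.mem_invariants.mp hh).1
  have h0 : C.σ₀ (h 0) = h 0 := by rw [← G.equivariant _ C.σ₀_mem h hh', map_zero]
  have h1 : h (act C.σ₀ d) - h 0 = C.σ₀ (h d - h 0) := by
    rw [map_sub, h0, G.equivariant _ C.σ₀_mem h hh']
  have h2 : h (act C.σ₀ (act C.σ₀ d)) - h 0 = C.σ₀ (C.σ₀ (h d - h 0)) := by
    rw [← h1, map_sub, h0, G.equivariant _ C.σ₀_mem h hh']
  refine ⟨h1, h2, ?_⟩
  rw [← h2]
  congr 1
  refine G.invariants_eq_of_sub_mem hh ?_
  have := N₀.sub_mem hd.sum_mem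
    (hd.stable _ C.σ₀_mem _ (hd.stable _ C.σ₀_mem _ hd.two_mem))
  rw [map_nsmul, map_nsmul, two_nsmul] at this
  convert this using 1
  abel

include hA in
/-- Additivity to second order on the line. -/
lemma valuation_additive_le {γ : A.ValueGroup}
    (hγ : ∀ h ∈ G.invariants N₀, A.valuation (h d - h 0) ≤ γ) {h : M → Qbar}
    (hh : h ∈ G.invariants N₀) :
    A.valuation (C.σ₀ (C.σ₀ (h d - h 0)) - (h d - h 0) - C.σ₀ (h d - h 0)) ≤ γ * γ := by
  obtain ⟨h1, -, h3⟩ := delta_rot G hd hh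
  have hγσ : ∀ k ∈ G.invariants N₀, A.valuation (k (act C.σ₀ d) - k 0) ≤ γ := fun k hk => by
    rw [(delta_rot G hd hk).1, valuation_apply_eq (mem_decomposition_of_mem_inertia C.σ₀_mem)]
    exact hγ k hk
  have h := valuation_secondDiff_le G hA hd.stable hγ hγσ hh 0
  simp only [zero_add] at h
  rw [← h3, ← h1]
  convert h using 2
  ring

lemma trace_fixed {h : M → Qbar} (hh : h ∈ G.invariants N₀) :
    ∀ σ ∈ A.inertiaSubgroupIn ℚ,
      σ ((h d - h 0) + C.σ₀ (h d - h 0) + C.σ₀ (C.σ₀ (h d - h 0))) =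
        (h d - h 0) + C.σ₀ (h d - h 0) + C.σ₀ (C.σ₀ (h d - h 0)) := by
  have hconj : ∀ τ ∈ C.H, ∀ y, (∀ ν ∈ C.H, ν y = y) → τ (C.σ₀ y) = C.σ₀ y := by
    intro τ hτ y hy
    calc τ (C.σ₀ y) = C.σ₀ ((C.σ₀⁻¹ * τ * C.σ₀) y) := by
          simp only [AlgEquiv.mul_apply, AlgEquiv.aut_inv]; rw [AlgEquiv.apply_symm_apply]
      _ = C.σ₀ y := by rw [hy _ (C.conj_mem τ hτ)]
  set y := h d - h 0
  have f0 : ∀ τ ∈ C.H, τ y = y := fun τ hτ => apply_fixed G hd hh hτ
  have f1 := fun τ hτ => hconj τ hτ y f0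
  have f2 := fun τ hτ => hconj τ hτ (C.σ₀ y) f1
  intro σ hσ
  obtain ⟨i, τ, hτ, rfl⟩ := C.gen σ hσ
  have hcube : C.σ₀ (C.σ₀ (C.σ₀ y)) = y := by
    have := f0 _ C.cube_mem
    rwa [pow_succ, pow_two, AlgEquiv.mul_apply, AlgEquiv.mul_apply] at this
  rw [AlgEquiv.mul_apply, map_add τ, map_add τ, f0 τ hτ, f1 τ hτ, f2 τ hτ, apply_iterate_eq]
  refine Function.iterate_fixed ?_ i
  rw [map_add, map_add, hcube]
  ring

include G hA in
/-- The differences at `d` have valuation at least `1/3`, with equality for some function. -/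
theorem exists_uniformizer :
    ∃ h₀ ∈ G.invariants N₀, A.valuation (h₀ d - h₀ 0) = ev A 2 ∧
      ∀ h ∈ G.invariants N₀, A.valuation (h d - h 0) ≤ ev A 2 := by
  obtain ⟨h₀, hh₀, hc0, hγ⟩ := G.exists_dominant Nat.prime_two hA hd.stable hd.not_mem
  have hh₀' := (G.mem_invariants.mp hh₀).1
  have hσD := mem_decomposition_of_mem_inertia C.σ₀_mem
  have hlt : ∀ h ∈ G.invariants N₀, A.valuation (h d - h 0) < 1 := by
    intro h hh
    have h2 : h (2 • d) = h 0 := G.invariants_eq_of_sub_mem hh (by simpa using hd.two_mem)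
    have h3 : A.valuation (h (d + act C.σ₀ d) - h (2 • d)) < 1 := by
      refine G.valuation_sub_lt_one_of_sub_mem ?_ (G.mem_invariants.mp hh).1
      rw [two_nsmul, add_sub_add_left_eq_sub]
      exact G.act_sub_mem_conn C.σ₀_mem d
    rwa [h2, (delta_rot G hd hh).2.2, valuation_apply_eq hσD, valuation_apply_eq hσD] at h3
  have hc1 := hlt h₀ hh₀
  set c := h₀ d - h₀ 0 with hc
  have hcfix : ∀ τ ∈ C.H, τ c = c := fun τ hτ => apply_fixed G hd hh₀ hτ
  obtain ⟨j, hj⟩ := C.exists_even hA c (fun h => hc0 (by rw [h, map_zero])) hcfix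
  have hle := G.valuation_prime_le_pow Nat.prime_two hA hd.stable hd.two_mem hh₀ hc0 hc1 hγ
  rw [← hc, pow_one, hj, Nat.cast_ofNat, ← ev_six, ev_le_ev hA] at hle
  rw [hj, ← ev_zero (A := A), ev_lt_ev hA] at hc1
  have hadd : ∀ h ∈ G.invariants N₀, A.valuation (C.σ₀ (C.σ₀ (h d - h 0)) - (h d - h 0) -
      C.σ₀ (h d - h 0)) ≤ ev A (4 * j) := by
    intro h hh
    refine (valuation_additive_le G hA hd hγ hh).trans ?_
    rw [hj, ← ev_add]
    exact ((ev_le_ev hA).mpr (by omega))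
  have hres : ∀ w, A.valuation w ≤ 1 → A.valuation (C.σ₀ w - w) < 1 := fun w hw =>
    valuation_apply_sub_lt_one C.σ₀_mem ((A.valuation_le_one_iff w).mp hw)
  -- exclude valuation one
  have hj3 : j ≠ 3 := by
    intro h3
    subst h3
    have hu : ∃ u, c = 2 * u ∧ A.valuation u = 1 := by
      refine ⟨c / 2, by ring, ?_⟩
      rw [map_div₀, hj, ← ev_six]; exact div_self (ev_ne_zero _)
    obtain ⟨u, hcu, hu1⟩ := hu
    have hdiff : A.valuation (C.σ₀ c - c) < ev A 6 := by
      rw [hcu, map_mul, map_ofNat, ← mul_sub, map_mul, ← ev_six]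
      exact mul_lt_of_lt_one_right (ev_pos 6) (hres u hu1.le)
    have hdiff2 : A.valuation (C.σ₀ (C.σ₀ c) - C.σ₀ c) < ev A 6 := by
      rw [← map_sub, valuation_apply_eq hσD]; exact hdiff
    have h12 : A.valuation (C.σ₀ (C.σ₀ c) - c - C.σ₀ c) < ev A 6 :=
      (hadd h₀ hh₀).trans_lt ((ev_lt_ev hA).mpr (by norm_num))
    have : A.valuation c < ev A 6 := by
      rw [show c = -(C.σ₀ (C.σ₀ c) - c - C.σ₀ c) + (C.σ₀ (C.σ₀ c) - C.σ₀ c) by ring]
      exact A.valuation.map_add_lt (by rwa [Valuation.map_neg]) hdiff2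
    rw [hj] at this
    exact this.false
  obtain rfl | rfl : j = 1 ∨ j = 2 := by omega
  · exact ⟨h₀, hh₀, hj, fun h hh => by rw [← show A.valuation c = ev A 2 from hj]; exact hγ h hh⟩
  exfalso
  -- valuation two thirds
  have htr : ∀ h ∈ G.invariants N₀, A.valuation ((h d - h 0) + C.σ₀ (h d - h 0) +
      C.σ₀ (C.σ₀ (h d - h 0))) ≤ ev A 12 := by
    intro h hh
    have hy : A.valuation (h d - h 0) ≤ ev A 4 := (hγ h hh).trans_eq hj
    set y := h d - h 0
    have e : y + C.σ₀ y + C.σ₀ (C.σ₀ y) =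
        2 * C.σ₀ (C.σ₀ y) - (C.σ₀ (C.σ₀ y) - y - C.σ₀ y) := by ring
    have h8 : A.valuation (y + C.σ₀ y + C.σ₀ (C.σ₀ y)) ≤ ev A 8 := by
      rw [e]
      refine A.valuation.map_sub_le ?_ (hadd h hh)
      refine le_ev_mono hA (show (8 : ℤ) ≤ 6 + 4 by norm_num) (valuation_mul_le_ev ev_six.ge ?_)
      rw [valuation_apply_eq hσD, valuation_apply_eq hσD]; exact hy
    exact inertia_fixed_le hA (trace_fixed G hd hh) (n := 1)
      (le_ev_mono hA (by norm_num) h8)
  have hdec : ∀ h ∈ G.invariants N₀, ∃ r ∈ inertiaFixedRing A,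
      A.valuation ((h d - h 0) - r * c) ≤ ev A 8 := by
    intro h hh
    have hy : A.valuation (h d - h 0) ≤ ev A 4 := (hγ h hh).trans_eq hj
    have hT1 := htr h hh
    have hT2 := htr h₀ hh₀
    rw [← hc] at hT2
    set y := h d - h 0
    have hcne : c ≠ 0 := fun h => hc0 (by rw [h, map_zero])
    obtain ⟨r, hr, hlt⟩ := exists_fixed_residue hA (w := y / c) (by
      rw [mem_A_iff_le_ev, map_div₀, hj, ev_zero]
      exact (div_le_one₀ (ev_pos _)).mpr hy)
    refine ⟨r, hr, ?_⟩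
    set g := y - r * c with hg
    have hgfix : ∀ τ ∈ C.H, τ g = g := fun τ hτ => by
      rw [hg, map_sub, map_mul, hcfix τ hτ, hr.2 τ (C.le_inertia hτ), apply_fixed G hd hh hτ]
    have hg6 : A.valuation g ≤ ev A 6 := by
      refine C.le_ev_of_lt hA hgfix (n := 2) ?_
      rw [show g = (y / c - r) * c by rw [sub_mul, div_mul_cancel₀ _ hcne], map_mul, hj]
      exact mul_lt_of_lt_one_left (ev_pos _) hlt
    refine C.le_ev_of_lt hA hgfix (n := 3) (lt_of_le_of_ne hg6 fun heq => ?_)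
    have hu1 : A.valuation (g / 2) = 1 := by rw [map_div₀, heq, ← ev_six]; exact div_self (ev_ne_zero _)
    have hTg : A.valuation (g + C.σ₀ g + C.σ₀ (C.σ₀ g)) ≤ ev A 12 := by
      have e : g + C.σ₀ g + C.σ₀ (C.σ₀ g) =
          (y + C.σ₀ y + C.σ₀ (C.σ₀ y)) - r * (c + C.σ₀ c + C.σ₀ (C.σ₀ c)) := by
        simp only [hg, map_sub, map_mul, hr.2 C.σ₀ C.σ₀_mem]; ring
      rw [e]
      refine A.valuation.map_sub_le hT1 ?_
      simpa using valuation_mul_le_ev ((mem_A_iff_le_ev).mp hr.1) hT2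
    have h1 : A.valuation (C.σ₀ (g / 2) - g / 2) < 1 := hres _ hu1.le
    have h2 : A.valuation (C.σ₀ (C.σ₀ (g / 2)) - C.σ₀ (g / 2)) < 1 := by
      rw [← map_sub, valuation_apply_eq hσD]; exact h1
    have h3 : A.valuation ((g + C.σ₀ g + C.σ₀ (C.σ₀ g)) / 2) < 1 := by
      rw [map_div₀, ← ev_six, div_lt_one₀ (ev_pos _)]
      exact hTg.trans_lt ((ev_lt_ev hA).mpr (by norm_num))
    have h4 : A.valuation ((3 : ℕ) * (g / 2)) < 1 := by
      rw [show ((3 : ℕ) : Qbar) * (g / 2) = (g + C.σ₀ g + C.σ₀ (C.σ₀ g)) / 2 -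
        ((C.σ₀ (g / 2) - g / 2) + (C.σ₀ (g / 2) - g / 2) +
          (C.σ₀ (C.σ₀ (g / 2)) - C.σ₀ (g / 2))) by
          simp only [map_div₀, map_ofNat]; push_cast; ring]
      exact (A.valuation.map_sub _ _).trans_lt
        (max_lt h3 (A.valuation.map_add_lt (A.valuation.map_add_lt h1 h1) h2))
    rw [map_mul, hu1, mul_one, valuation_natCast_odd hA (by norm_num), ev_zero] at h4
    exact h4.false
  -- the quadratic relation at `d`
  obtain ⟨n, a, b, ha, hb, hab⟩ := G.comul_invariants Nat.prime_two hA hd.stable hh₀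
  choose ra hra hrav using fun i => hdec (a i) (ha i)
  choose rb hrb hrbv using fun i => hdec (b i) (hb i)
  let R : Qbar := ∑ i, ra i * rb i
  have hRfix : ∀ σ ∈ A.inertiaSubgroupIn ℚ, σ R = R := fun σ hσ => by
    simp [R, map_sum, (hra _).2 σ hσ, (hrb _).2 σ hσ]
  have hRA : A.valuation R ≤ 1 :=
    (A.valuation_le_one_iff _).mpr (sum_mem fun i _ => mul_mem (hra i).1 (hrb i).1)
  have hrel : A.valuation (2 * c + R * c ^ 2) ≤ ev A 12 := by
    have hh2 : h₀ (d + d) = h₀ 0 :=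
      G.invariants_eq_of_sub_mem hh₀ (by simpa [two_nsmul] using hd.two_mem)
    have e : 2 * c + R * c ^ 2 =
        -∑ i, ((a i d - a i 0) * (b i d - b i 0) - ra i * c * (rb i * c)) := by
      have h1 : h₀ d = ∑ i, a i d * b i 0 := by rw [← hab, add_zero]
      have h2 : h₀ d = ∑ i, a i 0 * b i d := by rw [← hab, zero_add]
      have h3 : h₀ 0 = ∑ i, a i 0 * b i 0 := by rw [← hab, add_zero]
      have h4 : h₀ 0 = ∑ i, a i d * b i d := by rw [← hab, hh2]
      have h5 : ∑ i, ra i * c * (rb i * c) = R * c ^ 2 := by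
        simp only [R, Finset.sum_mul]; exact Finset.sum_congr rfl fun i _ => by ring
      have key : ∑ i, (a i d - a i 0) * (b i d - b i 0) = -(2 * c) := by
        simp only [Finset.sum_sub_distrib, sub_mul, mul_sub, hc]
        linear_combination h1 + h2 - h3 - h4
      rw [Finset.sum_sub_distrib, key, h5]
      ring
    rw [e, Valuation.map_neg]
    refine A.valuation.map_sum_le fun i _ => ?_
    rw [show (a i d - a i 0) * (b i d - b i 0) - ra i * c * (rb i * c) =
      ((a i d - a i 0) - ra i * c) * (b i d - b i 0) +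
        (ra i * c) * ((b i d - b i 0) - rb i * c) by ring]
    refine A.valuation.map_add_le
      (valuation_mul_le_ev (hrav i) ((hγ _ (hb i)).trans_eq hj)) ?_
    refine le_of_le_of_eq (valuation_mul_le_ev (m := 4) ?_ (hrbv i)) rfl
    have := valuation_mul_le_ev ((mem_A_iff_le_ev).mp (hra i).1) hj.le
    simpa using this
  have h10 : A.valuation (2 * c) = ev A 10 := by
    rw [map_mul, hj, ← ev_six, ← ev_add]
    norm_num
  have hne : A.valuation (R * c ^ 2) ≠ ev A 10 := by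
    intro h
    rcases eq_or_ne R 0 with h0 | h0
    · rw [h0, zero_mul, map_zero] at h; exact ev_ne_zero _ h.symm
    obtain ⟨k, hk⟩ := inertia_fixed_even hA h0 hRfix
    rw [map_mul, map_pow, hk, hj, ev_pow, ← ev_add, ev_inj hA] at h
    omega
  have : ev A 10 ≤ A.valuation (2 * c + R * c ^ 2) := by
    rw [A.valuation.map_add_of_distinct_val (by rw [h10]; exact hne.symm), h10]
    exact le_max_left _ _
  exact absurd (this.trans hrel) (not_le.mpr ((ev_lt_ev hA).mpr (by norm_num)))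

end FermatLib.MLT.Two.FlatTwo
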