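import Fermat.Agent.MLT.Two.Flat.Sixth
import Fermat.Agent.Galois.Flat.Model
import Fermat.Agent.Basic.FrobeniusExists
import Mathlib.FieldTheory.KummerExtension
import Mathlib.RingTheory.RootsOfUnity.AlgebraicallyClosed

/-!
# Residues at a place over `2` are residues of inertia-fixed elements
-/

set_option autoImplicit false

noncomputable section

namespace FermatLib.MLT.Two.FlatTwo

open FermatLib.Galois.Flat

local notation "Qbar" => AlgebraicClosure ℚ
local notation "Γℚ" => (AlgebraicClosure ℚ ≃ₐ[ℚ] AlgebraicClosure ℚ)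

variable {A : ValuationSubring Qbar}

lemma valuation_frobenius_sub {p : ℕ} {F : Γℚ} (hF : A.IsFrobeniusAt F p) {a : Qbar} (ha : a ∈ A) :
    A.valuation (F a - a ^ p) < 1 := by
  have h := hF.smul_residue_eq (IsLocalRing.residue A ⟨a, ha⟩)
  rw [← IsLocalRing.ResidueField.residue_smul, ← map_pow] at h
  exact (A.valuation_lt_one_iff _).mp (Ideal.Quotient.eq.mp h)

lemma valuation_frobenius_iterate_sub {p : ℕ} (hp : 0 < p) {F : Γℚ} (hF : A.IsFrobeniusAt F p)
    {a : Qbar} (ha : a ∈ A) (k : ℕ) : A.valuation (F^[k] a - a ^ p ^ k) < 1 := by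
  induction k with
  | zero => simp
  | succ k ih =>
    have h2 : A.valuation (F (F^[k] a - a ^ p ^ k)) < 1 := by
      rwa [valuation_apply_eq hF.mem_decompositionSubgroup]
    have e : F^[k + 1] a - a ^ p ^ (k + 1) =
        F (F^[k] a - a ^ p ^ k) + (F (a ^ p ^ k) - (a ^ p ^ k) ^ p) := by
      rw [Function.iterate_succ_apply', map_sub, ← pow_mul, ← pow_succ]; ring
    rw [e]
    exact A.valuation.map_add_lt h2 (valuation_frobenius_sub hF (pow_mem ha _))

/-- Every element of `A` is congruent to an element fixed by inertia. -/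
theorem exists_fixed_residue (hA : A.LiesOverPrime 2) {w : Qbar} (hw : w ∈ A) :
    ∃ r ∈ inertiaFixedRing A, A.valuation (w - r) < 1 := by
  classical
  rcases lt_or_eq_of_le ((A.valuation_le_one_iff w).mpr hw) with h1 | h1
  · exact ⟨0, zero_mem _, by simpa using h1⟩
  obtain ⟨F, hF⟩ := FermatLib.Basic.exists_isFrobeniusAt Nat.prime_two A hA
  obtain ⟨k, hk0, hk⟩ := exists_iterate_eq_self F w
  have hpk : A.valuation (w - w ^ 2 ^ k) < 1 := by
    have := valuation_frobenius_iterate_sub two_pos hF hw k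
    rwa [hk] at this
  set m := 2 ^ k - 1 with hm
  have h2k : 2 ^ k = m + 1 := by
    have := Nat.one_le_two_pow (n := k); omega
  have hmodd : ¬ 2 ∣ m := by
    have h2 : 2 ∣ 2 ^ k := dvd_pow_self 2 hk0.ne'
    omega
  have hm0 : 0 < m := by
    rcases Nat.eq_zero_or_pos m with h | h
    · rw [h] at hmodd; exact absurd (dvd_zero 2) hmodd
    · exact h
  have hwm : A.valuation (w ^ m - 1) < 1 := by
    have e : A.valuation (w * (1 - w ^ m)) < 1 := by
      rwa [show w * (1 - w ^ m) = w - w ^ 2 ^ k by rw [h2k, pow_succ]; ring]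
    rw [map_mul, h1, one_mul] at e
    rwa [Valuation.map_sub_swap]
  have : NeZero m := ⟨hm0.ne'⟩
  obtain ⟨ζ, hζ⟩ := HasEnoughRootsOfUnity.exists_primitiveRoot Qbar m
  have hprod : w ^ m - 1 = ∏ i ∈ Finset.range m, (w - ζ ^ i) := by
    have h := congrArg (Polynomial.eval w) (X_pow_sub_C_eq_prod hζ hm0 (one_pow m))
    simpa [Polynomial.eval_prod, mul_one] using h
  have hζA : ∀ i : ℕ, ζ ^ i ∈ A := fun i => pow_mem (mem_A_of_isIntegral A (hζ.isIntegral hm0)) i
  obtain ⟨i, -, hi⟩ : ∃ i ∈ Finset.range m, A.valuation (w - ζ ^ i) < 1 := by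
    by_contra! h
    apply hwm.not_ge
    rw [hprod, map_prod]
    exact Finset.one_le_prod' h
  refine ⟨ζ ^ i, ⟨hζA i, fun σ hσ => ?_⟩, hi⟩
  suffices σ ζ = ζ by rw [map_pow, this]
  obtain ⟨j, hj, hσj⟩ := hζ.eq_pow_of_pow_eq_one
    (show σ ζ ^ m = 1 by rw [← map_pow, hζ.pow_eq_one, map_one])
  by_contra hne
  have hlt : A.valuation (ζ ^ j - ζ) < 1 := by
    rw [hσj]; simpa using valuation_apply_sub_lt_one hσ (hζA 1)
  have hξ : (ζ ^ j / ζ) ^ m = 1 := by
    rw [div_pow, ← pow_mul, mul_comm, pow_mul, hζ.pow_eq_one, one_pow, div_one]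
  have hζ0 : ζ ≠ 0 := hζ.ne_zero hm0.ne'
  have hξ1 : ζ ^ j / ζ ≠ 1 := fun h => hne (by rw [← hσj, (div_eq_one_iff_eq hζ0).mp h])
  set ξ := ζ ^ j / ζ with hξdef
  have hgs : ∑ k ∈ Finset.range m, ξ ^ k = 0 := by
    have := mul_geom_sum ξ m
    rw [hξ, sub_self] at this
    exact (mul_eq_zero.mp this).resolve_left (sub_ne_zero.mpr hξ1)
  have hξint : IsIntegral ℤ ξ := .of_pow hm0 (by rw [hξ]; exact isIntegral_one)
  have hξlt : A.valuation (ξ - 1) < 1 := by
    rw [hξdef, div_sub_one hζ0, map_div₀]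
    have hvζ : A.valuation ζ = 1 := by
      refine (pow_left_inj₀ zero_le zero_le hm0.ne').mp ?_
      rw [← map_pow, hζ.pow_eq_one, map_one, one_pow]
    rwa [hvζ, div_one]
  have hmlt : A.valuation (m : Qbar) < 1 := by
    have e : (m : Qbar) = ∑ k ∈ Finset.range m, (1 - ξ ^ k) := by
      rw [Finset.sum_sub_distrib, hgs]; simp
    rw [e]
    refine A.valuation.map_sum_lt one_ne_zero fun k _ => ?_
    rw [Valuation.map_sub_swap, ← geom_sum_mul ξ k, map_mul]
    exact (mul_le_of_le_one_left' ((A.valuation_le_one_iff _).mpr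
      (sum_mem fun l _ => pow_mem (mem_A_of_isIntegral A hξint) l))).trans_lt hξlt
  rw [valuation_natCast_odd hA hmodd, ev_zero] at hmlt
  exact lt_irrefl _ hmlt

end FermatLib.MLT.Two.FlatTwo
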