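import Fermat.Agent.Galois.Flat.Ramification

/-!
# Valuations over the cubic tame level at `2`

`InertiaCubic A` records a normal subgroup `H` of the inertia group at `A` with quotient generated
by `σ₀`, `σ₀ ^ 3 ∈ H`.  All valuations are measured with a sixth root `π` of `2`: the valuation of
an element fixed by `H` is an even power of that of `π`.
-/

set_option autoImplicit false

noncomputable section

namespace FermatLib.MLT.Two.FlatTwo

open FermatLib.Galois.Flat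

local notation "Qbar" => AlgebraicClosure ℚ
local notation "Γℚ" => (AlgebraicClosure ℚ ≃ₐ[ℚ] AlgebraicClosure ℚ)

/-- A subgroup of inertia with cyclic quotient of order dividing `3`. -/
structure InertiaCubic (A : ValuationSubring Qbar) where
  H : Subgroup Γℚ
  σ₀ : Γℚ
  le_inertia : H ≤ A.inertiaSubgroupIn ℚ
  σ₀_mem : σ₀ ∈ A.inertiaSubgroupIn ℚ
  cube_mem : σ₀ ^ 3 ∈ H
  conj_mem : ∀ τ ∈ H, σ₀⁻¹ * τ * σ₀ ∈ H
  gen : ∀ σ ∈ A.inertiaSubgroupIn ℚ, ∃ i : ℕ, ∃ τ ∈ H, σ = σ₀ ^ i * τ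

variable {A : ValuationSubring Qbar}

lemma exists_sixth_root_two : ∃ π : Qbar, π ^ 6 = 2 :=
  IsAlgClosed.exists_pow_nat_eq 2 (by norm_num)

/-- A fixed sixth root of `2`. -/
def piSix : Qbar := exists_sixth_root_two.choose

lemma piSix_pow : piSix ^ 6 = (2 : Qbar) := exists_sixth_root_two.choose_spec

lemma piSix_ne_zero : piSix ≠ 0 := by
  intro h
  have := piSix_pow
  rw [h] at this
  norm_num at this

/-- `ev A n` is the valuation of `π ^ n`, so that `ev A n` has additive valuation `n / 6`. -/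
def ev (A : ValuationSubring Qbar) (n : ℤ) : A.ValueGroup := A.valuation piSix ^ n

lemma ev_six : ev A 6 = A.valuation (2 : Qbar) := by
  rw [ev, show (6 : ℤ) = ((6 : ℕ) : ℤ) from rfl, zpow_natCast, ← map_pow, piSix_pow]

lemma valuation_piSix_ne_zero : A.valuation piSix ≠ 0 := by
  rw [ne_eq, map_eq_zero]; exact piSix_ne_zero

lemma ev_ne_zero (n : ℤ) : ev A n ≠ 0 := zpow_ne_zero _ valuation_piSix_ne_zero

lemma ev_pos (n : ℤ) : 0 < ev A n := zero_lt_iff.mpr (ev_ne_zero n)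

@[simp] lemma ev_zero : ev A 0 = 1 := zpow_zero _

lemma ev_add (m n : ℤ) : ev A (m + n) = ev A m * ev A n := zpow_add₀ valuation_piSix_ne_zero m n

lemma ev_pow (m : ℤ) (k : ℕ) : ev A m ^ k = ev A (m * k) := by
  rw [ev, ev, zpow_mul, zpow_natCast]

variable (hA : A.LiesOverPrime 2)

include hA in
lemma valuation_piSix_lt_one : A.valuation piSix < 1 := by
  by_contra! h
  have h2 : (1 : A.ValueGroup) ≤ A.valuation (2 : Qbar) := by
    rw [← piSix_pow, map_pow]; exact one_le_pow_of_one_le' h 6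
  exact h2.not_gt (by simpa using valuation_prime_lt_one hA)

include hA in
lemma ev_le_ev {m n : ℤ} : ev A m ≤ ev A n ↔ n ≤ m :=
  zpow_le_zpow_iff_right_of_lt_one₀ (zero_lt_iff.mpr valuation_piSix_ne_zero)
    (valuation_piSix_lt_one hA)

include hA in
lemma ev_lt_ev {m n : ℤ} : ev A m < ev A n ↔ n < m :=
  zpow_lt_zpow_iff_right_of_lt_one₀ (zero_lt_iff.mpr valuation_piSix_ne_zero)
    (valuation_piSix_lt_one hA)

include hA in
lemma ev_inj {m n : ℤ} : ev A m = ev A n ↔ m = n :=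
  ⟨fun h => le_antisymm ((ev_le_ev hA).mp h.ge) ((ev_le_ev hA).mp h.le), fun h => h ▸ rfl⟩

lemma valuation_mul_le_ev {x y : Qbar} {m n : ℤ} (hx : A.valuation x ≤ ev A m)
    (hy : A.valuation y ≤ ev A n) : A.valuation (x * y) ≤ ev A (m + n) := by
  rw [map_mul, ev_add]; exact mul_le_mul' hx hy

lemma valuation_pow_le_ev {x : Qbar} {m : ℤ} (hx : A.valuation x ≤ ev A m) (k : ℕ) :
    A.valuation (x ^ k) ≤ ev A (m * k) := by
  rw [map_pow, ← ev_pow]; exact pow_le_pow_left₀ zero_le hx k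

lemma mem_A_iff_le_ev {x : Qbar} : x ∈ A ↔ A.valuation x ≤ ev A 0 := by
  rw [ev_zero]; exact (A.valuation_le_one_iff x).symm

include hA in
lemma le_ev_mono {x : Qbar} {m n : ℤ} (hmn : n ≤ m) (hx : A.valuation x ≤ ev A m) :
    A.valuation x ≤ ev A n := hx.trans ((ev_le_ev hA).mpr hmn)

include hA in
lemma valuation_natCast_odd {k : ℕ} (hk : ¬ 2 ∣ k) : A.valuation (k : Qbar) = ev A 0 := by
  rw [ev_zero]; exact valuation_natCast_eq_one Nat.prime_two hA hk

namespace InertiaCubic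

variable (C : InertiaCubic A)

include C hA in
/-- Elements fixed by `H` have even valuation in sixths. -/
theorem exists_even (x : Qbar) (hx : x ≠ 0) (hfix : ∀ τ ∈ C.H, τ x = x) :
    ∃ n : ℤ, A.valuation x = ev A (2 * n) := by
  let P := x * C.σ₀ x * C.σ₀ (C.σ₀ x)
  have hconj : ∀ τ ∈ C.H, ∀ y, (∀ ν ∈ C.H, ν y = y) → τ (C.σ₀ y) = C.σ₀ y := by
    intro τ hτ y hy
    calc τ (C.σ₀ y) = C.σ₀ ((C.σ₀⁻¹ * τ * C.σ₀) y) := by
          simp only [AlgEquiv.mul_apply, AlgEquiv.aut_inv]; rw [AlgEquiv.apply_symm_apply]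
      _ = C.σ₀ y := by rw [hy _ (C.conj_mem τ hτ)]
  have h1 := fun τ hτ => hconj τ hτ x hfix
  have h2 := fun τ hτ => hconj τ hτ (C.σ₀ x) h1
  have hσP : C.σ₀ P = P := by
    have h3 : C.σ₀ (C.σ₀ (C.σ₀ x)) = x := by
      have := hfix _ C.cube_mem
      rwa [pow_succ, pow_two, AlgEquiv.mul_apply, AlgEquiv.mul_apply] at this
    simp only [P, map_mul, h3]; ring
  have hPfix : ∀ σ ∈ A.inertiaSubgroupIn ℚ, σ P = P := by
    intro σ hσ
    obtain ⟨i, τ, hτ, rfl⟩ := C.gen σ hσ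
    rw [AlgEquiv.mul_apply]
    have : τ P = P := by simp only [P, map_mul, hfix τ hτ, h1 τ hτ, h2 τ hτ]
    rw [this, apply_iterate_eq, Function.iterate_fixed hσP]
  have hPne : P ≠ 0 := mul_ne_zero (mul_ne_zero hx ((map_ne_zero C.σ₀).mpr hx))
    ((map_ne_zero C.σ₀).mpr ((map_ne_zero C.σ₀).mpr hx))
  obtain ⟨k, hk⟩ := exists_valuation_eq_zpow Nat.prime_two hA hPne hPfix
  have hv : A.valuation P = A.valuation x ^ 3 := by
    simp only [P, map_mul, valuation_apply_eq (mem_decomposition_of_mem_inertia C.σ₀_mem)]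
    rw [pow_succ, pow_two]
  refine ⟨k, (pow_left_inj₀ zero_le zero_le three_ne_zero).mp ?_⟩
  rw [← hv, hk, ev_pow, show (2 * k) * ((3 : ℕ) : ℤ) = 6 * k by push_cast; ring, Nat.cast_ofNat,
    ← ev_six, ev, ev, ← zpow_mul]

include C hA in
lemma le_ev_of_lt {x : Qbar} (hfix : ∀ τ ∈ C.H, τ x = x) {n : ℤ}
    (hx : A.valuation x < ev A (2 * n)) : A.valuation x ≤ ev A (2 * n + 2) := by
  rcases eq_or_ne x 0 with rfl | h0
  · simp
  obtain ⟨m, hm⟩ := C.exists_even hA x h0 hfix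
  rw [hm, ev_lt_ev hA] at hx
  rw [hm, ev_le_ev hA]
  omega

end InertiaCubic

include hA in
lemma inertia_fixed_even {x : Qbar} (hx : x ≠ 0)
    (hfix : ∀ σ ∈ A.inertiaSubgroupIn ℚ, σ x = x) : ∃ n : ℤ, A.valuation x = ev A (6 * n) := by
  obtain ⟨k, hk⟩ := exists_valuation_eq_zpow Nat.prime_two hA hx hfix
  exact ⟨k, by rw [hk, Nat.cast_ofNat, ← ev_six, ev, ev, ← zpow_mul]⟩

include hA in
lemma inertia_fixed_le {x : Qbar} (hfix : ∀ σ ∈ A.inertiaSubgroupIn ℚ, σ x = x) {n : ℤ}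
    (hx : A.valuation x ≤ ev A (6 * n + 1)) : A.valuation x ≤ ev A (6 * (n + 1)) := by
  rcases eq_or_ne x 0 with rfl | h0
  · simp
  obtain ⟨m, hm⟩ := inertia_fixed_even hA h0 hfix
  rw [hm, ev_le_ev hA] at hx ⊢
  omega

end FermatLib.MLT.Two.FlatTwo
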