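import Fermat.Agent.Galois.Flat.Invariants

/-!
# Integral models of subquotients

A subquotient of an integral model, given by a map `sec` from the smaller group which is additive
and equivariant modulo a stable subgroup `K`, has an integral model.
-/

set_option autoImplicit false

noncomputable section

namespace FermatLib.MLT.Two.FlatTwo

open FermatLib.Galois.Flat

local notation "Qbar" => AlgebraicClosure ℚ
local notation "Γℚ" => (AlgebraicClosure ℚ ≃ₐ[ℚ] AlgebraicClosure ℚ)

variable {A : ValuationSubring Qbar} {p : ℕ} {M : Type*} [AddCommGroup M] [Finite M]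
  {act : Γℚ → M →+ M} (G : IntegralModel A act) {P : Type*} [AddCommGroup P]
  {act' : Γℚ → P →+ P}

include G in
/-- A subquotient of an integral model has an integral model. -/
theorem nonempty_subquotient_model (hp : p.Prime) (hA : A.LiesOverPrime p) {K : AddSubgroup M}
    (hK : IsInertiaStable A act K) (sec : P → M)
    (hadd : ∀ y z, sec (y + z) - (sec y + sec z) ∈ K)
    (hequiv : ∀ σ ∈ A.inertiaSubgroupIn ℚ, ∀ y, sec (act' σ y) - act σ (sec y) ∈ K)
    (hinj : ∀ y, sec y ∈ K → y = 0) : Nonempty (IntegralModel A act') := by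
  classical
  let L : (M → Qbar) →ₗ[inertiaFixedRing A] (P → Qbar) :=
    { toFun := fun g y => g (sec y)
      map_add' := fun _ _ => rfl
      map_smul' := fun _ _ => rfl }
  have hL : ∀ {g : M → Qbar}, g ∈ G.invariants K → L g ∈ (G.invariants K).map L :=
    fun hg => Submodule.mem_map_of_mem hg
  have hzero : sec 0 ∈ K := by
    have := K.neg_mem (hadd 0 0)
    simpa using this
  refine ⟨⟨(G.invariants K).map L, (G.invariants_fg hp hA K).map L,
    ⟨fun _ => 1, ⟨G.fns_one_mem, fun _ _ _ => rfl⟩, rfl⟩, ?_, ?_, ?_, ?_, ?_⟩⟩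
  · rintro _ _ ⟨a, ha, rfl⟩ ⟨b, hb, rfl⟩
    refine ⟨a * b, G.mem_invariants.mpr ⟨G.fns_mul_mem a b (G.mem_invariants.mp ha).1
      (G.mem_invariants.mp hb).1, fun x n hn => ?_⟩, rfl⟩
    simp only [Pi.mul_apply, (G.mem_invariants.mp ha).2 x n hn, (G.mem_invariants.mp hb).2 x n hn]
  · rintro _ ⟨g, hg, rfl⟩
    obtain ⟨n, a, b, ha, hb, hab⟩ := G.comul_invariants hp hA hK hg
    refine ⟨n, fun i => L (a i), fun i => L (b i), fun i => hL (ha i), fun i => hL (hb i),
      fun y z => ?_⟩
    change g (sec (y + z)) = _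
    rw [G.invariants_eq_of_sub_mem hg (hadd y z), hab]
    rfl
  · rintro _ ⟨g, hg, rfl⟩ y
    exact G.apply_mem g (G.mem_invariants.mp hg).1 _
  · rintro σ hσ _ ⟨g, hg, rfl⟩ y
    change g (sec (act' σ y)) = σ (g (sec y))
    rw [G.invariants_eq_of_sub_mem hg (hequiv σ hσ y),
      G.equivariant σ hσ g (G.mem_invariants.mp hg).1]
  · intro y hy
    obtain ⟨g, hg, hne⟩ := G.separates_invariants hp hA hK fun h => hy (hinj y h)
    refine ⟨L g, hL hg, ?_⟩
    change g (sec y) ≠ g (sec 0)
    rwa [G.invariants_eq_of_sub_mem hg (show sec 0 - 0 ∈ K by simpa using hzero)]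

end FermatLib.MLT.Two.FlatTwo
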